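import Fermat.Agent.JAC.X0.Act
import Fermat.Agent.GR.RT.Targets
import Fermat.Agent.CFT.Density.Places

/-!
# Good primes, traces of Frobenius, Hecke polynomials on `J₀(N)`

`GoodPrime rb M` are the primes at which `rb` is unramified and which do not divide `M p`; `trFrob`
is the trace of `rb` at a Frobenius element there; `hecT N i ↦ T ℓ` sends polynomials in the good
primes to the Hecke algebra of level `N`, whose action is that of the `heckeOperatorBar`.
-/

set_option autoImplicit false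

noncomputable section

open ModularCurve MvPolynomial

namespace Fermat.BAD.AtP

open Fermat.GR Fermat.GR.RT Fermat.CFT

local notation "ℚbar" => AlgebraicClosure ℚ
local notation "Γℚ" => (AlgebraicClosure ℚ ≃ₐ[ℚ] AlgebraicClosure ℚ)

variable {p : ℕ} [Fact p.Prime] (rb : Γℚ →* GL (Fin 2) (ZMod p)) (M : ℕ)

local notation "M2p" => Matrix (Fin 2) (Fin 2) (ZMod p)

/-- The good primes. -/
def GoodPrime : Type := {ℓ : ℕ // ℓ.Prime ∧ ¬ ℓ ∣ M * p ∧ IsResUnramified p rb ℓ}

variable {rb M}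

/-- The label of a good prime. -/
def GoodPrime.toPrimes (i : GoodPrime rb M) : Nat.Primes := ⟨i.1, i.2.1⟩

variable (rb) in
/-- The trace of `rb` at a Frobenius element over `ℓ`. -/
def trFrob (ℓ : ℕ) : ZMod p :=
  Classical.epsilon fun a => ∃ A : ValuationSubring ℚbar, A.LiesOverPrime ℓ ∧
    ∃ φ : Γℚ, A.IsFrobeniusAt φ ℓ ∧ (rb φ : M2p).trace = a

/-- `trFrob` is the trace at every Frobenius element over `ℓ`. -/
theorem trFrob_eq {ℓ : ℕ} (hℓ : ℓ.Prime) (hu : IsResUnramified p rb ℓ)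
    {A : ValuationSubring ℚbar} (hA : A.LiesOverPrime ℓ) {φ : Γℚ} (hφ : A.IsFrobeniusAt φ ℓ) :
    trFrob rb ℓ = (rb φ : M2p).trace := by
  obtain ⟨B, hB, ψ, hψ, h⟩ := Classical.epsilon_spec
    (p := fun a => ∃ B : ValuationSubring ℚbar, B.LiesOverPrime ℓ ∧
      ∃ ψ : Γℚ, B.IsFrobeniusAt ψ ℓ ∧ (rb ψ : M2p).trace = a) ⟨_, A, hA, φ, hφ, rfl⟩
  exact h.symm.trans (GR.RT.trace_frobenius_eq hℓ hu hA hB hφ hψ)

/-- `trFrob` at a good prime. -/
theorem GoodPrime.trFrob_eq (i : GoodPrime rb M) {A : ValuationSubring ℚbar}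
    (hA : A.LiesOverPrime i.1) {φ : Γℚ} (hφ : A.IsFrobeniusAt φ i.1) :
    trFrob rb i.1 = (rb φ : M2p).trace :=
  Fermat.BAD.AtP.trFrob_eq i.2.1 i.2.2.2 hA hφ

variable (rb M) in
/-- The values of `rb` on polynomials in the good primes. -/
def trEval : MvPolynomial (GoodPrime rb M) ℤ →+* ZMod p :=
  eval₂Hom (Int.castRingHom (ZMod p)) fun i => trFrob rb i.1

/-- A good prime is prime to `M * p`. -/
theorem GoodPrime.not_dvd_mul (i : GoodPrime rb M) : ¬ (i.toPrimes : ℕ) ∣ M * p := i.2.2.1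

/-- A good prime is prime to `M`. -/
theorem GoodPrime.not_dvd (i : GoodPrime rb M) : ¬ (i.toPrimes : ℕ) ∣ M :=
  fun h => i.2.2.1 (h.mul_right p)

/-- A good prime is prime to the divisors of `M * p`. -/
theorem GoodPrime.not_dvd_of_dvd {N : ℕ} (hN : N ∣ M * p) (i : GoodPrime rb M) :
    ¬ (i.toPrimes : ℕ) ∣ N :=
  fun h => i.2.2.1 (h.trans hN)

section Hecke

variable (N : ℕ) [NeZero N] (hN : N ∣ M * p)

/-- Polynomials in the good primes in the Hecke algebra. -/
def hecT : MvPolynomial (GoodPrime rb M) ℤ →+* FullHecke N :=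
  eval₂Hom (Int.castRingHom (FullHecke N)) fun i =>
    CuspForm.heckeAlgebra.T i.toPrimes.2 (i.not_dvd_of_dvd hN) (Set.notMem_empty _)

/-- The value of a polynomial at the Hecke operators of `J₀(N)`. -/
def hecBar : MvPolynomial (GoodPrime rb M) ℤ →+* Module.End ℤ (JZero N) :=
  (heckeEvalBar (Fermat.JAC.X0.heckeOperatorsCommuteBar N)).comp
    (rename GoodPrime.toPrimes).toRingHom

/-- A variable gives the operator `T ℓ`. -/
theorem hecBar_X (i : GoodPrime rb M) :
    hecBar (rb := rb) (M := M) N (X i) = heckeOperatorBar N i.toPrimes := by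
  change heckeEvalBar _ (rename GoodPrime.toPrimes (X i)) = _
  rw [rename_X]
  exact heckeEvalBar_heckeGen _ _

/-- Any action of the Hecke algebra through the `T ℓ` computes the Hecke polynomials. -/
theorem act_hecT (act : FullHecke N →+* AddMonoid.End (JZero N))
    (hT : ∀ (ℓ : ℕ) (hℓ : ℓ.Prime) (hℓN : ¬ ℓ ∣ N) (x : JZero N),
      act (CuspForm.heckeAlgebra.T hℓ hℓN (Set.notMem_empty ℓ)) x = heckeOperatorBar N ⟨ℓ, hℓ⟩ x)
    (P : MvPolynomial (GoodPrime rb M) ℤ) (x : JZero N) :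
    act (hecT N hN P) x = hecBar N P x := by
  induction P using MvPolynomial.induction_on generalizing x with
  | C n =>
    rw [eq_intCast, map_intCast, map_intCast, map_intCast, AddMonoid.End.intCast_apply,
      Module.End.intCast_apply]
  | add P Q hP hQ =>
    rw [map_add, map_add, map_add, LinearMap.add_apply, ← hP, ← hQ]
    rfl
  | mul_X P i hP =>
    rw [map_mul, map_mul, map_mul, Module.End.mul_apply, hecBar_X, ← hP, hecT, eval₂Hom_X']
    exact congrArg _ (hT _ _ (i.not_dvd_of_dvd hN) x)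

/-- Relations in the Hecke algebra are relations on `J₀(N)`. -/
theorem hecBar_eq_zero_of_hecT {P : MvPolynomial (GoodPrime rb M) ℤ} (h : hecT N hN P = 0) :
    hecBar N P = 0 :=
  LinearMap.ext fun x => by
    rw [← act_hecT N hN (Fermat.JAC.X0.jAct N) (fun ℓ hℓ hℓN y => Fermat.JAC.X0.jAct_T N hℓ hℓN y),
      h, map_zero]
    rfl

end Hecke

section Frobenius

/-- If some element has no eigenvalue one, neither has the Frobenius of some good prime. -/
theorem exists_good_prime_of_det (hker : IsOpen (rb.ker : Set Γℚ))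
    (hdet : ∀ σ, (rb σ : M2p).det = ((cycChar p σ : (ZMod p)ˣ) : ZMod p)) {σ : Γℚ}
    (hσ : ((rb σ : M2p) - 1).det ≠ 0) (M : ℕ) [NeZero M] :
    ∃ i : GoodPrime rb M, trFrob rb i.1 ≠ ((i.1 + 1 : ℕ) : ZMod p) := by
  obtain ⟨T, hT⟩ := exists_finset_map_inertia_eq_one rb hker
  obtain ⟨ℓ, hℓ, hℓT, A, hA, -, φ, hφ, j, hj⟩ :=
    exists_frobenius_map_eq_pow rb hker σ (T ∪ (M * p).primeFactors)
  rw [Finset.mem_union, not_or] at hℓT
  have hℓN : ¬ ℓ ∣ M * p := fun h => hℓT.2 (Nat.mem_primeFactors.mpr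
    ⟨hℓ, h, mul_ne_zero (NeZero.ne M) (Fact.out : p.Prime).ne_zero⟩)
  have hu : IsResUnramified p rb ℓ := hT ℓ hℓ hℓT.1
  refine ⟨⟨ℓ, hℓ, hℓN, hu⟩, fun h => ?_⟩
  have hne : ℓ ≠ p := fun h => hℓN (h ▸ dvd_mul_left p M)
  have hd : (rb φ : M2p).det = ℓ := by rw [hdet, cycChar_frobenius hℓ hne hA hφ]
  rw [Fermat.BAD.AtP.trFrob_eq hℓ hu hA hφ] at h
  have h0 : ((rb φ : M2p) - 1).det = 0 := by
    have e : ((rb φ : M2p) - 1).det = (rb φ : M2p).det - (rb φ : M2p).trace + 1 := by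
      simp only [Matrix.det_fin_two, Matrix.trace_fin_two, Matrix.sub_apply, Matrix.one_apply_eq,
        Matrix.one_apply_ne (show (0 : Fin 2) ≠ 1 by decide),
        Matrix.one_apply_ne (show (1 : Fin 2) ≠ 0 by decide), sub_zero]
      ring
    rw [e, hd, h, Nat.cast_add, Nat.cast_one]
    ring
  have h1 : ((rb σ : M2p) - 1).det = 0 := by
    rw [hj, Units.val_pow_eq_pow_val, ← mul_geom_sum (rb φ : M2p) j, Matrix.det_mul, h0, zero_mul]
  exact hσ h1

/-- **Some good prime `ℓ` has trace other than `ℓ + 1`.** -/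
theorem exists_good_prime_ne (hp2 : 2 < p) (hrb : IsSemistableResidual p rb) (M : ℕ) [NeZero M] :
    ∃ i : GoodPrime rb M, trFrob rb i.1 ≠ ((i.1 + 1 : ℕ) : ZMod p) := by
  have h2 : ((2 : ℕ) : ZMod p) ≠ 0 := fun h => by
    rw [ZMod.natCast_eq_zero_iff] at h
    exact absurd (Nat.le_of_dvd two_pos h) (by omega)
  let g : GL (Fin 2) (ZMod p) := Matrix.GeneralLinearGroup.mkOfDetNeZero
    (((2 : ℕ) : ZMod p) • (1 : M2p)) (by
      rw [Matrix.det_smul, Matrix.det_one, mul_one]; exact pow_ne_zero _ h2)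
  obtain ⟨σ, hσ⟩ := hrb.surjective g
  refine exists_good_prime_of_det hrb.isOpen_ker hrb.det_eq (σ := σ) (fun h1 => ?_) M
  rw [hσ] at h1
  have e : ((g : M2p) - 1) = (((2 : ℕ) : ZMod p) - 1) • (1 : M2p) := by
    rw [sub_smul, one_smul]
    rfl
  rw [e, Matrix.det_smul, Matrix.det_one, mul_one] at h1
  refine one_ne_zero (α := ZMod p) ?_
  have h3 := eq_zero_of_pow_eq_zero h1
  push_cast at h3
  linear_combination h3

end Frobenius

end Fermat.BAD.AtP
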