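import Fermat.Agent.BAD.AtP.Bridge
import Fermat.Agent.GR.ES.EigenChar
import Fermat.Agent.MC.X0.Field

/-!
# A residual eigen system of a level dividing `N` vanishes on the relations of the lattice

If `rb` is modular of level `L ∣ N` and the Hecke polynomial `P` maps the lattice of level `N` into
`p` times itself, then `trEval rb M P = 0`.
-/

set_option autoImplicit false

noncomputable section

open MvPolynomial CongruenceSubgroup
open scoped MatrixGroups

namespace Fermat.BAD.AtP

open Fermat.GR Fermat.GR.RT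

local notation "Γℚ" => (AlgebraicClosure ℚ ≃ₐ[ℚ] AlgebraicClosure ℚ)

section Restrict

variable {L N : ℕ}

/-- `Γ₀(N)` is contained in `Γ₀(L)`. -/
theorem map_Gamma0_le (h : L ∣ N) :
    ((Gamma0 N : Subgroup SL(2, ℤ)) : Subgroup (GL (Fin 2) ℝ)) ≤
      ((Gamma0 L : Subgroup SL(2, ℤ)) : Subgroup (GL (Fin 2) ℝ)) :=
  Subgroup.map_mono (Fermat.MC.Gamma0_le_of_dvd N h)

/-- A cusp form of level `L` as one of level `N`. -/
def restrictForm (h : L ∣ N) (f : CuspForm (Gamma0 L) 2) : CuspForm (Gamma0 N) 2 where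
  toFun := f
  slash_action_eq' := fun γ hγ => f.slash_action_eq' γ (map_Gamma0_le h hγ)
  holo' := f.holo'
  zero_at_cusps' := fun {_} hc => f.zero_at_cusps' (hc.mono (map_Gamma0_le h))

/-- `restrictForm` does not change the function. -/
theorem coe_restrictForm (h : L ∣ N) (f : CuspForm (Gamma0 L) 2) : ⇑(restrictForm h f) = ⇑f := rfl

/-- `restrictForm` commutes with `T ℓ`, `ℓ` prime to `N`. -/
theorem heckeTLin_restrictForm {ℓ : ℕ} (h : L ∣ N) (hℓ : ℓ.Prime) (hℓN : ¬ ℓ ∣ N)
    (f : CuspForm (Gamma0 L) 2) :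
    CuspForm.heckeTLin 2 hℓ hℓN (restrictForm h f) =
      restrictForm h (CuspForm.heckeTLin 2 hℓ (fun hd => hℓN (hd.trans h)) f) :=
  DFunLike.coe_injective <| by
    rw [CuspForm.coe_heckeTLin_apply, coe_restrictForm, coe_restrictForm,
      CuspForm.coe_heckeTLin_apply]

/-- A normalised eigenform stays nonzero. -/
theorem restrictForm_ne_zero (h : L ∣ N) {f : CuspForm (Gamma0 L) 2}
    (hf : f.IsNormalizedEigenform) :
    restrictForm h f ≠ 0 := fun h0 => by
  have h1 : f = 0 := DFunLike.coe_injective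
    ((coe_restrictForm h f).symm.trans (congrArg DFunLike.coe h0))
  have h2 := hf.qCoeff_one
  rw [h1, ← Fermat.GR.Lifting.coeffLin_apply, map_zero] at h2
  exact zero_ne_one h2

/-- `restrictForm` commutes with scalars. -/
theorem restrictForm_smul (h : L ∣ N) (c : ℂ) (f : CuspForm (Gamma0 L) 2) :
    restrictForm h (c • f) = c • restrictForm h f := rfl

end Restrict

variable {p : ℕ} [Fact p.Prime] {rb : Γℚ →* GL (Fin 2) (ZMod p)} {M : ℕ}

omit [Fact (Nat.Prime p)] in
/-- A monic integral polynomial, congruent to a power of `X` modulo `p`, has only zero as root in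
characteristic `p`. -/
theorem eq_zero_of_monic_root {K : Type*} [CommRing K] [IsReduced K] [CharP K p] {q : Polynomial ℤ}
    (hq : q.Monic) (hc : ∀ k < q.natDegree, (p : ℤ) ∣ q.coeff k) {x : K}
    (hx : Polynomial.aeval x q = 0) : x = 0 := by
  rw [Polynomial.aeval_eq_sum_range, Finset.sum_range_succ, hq.coeff_natDegree, one_smul,
    Finset.sum_eq_zero, zero_add] at hx
  · exact IsNilpotent.eq_zero ⟨_, hx⟩
  · intro k hk
    rw [zsmul_eq_mul, (CharP.intCast_eq_zero_iff K p _).mpr (hc k (Finset.mem_range.mp hk)),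
      zero_mul]

/-- A Hecke polynomial mapping the lattice into `p` times itself is killed by a monic integral
polynomial congruent to a power of `X` modulo `p`. -/
theorem exists_monic_of_divisible {N : ℕ} [NeZero N] (hN : N ∣ M * p) (D : ESLattice N p)
    {P : MvPolynomial (GoodPrime rb M) ℤ}
    (hP : ∀ l : D.Λ, ∃ m : D.Λ, p • m = hecT N hN P • l) :
    ∃ q : Polynomial ℤ, q.Monic ∧ (∀ k < q.natDegree, (p : ℤ) ∣ q.coeff k) ∧
      hecT N hN (Polynomial.aeval P q) = 0 := by
  set t := hecT N hN P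
  let φ : Module.End ℤ D.Λ := (DistribSMul.toAddMonoidHom D.Λ t).toIntLinearMap
  obtain ⟨q, hq, -, hqc, hq0⟩ :=
    LinearMap.exists_monic_and_natDegree_eq_and_coeff_mem_pow_and_aeval_eq_zero ℤ φ
      (Ideal.span {(p : ℤ)}) (by
        rintro _ ⟨l, rfl⟩
        obtain ⟨m, hm⟩ := hP l
        rw [show φ l = (p : ℤ) • m from ((natCast_zsmul m p).trans hm).symm]
        exact Submodule.smul_mem_smul (Ideal.mem_span_singleton_self _) Submodule.mem_top)
  have ht0 : Polynomial.aeval t q = 0 := by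
    let Φ : FullHecke N →ₐ[ℤ] Module.End ℤ D.Λ :=
      (Module.toModuleEnd ℤ (S := FullHecke N) D.Λ).toIntAlgHom
    have e : Φ t = φ := LinearMap.ext fun l => rfl
    obtain ⟨k, -, v, hv, -⟩ := D.exists_basis
    have h1 : Polynomial.aeval t q • v 0 = 0 := by
      change Φ (Polynomial.aeval t q) (v 0) = 0
      rw [← Polynomial.aeval_algHom_apply, e, hq0, LinearMap.zero_apply]
    exact LinearIndependent.eq_zero_of_smul_mem_span hv 0 (Polynomial.aeval t q)
      (by rw [h1]; exact zero_mem _)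
  refine ⟨q, hq, fun k hk => Ideal.mem_span_singleton.mp
    (Ideal.pow_le_self (Nat.sub_pos_of_lt hk).ne' (hqc k)), ?_⟩
  rw [← ht0]
  exact (Polynomial.aeval_algHom_apply (hecT N hN).toIntAlgHom P q).symm

/-- **The residual eigen system kills the relations of the lattice.** -/
theorem trEval_eq_zero_of_divisible {L N : ℕ} [NeZero L] [NeZero N] (hLN : L ∣ N)
    (hN : N ∣ M * p) (hmod : ModularOf p rb L) (D : ESLattice N p)
    {P : MvPolynomial (GoodPrime rb M) ℤ}
    (hP : ∀ l : D.Λ, ∃ m : D.Λ, p • m = hecT N hN P • l) : trEval rb M P = 0 := by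
  obtain ⟨-, f, 𝔪, hf, h𝔪, hp𝔪, htr⟩ := hmod
  have := h𝔪
  -- the eigen values of `f` at the good primes
  let a : GoodPrime rb M → integralClosure ℤ ℂ := fun i =>
    eigenCharInt hf (CuspForm.heckeAlgebra.T i.toPrimes.2
      (fun hd => i.not_dvd_of_dvd hN (hd.trans hLN)) (Set.notMem_empty _))
  let χ : MvPolynomial (GoodPrime rb M) ℤ →+* integralClosure ℤ ℂ :=
    eval₂Hom (Int.castRingHom _) a
  have ha : ∀ i, (a i : ℂ) = ModularFormClass.qCoeff f i.1 := fun i =>
    coe_eigenCharInt_T hf _ _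
  set g := restrictForm hLN f with hg
  have hg0 : g ≠ 0 := restrictForm_ne_zero hLN hf
  have hTg : ∀ i : GoodPrime rb M, CuspForm.heckeTLin 2 i.toPrimes.2 (i.not_dvd_of_dvd hN) g =
      (a i : ℂ) • g := fun i => by
    have e := heckeAlgebra_apply_eigen hf (CuspForm.heckeAlgebra.T i.toPrimes.2
      (fun hd => i.not_dvd_of_dvd hN (hd.trans hLN)) (Set.notMem_empty _))
    rw [hg, heckeTLin_restrictForm, ← restrictForm_smul]
    exact congrArg (restrictForm hLN) e
  have hχ : ∀ Q, (hecT N hN Q).1 g = (χ Q : ℂ) • g := by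
    intro Q
    induction Q using MvPolynomial.induction_on with
    | C n => simp [χ, Int.cast_smul_eq_zsmul]
    | add Q R hQ hR =>
      rw [map_add, map_add, Subalgebra.coe_add, Subalgebra.coe_add, add_smul, ← hQ, ← hR]
      exact LinearMap.add_apply _ _ g
    | mul_X Q i hQ =>
      rw [map_mul, map_mul, show hecT N hN (X i) = CuspForm.heckeAlgebra.T i.toPrimes.2
        (i.not_dvd_of_dvd hN) (Set.notMem_empty _) from eval₂Hom_X' _ _ _]
      change (hecT N hN Q).1 (CuspForm.heckeTLin 2 i.toPrimes.2 (i.not_dvd_of_dvd hN) g) = _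
      rw [hTg, map_smul, hQ, smul_smul, mul_comm,
        show χ (X i) = a i from eval₂Hom_X' _ _ _]
      rfl
  -- modulo `𝔪` they are the traces of `rb`
  have : CharP (integralClosure ℤ ℂ ⧸ 𝔪) p :=
    (CharP.charP_iff_prime_eq_zero Fact.out).mpr (by
      rw [← map_natCast (Ideal.Quotient.mk 𝔪)]
      exact Ideal.Quotient.eq_zero_iff_mem.mpr hp𝔪)
  let : Field (integralClosure ℤ ℂ ⧸ 𝔪) := Ideal.Quotient.field 𝔪
  set c := ZMod.castHom (dvd_refl p) (integralClosure ℤ ℂ ⧸ 𝔪)
  have hres : (Ideal.Quotient.mk 𝔪).comp χ = c.comp (trEval rb M) := by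
    refine MvPolynomial.ringHom_ext (fun n => by simp) fun i => ?_
    have hℓ : i.1.Prime := i.2.1
    obtain ⟨A, hA⟩ := Fermat.CFT.exists_place hℓ
    obtain ⟨φ, hφ⟩ := Fermat.CFT.exists_isFrobeniusAt hℓ hA
    obtain ⟨b, hb, hb𝔪⟩ := htr i.1 hℓ (fun hd => i.not_dvd_of_dvd hN (hd.trans hLN))
      (fun h => i.2.2.1 (by rw [h]; exact dvd_mul_left p M)) i.2.2.2 A hA φ hφ
        ((trFrob rb i.1).val : ℤ)
      (by rw [Int.cast_natCast, ZMod.natCast_zmod_val, i.trFrob_eq hA hφ])
    obtain rfl : b = a i := Subtype.ext (hb.trans (ha i).symm)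
    rw [RingHom.comp_apply, RingHom.comp_apply, show χ (X i) = a i from eval₂Hom_X' _ _ _,
      show trEval rb M (X i) = trFrob rb i.1 from eval₂Hom_X' _ _ _,
      Ideal.Quotient.eq.mpr hb𝔪, Int.cast_natCast, map_natCast, ← map_natCast c,
      ZMod.natCast_zmod_val]
  -- a monic polynomial killing `P` on the lattice
  obtain ⟨q, hq, hqc, h1⟩ := exists_monic_of_divisible hN D hP
  have hχq : Polynomial.aeval (χ P) q = 0 := by
    have h2 := hχ (Polynomial.aeval P q)
    rw [h1, ← RingHom.toIntAlgHom_apply χ, ← Polynomial.aeval_algHom_apply] at h2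
    refine Subtype.ext ((smul_eq_zero.mp h2.symm).resolve_right hg0)
  have hx : Ideal.Quotient.mk 𝔪 (χ P) = 0 := by
    refine eq_zero_of_monic_root (p := p) hq hqc ?_
    rw [← RingHom.toIntAlgHom_apply (Ideal.Quotient.mk 𝔪), Polynomial.aeval_algHom_apply, hχq,
      map_zero]
  rw [← RingHom.comp_apply, hres, RingHom.comp_apply] at hx
  exact (map_eq_zero c).mp hx

end Fermat.BAD.AtP
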