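import Mathlib.LinearAlgebra.Matrix.GeneralLinearGroup.Defs
import Mathlib.Algebra.Module.ZMod
import Mathlib.Tactic

/-!
# Groups acting through `GL₂(𝔽_p)` with the quadratic relation

On a nonzero group killed by `p` on which every `σ` satisfies the characteristic polynomial of
`rb σ`, no element with image `diag (c, 1)`, `c ≠ 1`, is the scalar `c`; an element whose image has
no eigenvalue one moves everything.
-/

set_option autoImplicit false

noncomputable section

namespace Fermat.BAD.AtP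

open Matrix

variable {G V : Type*} [Group G] [AddCommGroup V] [DistribMulAction G V] {p : ℕ} [Fact p.Prime]
  (rb : G →* GL (Fin 2) (ZMod p))

local notation "M2p" => Matrix (Fin 2) (Fin 2) (ZMod p)

/-- `W` is killed by `p` and stable, every `σ` satisfies the characteristic polynomial of `rb σ` on
`W`, and the kernel of `rb` fixes `W` pointwise. -/
structure IsQuadratic (W : AddSubgroup V) : Prop where
  /-- `W` is killed by `p`. -/
  torsion : ∀ x ∈ W, p • x = 0
  /-- `W` is stable under the group. -/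
  stable : ∀ σ : G, ∀ x ∈ W, σ • x ∈ W
  /-- Every `σ` satisfies the characteristic polynomial of `rb σ` on `W`. -/
  relation : ∀ σ : G, ∀ x ∈ W,
    σ • σ • x - (rb σ : M2p).trace.val • σ • x + (rb σ : M2p).det.val • x = 0
  /-- An element with trivial image fixes `W` pointwise. -/
  ker_fixed : ∀ σ : G, rb σ = 1 → ∀ x ∈ W, σ • x = x

omit [Fact p.Prime] in
/-- The action commutes with multiples. -/
theorem smul_nsmul_comm (σ : G) (n : ℕ) (x : V) : σ • n • x = n • σ • x :=
  map_nsmul (DistribSMul.toAddMonoidHom V σ) n x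

/-- Residues act on a group killed by `p`. -/
theorem val_nsmul_mul {x : V} (hx : p • x = 0) (a b : ZMod p) :
    (a * b).val • x = a.val • b.val • x := by
  rw [← mul_nsmul, ZMod.val_mul, ← nsmul_eq_mod_nsmul _ hx, mul_comm]

/-- Residues add on a group killed by `p`. -/
theorem val_nsmul_add {x : V} (hx : p • x = 0) (a b : ZMod p) :
    (a + b).val • x = a.val • x + b.val • x := by
  rw [← add_nsmul, ZMod.val_add, ← nsmul_eq_mod_nsmul _ hx]

/-- A nonzero residue kills only zero. -/
theorem eq_zero_of_val_nsmul {x : V} (hx : p • x = 0) {a : ZMod p} (ha : a ≠ 0)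
    (h : a.val • x = 0) : x = 0 := by
  have h1 := val_nsmul_mul hx a⁻¹ a
  rw [inv_mul_cancel₀ ha, ZMod.val_one, one_nsmul, h, nsmul_zero] at h1
  exact h1

/-- A group killed by `p` sees only residues. -/
theorem zsmul_eq_val_nsmul {x : V} (hx : p • x = 0) (n : ℤ) :
    n • x = (n : ZMod p).val • x := by
  rw [← natCast_zsmul x (n : ZMod p).val, ZMod.val_intCast]
  conv_lhs => rw [← Int.emod_add_mul_ediv n p, add_zsmul, mul_comm, mul_zsmul, natCast_zsmul,
    hx, zsmul_zero, add_zero]

/-- A scalar by which an element acts on a nonzero group is a root of its characteristic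
polynomial. -/
theorem charpoly_root_of_scalar {W : AddSubgroup V} (hW : IsQuadratic rb W) (hne : W ≠ ⊥)
    {δ : G} {a : ZMod p} (hscal : ∀ x ∈ W, δ • x = a.val • x) :
    a * a - (rb δ : M2p).trace * a + (rb δ : M2p).det = 0 := by
  obtain ⟨⟨x, hx⟩, hx0⟩ := W.ne_bot_iff_exists_ne_zero.mp hne
  by_contra h0
  refine hx0 (Subtype.ext ?_)
  have hp := hW.torsion x hx
  have hrel := hW.relation δ x hx
  rw [hscal x hx, smul_nsmul_comm, hscal x hx, ← val_nsmul_mul hp, ← val_nsmul_mul hp] at hrel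
  refine eq_zero_of_val_nsmul hp h0 ?_
  rw [val_nsmul_add hp, eq_comm, ← hrel]
  congr 1
  rw [sub_eq_iff_eq_add, ← val_nsmul_add hp, sub_add_cancel]

/-- **No element with image `diag (c, 1)` acts as `c`.** -/
theorem false_of_scalar (hs : Function.Surjective rb) {W : AddSubgroup V}
    (hW : IsQuadratic rb W) (hne : W ≠ ⊥) {γ : G} {c : ZMod p} (hc0 : c ≠ 0) (hc1 : c ≠ 1)
    (P : GL (Fin 2) (ZMod p))
    (hγ : (rb γ : M2p) = (P : M2p) * !![c, 0; 0, 1] * (↑P⁻¹ : M2p))
    (hscal : ∀ x ∈ W, γ • x = c.val • x) : False := by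
  let w : GL (Fin 2) (ZMod p) := ⟨!![0, 1; 1, 0], !![0, 1; 1, 0],
    by simp [Matrix.one_fin_two], by simp [Matrix.one_fin_two]⟩
  obtain ⟨τ, hτ⟩ := hs (P * w * P⁻¹)
  set δ := γ * (τ * γ * τ⁻¹)
  have hδ : (rb δ : M2p) = c • (1 : M2p) := by
    have e : !![c, 0; 0, 1] * ((w : M2p) * !![c, 0; 0, 1] * (↑w⁻¹ : M2p)) = c • (1 : M2p) := by
      change !![c, 0; 0, 1] * (!![0, 1; 1, 0] * !![c, 0; 0, 1] * !![0, 1; 1, 0]) = _
      ext i j
      fin_cases i <;> fin_cases j <;> simp
    have h1 : (rb δ : M2p) = (P : M2p) * (!![c, 0; 0, 1] *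
        ((w : M2p) * !![c, 0; 0, 1] * (↑w⁻¹ : M2p))) * (↑P⁻¹ : M2p) := by
      simp only [δ, map_mul, map_inv, hτ, _root_.mul_inv_rev, inv_inv, Units.val_mul, hγ, mul_assoc,
        P.inv_mul_cancel_left]
    rw [h1, e, mul_smul_comm, smul_mul_assoc, mul_one, Units.mul_inv]
  -- `δ` has image `c` and acts as `c²`
  have hact : ∀ x ∈ W, δ • x = (c * c).val • x := fun x hx => by
    rw [mul_smul, mul_smul, mul_smul, hscal _ (hW.stable _ _ hx), smul_nsmul_comm, smul_inv_smul,
      smul_nsmul_comm, hscal x hx, val_nsmul_mul (hW.torsion x hx)]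
  have h2 := charpoly_root_of_scalar rb hW hne hact
  rw [hδ, Matrix.trace_smul, Matrix.det_smul, Matrix.trace_one, Matrix.det_one, mul_one,
    Fintype.card_fin, smul_eq_mul] at h2
  exact pow_ne_zero 2 (mul_ne_zero hc0 (sub_ne_zero.mpr hc1))
    (show (c * (c - 1)) ^ 2 = 0 by push_cast at h2; linear_combination h2)

/-- The sum of a quadratic group and its image under an equivariant map is quadratic. -/
theorem IsQuadratic.sup_map {W : AddSubgroup V} (hW : IsQuadratic rb W) {f : V →+ V}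
    (hf : ∀ (σ : G) x, σ • f x = f (σ • x)) : IsQuadratic rb (W ⊔ W.map f) := by
  have hmem : ∀ z, z ∈ W ⊔ W.map f → ∃ u ∈ W, ∃ v ∈ W, u + f v = z := fun z hz => by
    obtain ⟨u, hu, _, ⟨v, hv, rfl⟩, rfl⟩ := AddSubgroup.mem_sup.mp hz
    exact ⟨u, hu, v, hv, rfl⟩
  refine ⟨fun z hz => ?_, fun σ z hz => ?_, fun σ z hz => ?_, fun σ hσ z hz => ?_⟩ <;>
    obtain ⟨u, hu, v, hv, rfl⟩ := hmem z hz
  · rw [nsmul_add, ← map_nsmul, hW.torsion u hu, hW.torsion v hv, map_zero, add_zero]
  · rw [smul_add, hf]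
    exact AddSubgroup.mem_sup.mpr
      ⟨σ • u, hW.stable σ u hu, _, ⟨σ • v, hW.stable σ v hv, rfl⟩, rfl⟩
  · have e1 := hW.relation σ u hu
    have e2 := congrArg f (hW.relation σ v hv)
    rw [map_zero, map_add, map_sub, map_nsmul, map_nsmul, ← hf, ← hf] at e2
    simp only [smul_add]
    linear_combination (norm := abel) e1 + e2
  · rw [smul_add, hf, hW.ker_fixed σ hσ u hu, hW.ker_fixed σ hσ v hv]

/-- **An element without eigenvalue one moves everything.** -/
theorem exists_smul_sub_eq {W : AddSubgroup V} (hW : IsQuadratic rb W) {γ : G}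
    (hγ : ((rb γ : M2p) - 1).det ≠ 0) {x : V} (hx : x ∈ W) : ∃ y ∈ W, γ • y - y = x := by
  set t := (rb γ : M2p).trace
  set d := (rb γ : M2p).det
  have e : ((rb γ : M2p) - 1).det = -(t - 1 - d) := by
    simp only [t, d, Matrix.det_fin_two, Matrix.trace_fin_two, Matrix.sub_apply,
      Matrix.one_apply_eq, Matrix.one_apply_ne (show (0 : Fin 2) ≠ 1 by decide),
      Matrix.one_apply_ne (show (1 : Fin 2) ≠ 0 by decide), sub_zero]
    ring
  rw [e, neg_ne_zero] at hγ
  set a := (t - 1 - d)⁻¹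
  have hp := hW.torsion x hx
  refine ⟨a.val • (γ • x + (1 - t).val • x), W.nsmul_mem (add_mem (hW.stable γ x hx)
    (W.nsmul_mem hx _)) _, ?_⟩
  have hpγ : p • (γ • x) = 0 := hW.torsion _ (hW.stable γ x hx)
  have h1 : γ • γ • x = t.val • γ • x - d.val • x := by
    have := hW.relation γ x hx
    rw [add_eq_zero_iff_eq_neg, sub_eq_iff_eq_add] at this
    rw [this]; abel
  have h2 : γ • (γ • x + (1 - t).val • x) - (γ • x + (1 - t).val • x) = (t - 1 - d).val • x := by
    rw [smul_add, smul_nsmul_comm, h1]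
    have i1 : t.val • γ • x + (1 - t).val • γ • x = γ • x := by
      rw [← val_nsmul_add hpγ, add_sub_cancel, ZMod.val_one, one_nsmul]
    have i2 : (t - 1 - d).val • x + (1 - t).val • x = -(d.val • x) := by
      rw [← val_nsmul_add hp, eq_neg_iff_add_eq_zero, ← val_nsmul_add hp,
        show t - 1 - d + (1 - t) + d = 0 by ring, ZMod.val_zero, zero_nsmul]
    rw [eq_neg_iff_add_eq_zero] at i2
    linear_combination (norm := abel) i1 - i2
  rw [smul_nsmul_comm, ← nsmul_sub, h2, ← val_nsmul_mul hp, inv_mul_cancel₀ hγ, ZMod.val_one,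
    one_nsmul]

end Fermat.BAD.AtP
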