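import Fermat.Agent.BAD.AtP.Bridge
import Fermat.Agent.BAD.AtP.Group
import Fermat.Agent.GR.RT.ModularPoint

/-!
# From eigen classes in `J₀(M)` to modularity at level `M`

If every polynomial in the good Hecke operators killing `J₀(M)` vanishes at the traces of `rb`, then
`rb` is modular of level `M`.
-/

set_option autoImplicit false

noncomputable section

open ModularCurve MvPolynomial IsLocalRing

namespace Fermat.BAD.AtP

open Fermat.GR.RT Fermat.HM

local notation "Γℚ" => (AlgebraicClosure ℚ ≃ₐ[ℚ] AlgebraicClosure ℚ)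

variable {p : ℕ} [Fact p.Prime] {rb : Γℚ →* GL (Fin 2) (ZMod p)} {M : ℕ} [NeZero M]

/-- A good prime as a label of a generator of the full Hecke algebra. -/
def goodLabel (i : GoodPrime rb M) : Nat.Primes ⊕ (ZMod M)ˣ := Sum.inl i.toPrimes

/-- On forms a polynomial in the good primes acts as its element of the Hecke algebra. -/
theorem formAct_goodLabel (P : MvPolynomial (GoodPrime rb M) ℤ)
    (f : CuspForm (CongruenceSubgroup.Gamma0 M) 2) :
    formAct M ⊤ (rename goodLabel P) (toTop M f) =
      toTop M ((hecT M (dvd_mul_right M p) P).1 f) := by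
  induction P using MvPolynomial.induction_on generalizing f with
  | C n => simp [map_zsmul]
  | add P Q hP hQ =>
    rw [map_add, map_add, map_add, LinearMap.add_apply, hP, hQ, ← map_add]
    rfl
  | mul_X P i hP =>
    have : Fact (i.toPrimes : ℕ).Prime := ⟨i.toPrimes.2⟩
    rw [map_mul, map_mul, map_mul, rename_X, formAct_X, Module.End.mul_apply]
    change formAct M ⊤ _ (formHecke M ⊤ (i.toPrimes : ℕ) (toTop M f)) = _
    rw [coe_formHecke_top_of_not_dvd M i.not_dvd f, hP, hecT, eval₂Hom_X']
    rfl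

/-- A polynomial killing the forms is zero in the Hecke algebra. -/
theorem hecT_eq_zero_of_formAct {P : MvPolynomial (GoodPrime rb M) ℤ}
    (h : formAct M ⊤ (rename goodLabel P) = 0) : hecT M (dvd_mul_right M p) P = 0 :=
  Subtype.ext (LinearMap.ext fun f => (toTop M).injective (by
    rw [← formAct_goodLabel, h, LinearMap.zero_apply]
    exact (map_zero _).symm))

/-- Values vanishing on relations extend to a point with values in a field. -/
theorem exists_field_point {T σ : Type} [CommRing T] [Module.Finite ℤ T]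
    (ev : MvPolynomial σ ℤ →+* T) (θ₀ : MvPolynomial σ ℤ →+* ZMod p)
    (h : ∀ P, ev P = 0 → θ₀ P = 0) :
    ∃ (B : Type) (_ : Field B) (_ : CharP B p) (F : T →+* B),
      ∀ P (n : ℕ), θ₀ P = (n : ZMod p) → F (ev P) = (n : B) := by
  let S := ev.range
  have hle : RingHom.ker ev.rangeRestrict ≤ RingHom.ker θ₀ := fun P hP =>
    h P (congrArg Subtype.val (RingHom.mem_ker.mp hP))
  let θ : S →+* ZMod p :=
    ev.rangeRestrict.liftOfSurjective ev.rangeRestrict_surjective ⟨θ₀, hle⟩
  have hθ : ∀ P, θ (ev.rangeRestrict P) = θ₀ P := fun P =>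
    RingHom.liftOfRightInverse_comp_apply _ _ _ ⟨θ₀, hle⟩ P
  have : Algebra.IsIntegral S T := Algebra.IsIntegral.tower_top (R := ℤ)
  have : (RingHom.ker θ).IsPrime := RingHom.ker_isPrime θ
  obtain ⟨q, -, hqp, hq⟩ := Ideal.exists_ideal_over_prime_of_isIntegral (RingHom.ker θ)
    (⊥ : Ideal T) (fun a ha => by
      rw [Ideal.mem_comap, Submodule.mem_bot] at ha
      rw [show a = 0 from Subtype.ext ha]
      exact zero_mem _)
  have := hqp
  let B := FractionRing (T ⧸ q)
  let F : T →+* B := (algebraMap (T ⧸ q) B).comp (Ideal.Quotient.mk q)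
  have hFθ : ∀ P (n : ℕ), θ₀ P = (n : ZMod p) → F (ev P) = (n : B) := by
    intro P n hn
    have h1 : ev.rangeRestrict (P - (n : MvPolynomial σ ℤ)) ∈ RingHom.ker θ := by
      rw [RingHom.mem_ker, hθ, map_sub, map_natCast, hn, sub_self]
    rw [← hq] at h1
    have h3 : F (ev (P - (n : MvPolynomial σ ℤ))) = 0 := by
      change algebraMap (T ⧸ q) B (Ideal.Quotient.mk q _) = 0
      rw [Ideal.Quotient.eq_zero_iff_mem.mpr (show ev _ ∈ q from h1), map_zero]
    rwa [map_sub, map_sub, map_natCast, map_natCast, sub_eq_zero] at h3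
  refine ⟨B, inferInstance, (CharP.charP_iff_prime_eq_zero Fact.out).mpr ?_, F, hFθ⟩
  have := hFθ (p : MvPolynomial σ ℤ) 0 (by simp)
  rwa [map_natCast, map_natCast, Nat.cast_zero] at this

/-- **Modularity from the annihilator.** If every polynomial in the good Hecke operators killing
`J₀(M)` vanishes at the traces of `rb`, then `rb` is modular of level `M`. -/
theorem modularOf_of_annihilator
    (h : ∀ P : MvPolynomial (GoodPrime rb M) ℤ, hecBar M P = 0 → trEval rb M P = 0) :
    ModularOf p rb M := by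
  classical
  let ev : MvPolynomial (GoodPrime rb M) ℤ →+*
      (Fermat.JAC.XH.heckeGens M (⊤ : Subgroup (ZMod M)ˣ)).R :=
    (Fermat.JAC.XH.ringEval M ⊤).comp (rename goodLabel).toRingHom
  obtain ⟨B, _, _, F, hFθ⟩ := exists_field_point ev (trEval rb M) fun P hP =>
    h P (hecBar_eq_zero_of_hecT M (dvd_mul_right M p) (hecT_eq_zero_of_formAct
      ((Fermat.JAC.XH.ringEval_eq_zero_iff M ⊤ _).mp hP)))
  have : CharP (ResidueField B) p := (CharP.charP_iff_prime_eq_zero Fact.out).mpr (by
    rw [← map_natCast (residue B), CharP.cast_eq_zero B p, map_zero])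
  refine modularOf_of_point (isPoint_of_factor M ⊤ F)
    (by rw [CharP.cast_eq_zero B p]; exact zero_mem _)
    (ZMod.castHom (dvd_refl p) (ResidueField B)) fun ℓ hℓ hM hne hu A hA φ hφ => ?_
  let i : GoodPrime rb M := ⟨ℓ, hℓ, fun hd => (hℓ.dvd_mul.mp hd).elim hM fun h' =>
    hne ((Nat.prime_dvd_prime_iff_eq hℓ Fact.out).mp h'), hu⟩
  rw [tVal, dif_pos hℓ, ← i.trFrob_eq hA hφ]
  have h4 := hFθ (X i) (trFrob rb ℓ).val (by
    rw [trEval, eval₂Hom_X', ZMod.natCast_zmod_val])
  have h5 : F (Fermat.JAC.XH.ringEval M ⊤ (X (Sum.inl ⟨ℓ, hℓ⟩))) = ((trFrob rb ℓ).val : B) := by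
    rw [← h4]
    refine congrArg F ?_
    change _ = Fermat.JAC.XH.ringEval M ⊤ (rename goodLabel (X i))
    rw [rename_X]
    rfl
  rw [RingHom.comp_apply, h5, map_natCast, ← map_natCast (ZMod.castHom (dvd_refl p)
    (ResidueField B)), ZMod.natCast_zmod_val]

omit [NeZero M] in
/-- On an eigen class a polynomial is its value. -/
theorem hecBar_apply_of_eigen {N : ℕ} [NeZero N] {x : JZero N} (hpx : p • x = 0)
    (hx : ∀ i : GoodPrime rb M, heckeOperatorBar N i.toPrimes x = (trFrob rb i.1).val • x)
    (P : MvPolynomial (GoodPrime rb M) ℤ) : hecBar N P x = (trEval rb M P).val • x := by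
  induction P using MvPolynomial.induction_on with
  | C n =>
    rw [eq_intCast, map_intCast, map_intCast, Module.End.intCast_apply]
    exact zsmul_eq_val_nsmul hpx n
  | add P Q hP hQ =>
    rw [map_add, map_add, LinearMap.add_apply, hP, hQ, ← add_nsmul, ZMod.val_add,
      ← nsmul_eq_mod_nsmul _ hpx]
  | mul_X P i hP =>
    rw [map_mul, map_mul, Module.End.mul_apply, hecBar_X, hx, map_nsmul, hP, trEval, eval₂Hom_X',
      ← trEval, ← mul_nsmul, ZMod.val_mul, ← nsmul_eq_mod_nsmul _ hpx]

/-- **An eigen class gives modularity.** A nonzero class of `J₀(M)` killed by `p`, on which every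
good `T ℓ` acts as the trace of `rb` at a Frobenius of `ℓ`, makes `rb` modular of level `M`. -/
theorem modularOf_of_eigen {x : JZero M} (hx0 : x ≠ 0) (hpx : p • x = 0)
    (hx : ∀ i : GoodPrime rb M, heckeOperatorBar M i.toPrimes x = (trFrob rb i.1).val • x) :
    ModularOf p rb M := by
  refine modularOf_of_annihilator fun P hP => ?_
  by_contra hne
  have h1 : (trEval rb M P).val • x = 0 := by
    rw [← hecBar_apply_of_eigen hpx hx, hP, LinearMap.zero_apply]
  exact hx0 (eq_zero_of_val_nsmul hpx hne h1)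

end Fermat.BAD.AtP
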