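import Fermat.Agent.BAD.AtP.BridgeModular
import Fermat.Agent.BAD.AtP.Group

/-!
# Degeneracy pushforwards and the Hecke operators

The two pushforwards `J₀(N q) → J₀(N)` commute with `T ℓ` for `ℓ` prime to `N q`.  If `rb` is not
modular of level `M`, both pushforwards `J₀(M p) → J₀(M)` kill every eigen group of `rb`.
-/

set_option autoImplicit false

attribute [local instance 10000] SubalgebraClass.toAlgebra HahnSeries.powerSeriesAlgebra

noncomputable section

open ModularCurve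

namespace Fermat.BAD.AtP

open Fermat.JAC Fermat.JAC.X0 Fermat.MC Fermat.GR.RT

local notation "Γℚ" => (AlgebraicClosure ℚ ≃ₐ[ℚ] AlgebraicClosure ℚ)

section Commute

variable (N q : ℕ) [NeZero N] [NeZero q]

/-- Dilating an expansion by one does nothing. -/
theorem qExpand_one_apply (f : LaurentSeries ℂ) : qExpand ℂ 1 f = f :=
  HahnSeries.ext <| funext fun k => by simpa using qExpand_coeff_mul (R := ℂ) (N := 1) f k

/-- A map dilating expansions by `a`, prime to `ℓ`, commutes with the correspondence. -/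
theorem regPull_corrDiff {ℓ a : ℕ} [NeZero ℓ] [NeZero a] (hℓ : ℓ.Prime) (hℓN : ¬ ℓ ∣ N * q)
    (hℓa : ¬ ℓ ∣ a) (c : ℂ) (φ : FN N ℂ →ₐ[ℂ] FN (N * q) ℂ)
    (hφ : ∀ ω, qdiff (inftyEmb (N * q)) (diffPull φ ω) =
      c • qExpand ℂ a (qdiff (inftyEmb N) ω)) :
    (regPull φ).comp (corrDiff N ℓ) = (corrDiff (N * q) ℓ).comp (regPull φ) := by
  refine LinearMap.ext fun ω => Subtype.ext (qdiff_injective (inftyEmb (N * q)) ?_)
  rw [LinearMap.comp_apply, LinearMap.comp_apply, coe_regPull, hφ, corrDiff, LinearMap.comp_apply,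
    coe_regTrace, coe_regPull, corrDiff, LinearMap.comp_apply, coe_regTrace, coe_regPull,
    coe_regPull]
  ext n
  rw [qdiff_heckeCorr (N * q) ℓ hℓ, hφ]
  simp only [HahnSeries.coeff_smul, smul_eq_mul]
  set g := qdiff (inftyEmb N) (ω : Ω[FN N ℂ⁄ℂ])
  have hℓN' : ¬ ℓ ∣ N := fun h => hℓN (h.mul_right q)
  have hcop : IsCoprime (a : ℤ) (ℓ : ℤ) :=
    Int.isCoprime_iff_nat_coprime.mpr (by simpa using (hℓ.coprime_iff_not_dvd.mpr hℓa).symm)
  by_cases hn : (a : ℤ) ∣ n
  · obtain ⟨m, rfl⟩ := hn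
    rw [qExpand_coeff_mul, qdiff_heckeCorr N ℓ hℓ, show (ℓ : ℤ) * (a * m) = a * (ℓ * m) by ring,
      qExpand_coeff_mul]
    have hiff : (ℓ : ℤ) ∣ a * m ↔ (ℓ : ℤ) ∣ m :=
      ⟨fun h => hcop.symm.dvd_of_dvd_mul_left h, fun h => h.mul_left _⟩
    by_cases hm : (ℓ : ℤ) ∣ m
    · rw [if_pos ⟨hℓN', hm⟩, if_pos ⟨hℓN, hiff.mpr hm⟩, Int.mul_ediv_assoc _ hm, qExpand_coeff_mul]
      ring
    · rw [if_neg (fun h => hm h.2), if_neg (fun h => hm (hiff.mp h.2))]
      ring
  · rw [qExpand_coeff_of_not_dvd (R := ℂ) (N := a) (hk := hn),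
      qExpand_coeff_of_not_dvd (R := ℂ) (N := a) (hk := fun h => hn (hcop.dvd_of_dvd_mul_left h))]
    split_ifs with h
    · rw [qExpand_coeff_of_not_dvd (R := ℂ) (N := a) (hk := fun h' => hn (by
        have := h'.mul_left (ℓ : ℤ)
        rwa [Int.mul_ediv_cancel' h.2] at this))]
      ring
    · ring

/-- The first degeneracy map keeps the expansions of differentials. -/
theorem qdiff_pull_alpha (ω : Ω[FN N ℂ⁄ℂ]) :
    qdiff (inftyEmb (N * q)) (diffPull (heckeAlphaBar ℂ N q) ω) =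
      (1 : ℂ) • qExpand ℂ 1 (qdiff (inftyEmb N) ω) := by
  rw [qdiff_diffPull, inftyEmb_alpha, qExpand_one_apply, one_smul]

/-- The second degeneracy map dilates the expansions of differentials by `q`. -/
theorem qdiff_pull_beta (ω : Ω[FN N ℂ⁄ℂ]) :
    qdiff (inftyEmb (N * q)) (diffPull (heckeBetaBar ℂ N q) ω) =
      (q : ℂ) • qExpand ℂ q (qdiff (inftyEmb N) ω) := by
  rw [qdiff_diffPull, inftyEmb_beta, qdiff_qExpand]

/-- A pushforward whose complex form commutes on differentials commutes with `T ℓ`. -/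
theorem push_heckeOperatorBar_of_regPull {ℓ : Nat.Primes}
    {φ₀ : modularFunctionFieldBar N →ₐ[Qbar] modularFunctionFieldBar (N * q)}
    {φ : FN N ℂ →ₐ[ℂ] FN (N * q) ℂ}
    (hφ : ∀ f, φ (algebraMap (modularFunctionFieldBar N) (FN N ℂ) f) =
      algebraMap (modularFunctionFieldBar (N * q)) (FN (N * q) ℂ) (φ₀ f))
    (hcomm : haveI : NeZero (ℓ : ℕ) := ⟨ℓ.2.ne_zero⟩
      (regPull φ).comp (corrDiff N ℓ) = (corrDiff (N * q) ℓ).comp (regPull φ))
    (x : JZero (N * q)) :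
    pushPic φ₀ (heckeOperatorBar (N * q) ℓ x) = heckeOperatorBar N ℓ (pushPic φ₀ x) := by
  have : NeZero (ℓ : ℕ) := ⟨ℓ.2.ne_zero⟩
  have key : ∀ y : JZero (N * q), toC N (pushPic φ₀ y) = pushPic φ (toC (N * q) y) := fun y =>
    (ConstExt.pushPic_pic0Ext (φ₀ := φ₀) hφ y).symm
  refine toC_injective N ?_
  obtain ⟨v, hv⟩ := unif_surjective (toC (N * q) x)
  rw [key, toC_heckeOperatorBar, toC_heckeOperatorBar, key, ← hv, correspondence_unif, pushPic_unif,
    pushPic_unif, correspondence_unif]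
  refine congrArg _ (LinearMap.ext fun ω => ?_)
  exact (congrArg v (LinearMap.congr_fun hcomm ω)).symm

/-- **The first pushforward commutes with `T ℓ`.** -/
theorem pushAlpha_heckeOperatorBar (ℓ : Nat.Primes) (hℓ : ¬ (ℓ : ℕ) ∣ N * q) (x : JZero (N * q)) :
    pushPic (heckeAlphaBar Qbar N q) (heckeOperatorBar (N * q) ℓ x) =
      heckeOperatorBar N ℓ (pushPic (heckeAlphaBar Qbar N q) x) :=
  haveI : NeZero (ℓ : ℕ) := ⟨ℓ.2.ne_zero⟩
  push_heckeOperatorBar_of_regPull N q (φ := heckeAlphaBar ℂ N q) (alpha_lbc N q)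
    (regPull_corrDiff N q ℓ.2 hℓ (fun h => ℓ.2.one_lt.ne' (Nat.dvd_one.mp h)) 1 _
      (qdiff_pull_alpha N q)) x

/-- **The second pushforward commutes with `T ℓ`.** -/
theorem pushBeta_heckeOperatorBar (ℓ : Nat.Primes) (hℓ : ¬ (ℓ : ℕ) ∣ N * q) (x : JZero (N * q)) :
    pushPic (heckeBetaBar Qbar N q) (heckeOperatorBar (N * q) ℓ x) =
      heckeOperatorBar N ℓ (pushPic (heckeBetaBar Qbar N q) x) :=
  haveI : NeZero (ℓ : ℕ) := ⟨ℓ.2.ne_zero⟩
  push_heckeOperatorBar_of_regPull N q (φ := heckeBetaBar ℂ N q) (beta_lbc N q)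
    (regPull_corrDiff N q ℓ.2 hℓ (fun h => hℓ (h.mul_left N)) q _ (qdiff_pull_beta N q)) x

end Commute

section Kill

variable {p : ℕ} [Fact p.Prime] {rb : Γℚ →* GL (Fin 2) (ZMod p)} {M : ℕ} [NeZero M]

/-- A map commuting with the good Hecke operators kills the eigen groups of an `rb` which is not
modular of the target level. -/
theorem eq_zero_of_not_modularOf {N : ℕ} [NeZero N] (hmod : ¬ ModularOf p rb M)
    (f : JZero N →+ JZero M)
    (hf : ∀ (i : GoodPrime rb M) x,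
      f (heckeOperatorBar N i.toPrimes x) = heckeOperatorBar M i.toPrimes (f x))
    {x : JZero N} (hpx : p • x = 0)
    (hx : ∀ i : GoodPrime rb M, heckeOperatorBar N i.toPrimes x = (trFrob rb i.1).val • x) :
    f x = 0 := by
  by_contra h0
  exact hmod (modularOf_of_eigen h0 (by rw [← map_nsmul, hpx, map_zero])
    fun i => by rw [← hf, hx i, map_nsmul])

/-- **Both pushforwards `J₀(M p) → J₀(M)` kill the eigen classes.** -/
theorem push_eq_zero_of_not_modularOf [NeZero p] (hmod : ¬ ModularOf p rb M)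
    {x : JZero (M * p)} (hpx : p • x = 0)
    (hx : ∀ i : GoodPrime rb M,
      heckeOperatorBar (M * p) i.toPrimes x = (trFrob rb i.1).val • x) :
    pushPic (heckeAlphaBar Qbar M p) x = 0 ∧ pushPic (heckeBetaBar Qbar M p) x = 0 :=
  ⟨eq_zero_of_not_modularOf hmod _ (fun i y => pushAlpha_heckeOperatorBar M p _ i.not_dvd_mul y)
      hpx hx,
    eq_zero_of_not_modularOf hmod _ (fun i y => pushBeta_heckeOperatorBar M p _ i.not_dvd_mul y)
      hpx hx⟩

/-- Both pushforwards kill `W₀`. -/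
theorem push_w0_eq_zero [NeZero p] (hmod : ¬ ModularOf p rb M) {W : AddSubgroup (JZero (M * p))}
    (hW : IsQuadratic rb W)
    (hT : ∀ i : GoodPrime rb M, ∀ x ∈ W,
      heckeOperatorBar (M * p) i.toPrimes x = (trFrob rb i.1).val • x)
    {x : JZero (M * p)} (hx : x ∈ W) :
    pushPic (heckeAlphaBar Qbar M p) x = 0 ∧ pushPic (heckeBetaBar Qbar M p) x = 0 :=
  push_eq_zero_of_not_modularOf hmod (hW.torsion x hx) fun i => hT i x hx

end Kill

end Fermat.BAD.AtP
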