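import Fermat.Agent.BAD.AtP.BridgeForms
import Fermat.Agent.BAD.AtP.Group
import Fermat.Agent.GR.ES.HasInput
import Fermat.Agent.GR.ES.Rep
import Fermat.Agent.RM.Algebra

/-!
# The group `W₀`

If `rb` is modular of a level dividing `N = M p`, then `J₀(N)` has a nonzero group killed by `p` on
which the good Hecke operators act through the traces of `rb` and `Γℚ` through `rb`, every element
satisfying its characteristic polynomial.
-/

set_option autoImplicit false

attribute [local instance 10000] SubalgebraClass.toAlgebra HahnSeries.powerSeriesAlgebra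

noncomputable section

open ModularCurve MvPolynomial

namespace Fermat.BAD.AtP

open Fermat.GR Fermat.GR.RT Fermat.CFT

local notation "Γℚ" => (AlgebraicClosure ℚ ≃ₐ[ℚ] AlgebraicClosure ℚ)

variable {p : ℕ} [Fact p.Prime] {rb : Γℚ →* GL (Fin 2) (ZMod p)}

local notation "M2p" => Matrix (Fin 2) (Fin 2) (ZMod p)

section Powers

open Polynomial in
/-- The quadratic relation of a power. -/
theorem relation_pow {V : Type*} [AddCommGroup V] (Φ : V →+ V) (t d : ℕ) (j : ℕ)
    (S : AddSubgroup V) (hS : ∀ x ∈ S, Φ x ∈ S)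
    (h : ∀ x ∈ S, Φ (Φ x) - t • Φ x + d • x = 0) {x : V} (hx : x ∈ S) :
    Φ^[j] (Φ^[j] x) - powTrace (t : ℤ) (d : ℤ) j • Φ^[j] x + (d : ℤ) ^ j • x = 0 := by
  set q : ℤ[X] := Polynomial.X ^ 2 - Polynomial.C (t : ℤ) * Polynomial.X + Polynomial.C (d : ℤ)
  set Q : ℤ[X] := (Polynomial.X ^ j) ^ 2 - Polynomial.C (powTrace (t : ℤ) (d : ℤ) j) *
    Polynomial.X ^ j + Polynomial.C ((d : ℤ) ^ j)
  -- the quadratic in `X ^ j` is a multiple of the given one
  have hdvd : q ∣ Q := by
    rw [← Ideal.mem_span_singleton, ← Ideal.Quotient.eq_zero_iff_mem]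
    set mk := Ideal.Quotient.mk (Ideal.span {q})
    set α := mk Polynomial.X
    set β := mk (Polynomial.C (t : ℤ)) - α
    have h0 : mk q = 0 := Ideal.Quotient.eq_zero_iff_mem.mpr (Ideal.mem_span_singleton_self _)
    have ht : mk (Polynomial.C (t : ℤ)) = α + β := by simp [β]
    have hd : mk (Polynomial.C (d : ℤ)) = α * β := by
      simp only [q, map_add, map_sub, map_mul, map_pow] at h0
      linear_combination h0
    have key : ∀ n, powTrace (α + β) (α * β) n = α ^ n + β ^ n := by
      intro n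
      induction n using Nat.strong_induction_on with
      | _ n ih =>
        match n with
        | 0 => norm_num [powTrace]
        | 1 => simp [powTrace]
        | k + 2 => rw [powTrace, ih (k + 1) (by omega), ih k (by omega)]; ring
    have e : mk (Polynomial.C (powTrace (t : ℤ) (d : ℤ) j)) = α ^ j + β ^ j := by
      have := map_powTrace (mk.comp Polynomial.C) (t : ℤ) (d : ℤ) j
      simp only [RingHom.comp_apply] at this
      rw [this, ht, hd, key]
    simp only [Q, map_add, map_sub, map_mul, map_pow, e, hd]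
    rw [show mk Polynomial.X = α from rfl]
    ring
  obtain ⟨R, hR⟩ := hdvd
  -- evaluate at the endomorphism of `S`
  let ΦS : Module.End ℤ S := (AddMonoidHom.mk' (fun x : S => (⟨Φ x, hS x x.2⟩ : S))
    fun x y => Subtype.ext (map_add Φ _ _)).toIntLinearMap
  have hΦS : ∀ y : S, (ΦS y : V) = Φ y := fun y => rfl
  have hpow : ∀ (n : ℕ) (y : S), ((ΦS ^ n) y : V) = Φ^[n] y := by
    intro n y
    induction n with
    | zero => rfl
    | succ n ih => rw [pow_succ', Module.End.mul_apply, hΦS, ih, Function.iterate_succ_apply']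
  have hq : Polynomial.aeval ΦS q = 0 := by
    have e : Polynomial.aeval ΦS q = ΦS * ΦS - (t : ℤ) • ΦS + (d : ℤ) • 1 := by
      simp [q, sq, Algebra.smul_def]
    rw [e]
    refine LinearMap.ext fun y => Subtype.ext ?_
    change Φ (Φ y) - (t : ℤ) • Φ y + (d : ℤ) • (y : V) = 0
    rw [natCast_zsmul, natCast_zsmul]
    exact h y y.2
  have eQ : Polynomial.aeval ΦS Q = ΦS ^ j * ΦS ^ j - powTrace (t : ℤ) (d : ℤ) j • ΦS ^ j +
      ((d : ℤ) ^ j) • (1 : Module.End ℤ S) := by
    simp [Q, sq, Algebra.smul_def]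
  have hQ : (Polynomial.aeval ΦS Q) ⟨x, hx⟩ = 0 := by
    rw [hR, map_mul, hq, zero_mul, LinearMap.zero_apply]
  have := congrArg Subtype.val ((LinearMap.congr_fun eQ ⟨x, hx⟩).symm.trans hQ)
  rw [← hpow j ⟨x, hx⟩, ← hpow j ((ΦS ^ j) ⟨x, hx⟩)]
  exact this

end Powers

section Kernel

variable {G V : Type*} [Group G] [AddCommGroup V] [DistribMulAction G V]

omit [Fact (Nat.Prime p)] in
/-- An element with `(σ - 1)² = 0` on a group killed by `p` has `σ ^ p = 1` there. -/
theorem pow_smul_eq_self {S : AddSubgroup V} {σ : G} (hS : ∀ x ∈ S, σ • x ∈ S)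
    (hp : ∀ x ∈ S, p • x = 0) (h : ∀ x ∈ S, σ • σ • x - 2 • σ • x + x = 0) {x : V} (hx : x ∈ S) :
    σ ^ p • x = x := by
  have h1 : σ • (σ • x - x) = σ • x - x := by
    rw [smul_sub, ← sub_eq_zero, ← h x hx, two_nsmul]
    abel
  have key : ∀ n : ℕ, σ ^ n • x = x + n • (σ • x - x) := by
    intro n
    induction n with
    | zero => simp
    | succ n ih =>
      rw [pow_succ', mul_smul, ih, smul_add, smul_nsmul_comm, h1, succ_nsmul]
      abel
  rw [key, nsmul_sub, hp _ (hS x hx), hp x hx, sub_zero, add_zero]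

/-- **A fixed vector** of a subgroup preserving a nonzero finite group killed by `p` on which all
its elements have `p`-power order. -/
theorem exists_fixed_ne_zero (H : Subgroup G) {S : AddSubgroup V} [Finite S] (hne : S ≠ ⊥)
    (hS : ∀ σ ∈ H, ∀ x ∈ S, σ • x ∈ S) (hp : ∀ x ∈ S, p • x = 0)
    (hpow : ∀ σ ∈ H, ∀ x ∈ S, σ ^ p • x = x) :
    ∃ x ∈ S, x ≠ 0 ∧ ∀ σ ∈ H, σ • x = x := by
  let f : H →* Equiv.Perm S :=
    { toFun := fun σ =>
        { toFun := fun x => ⟨σ.1 • x.1, hS _ σ.2 _ x.2⟩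
          invFun := fun x => ⟨σ.1⁻¹ • x.1, hS _ (inv_mem σ.2) _ x.2⟩
          left_inv := fun x => Subtype.ext (inv_smul_smul _ _)
          right_inv := fun x => Subtype.ext (smul_inv_smul _ _) }
      map_one' := Equiv.ext fun x => Subtype.ext (one_smul G x.1)
      map_mul' := fun σ τ => Equiv.ext fun x => Subtype.ext (mul_smul σ.1 τ.1 x.1) }
  have hK : IsPGroup p f.range := fun g => ⟨1, by
    obtain ⟨_, σ, rfl⟩ := g
    rw [pow_one]
    refine Subtype.ext ?_
    rw [SubgroupClass.coe_pow, ← map_pow, OneMemClass.coe_one]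
    exact Equiv.ext fun x => Subtype.ext (hpow _ σ.2 _ x.2)⟩
  obtain ⟨⟨y, hy⟩, hy0⟩ := S.ne_bot_iff_exists_ne_zero.mp hne
  have hdvd : p ∣ Nat.card S := by
    rw [← addOrderOf_eq_prime (p := p) (x := (⟨y, hy⟩ : S)) (Subtype.ext (hp y hy)) hy0]
    exact addOrderOf_dvd_natCard _
  have h0 : (0 : S) ∈ MulAction.fixedPoints f.range S := by
    rintro ⟨_, σ, rfl⟩
    exact Subtype.ext (smul_zero σ.1)
  obtain ⟨b, hb, hb0⟩ := hK.exists_fixed_point_of_prime_dvd_card_of_fixed_point S hdvd h0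
  refine ⟨b, b.2, fun h => hb0 (Subtype.ext h.symm), fun σ hσ => ?_⟩
  exact congrArg Subtype.val (hb ⟨f ⟨σ, hσ⟩, ⟨σ, hσ⟩, rfl⟩)

end Kernel

section Construction

variable {M : ℕ} (N : ℕ) [NeZero N] (hN : N ∣ M * p)

/-- The classes killed by `p`. -/
def torsP (p N : ℕ) [NeZero N] : AddSubgroup (JZero N) :=
  (nsmulAddMonoidHom p : JZero N →+ JZero N).ker

variable (rb M) in
/-- The eigen classes killed by `p`. -/
def eigenP : AddSubgroup (JZero N) where
  carrier := {x | p • x = 0 ∧
    ∀ i : GoodPrime rb M, heckeOperatorBar N i.toPrimes x = (trFrob rb i.1).val • x}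
  zero_mem' := ⟨nsmul_zero p, fun i => by rw [map_zero, nsmul_zero]⟩
  add_mem' := fun {x y} hx hy => ⟨by rw [nsmul_add, hx.1, hy.1, add_zero],
    fun i => by rw [map_add, hx.2 i, hy.2 i, nsmul_add]⟩
  neg_mem' := fun {x} hx => ⟨by rw [neg_nsmul, hx.1, neg_zero],
    fun i => by rw [map_neg, hx.2 i, neg_nsmul]⟩

/-- `Γℚ` preserves the eigen classes. -/
theorem smul_mem_eigenP (σ : Γℚ) {x : JZero N} (hx : x ∈ eigenP rb M N) :
    σ • x ∈ eigenP rb M N :=
  ⟨by rw [← smul_nsmul_comm σ p x, hx.1, smul_zero], fun i => by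
    rw [GR.heckeOperatorBar_smul, hx.2 i, smul_nsmul_comm]⟩

/-- There are finitely many classes killed by `p`. -/
theorem finite_torsP (D : ESInput N p) : Finite (torsP p N) := by
  refine ((D.toESLattice.finite_torsion 1).subset fun x hx => ?_).to_subtype
  rw [Set.mem_ofPred_eq, pow_one]
  exact hx

/-- There are finitely many eigen classes. -/
theorem finite_eigenP (D : ESInput N p) : Finite (eigenP rb M N) :=
  haveI := finite_torsP N D
  (((torsP p N : Set (JZero N)).toFinite).subset fun _ hx => hx.1).to_subtype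

include hN in
/-- The eigen classes are not all zero, when the values vanish on the operators divisible by `p` on
the lattice. -/
theorem eigenP_ne_bot_of_trEval (D : ESInput N p)
    (hkill : ∀ P : MvPolynomial (GoodPrime rb M) ℤ,
      (∀ l : D.Λ, ∃ m : D.Λ, p • m = hecT N hN P • l) → trEval rb M P = 0) :
    eigenP rb M N ≠ ⊥ := by
  have := finite_torsP N D
  have hp0 : ∀ x : torsP p N, p • x = 0 := fun x => Subtype.ext x.2
  have : Module (ZMod p) (torsP p N) := @AddCommGroup.zmodModule p (torsP p N) _ hp0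
  let ρ : MvPolynomial (GoodPrime rb M) ℤ →+* Module.End (ZMod p) (torsP p N) :=
    { toFun := fun P => AddMonoidHom.toZModLinearMap p (AddMonoidHom.mk' (fun x : torsP p N =>
          (⟨hecBar N P x, by
            change p • hecBar N P x = 0
            rw [← map_nsmul, show p • (x : JZero N) = 0 from x.2, map_zero]⟩ : torsP p N))
          fun x y => Subtype.ext (map_add (hecBar N P) _ _))
      map_one' := LinearMap.ext fun x => Subtype.ext
        (LinearMap.congr_fun (map_one (hecBar (rb := rb) (M := M) N)) x.1)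
      map_mul' := fun P Q => LinearMap.ext fun x => Subtype.ext
        (LinearMap.congr_fun (map_mul (hecBar N) P Q) x.1)
      map_zero' := LinearMap.ext fun x => Subtype.ext
        (LinearMap.congr_fun (map_zero (hecBar (rb := rb) (M := M) N)) x.1)
      map_add' := fun P Q => LinearMap.ext fun x => Subtype.ext
        (LinearMap.congr_fun (map_add (hecBar N) P Q) x.1) }
  have hρ : ∀ P (x : torsP p N), (ρ P x : JZero N) = hecBar N P x := fun P x => rfl
  have hsm : ∀ (c : ZMod p) (x : torsP p N), c • x = c.val • x := fun c x => by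
    conv_lhs => rw [← ZMod.natCast_zmod_val c, Nat.cast_smul_eq_nsmul]
  have : Module.Finite (ZMod p) (torsP p N) := Module.Finite.of_finite
  -- an eigenvector of the polynomials acting on the classes killed by `p`
  obtain ⟨x, hx0, hx⟩ := Fermat.RM.exists_eigenvector ρ (trEval rb M)
    (fun c => ⟨(c.val : MvPolynomial (GoodPrime rb M) ℤ),
      LinearMap.ext fun x => Subtype.ext (by
        rw [hρ, map_natCast, Module.End.natCast_apply, LinearMap.smul_apply, Module.End.one_apply,
          hsm, AddSubgroup.coe_nsmul]),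
      by rw [map_natCast, ZMod.natCast_zmod_val]⟩)
    fun P hP => hkill P fun l => by
      have h1 : hecBar N P (D.π 1 l) = 0 := by
        have hl : D.π 1 l ∈ torsP p N := by
          change p • D.π 1 l = 0
          rw [← map_nsmul, D.π_eq_zero_iff]
          exact ⟨l, by rw [pow_one]⟩
        have := congrArg (fun F : Module.End (ZMod p) (torsP p N) => (F ⟨_, hl⟩ : JZero N)) hP
        simpa [hρ] using this
      rw [← act_hecT N hN D.act D.act_T, ← D.π_smul, D.π_eq_zero_iff] at h1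
      obtain ⟨m, hm⟩ := h1
      exact ⟨m, by rw [← hm, pow_one]⟩
  intro hbot
  refine hx0 (Subtype.ext ((eigenP rb M N).eq_bot_iff_forall.mp hbot _ ⟨x.2, fun i => ?_⟩))
  have h2 := congrArg Subtype.val (hx (X i))
  rw [hρ, hecBar_X, hsm, AddSubgroup.coe_nsmul, show trEval rb M (X i) = trFrob rb i.1 from
    eval₂Hom_X' _ _ _] at h2
  exact h2

include hN in
/-- **The eigen classes are not all zero.** -/
theorem eigenP_ne_bot {L : ℕ} [NeZero L] (hLN : L ∣ N) (hmod : ModularOf p rb L)
    (D : ESInput N p) : eigenP rb M N ≠ ⊥ :=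
  eigenP_ne_bot_of_trEval N hN D fun _ hP =>
    trEval_eq_zero_of_divisible hLN hN hmod D.toESLattice hP

/-- The quadratic relation on the eigen classes, from open kernel and cyclotomic determinant. -/
theorem relation_eigenP_of_det (hM : M ≠ 0) (hopen : IsOpen (rb.ker : Set Γℚ))
    (hcyc : ∀ σ, (rb σ : M2p).det = ((Fermat.CFT.cycChar p σ : (ZMod p)ˣ) : ZMod p))
    (D : ESInput N p) (σ : Γℚ) {x : JZero N} (hx : x ∈ eigenP rb M N) :
    σ • σ • x - (rb σ : M2p).trace.val • σ • x + (rb σ : M2p).det.val • x = 0 := by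
  have := finite_torsP N D
  obtain ⟨E, hE, hfix⟩ := D.exists_field 1
  let f : Γℚ →* Equiv.Perm (torsP p N) :=
    { toFun := fun τ =>
        { toFun := fun y => ⟨τ • y.1, by
            change p • τ • y.1 = 0
            rw [← smul_nsmul_comm τ p y.1, show p • y.1 = 0 from y.2, smul_zero]⟩
          invFun := fun y => ⟨τ⁻¹ • y.1, by
            change p • τ⁻¹ • y.1 = 0
            rw [← smul_nsmul_comm τ⁻¹ p y.1, show p • y.1 = 0 from y.2, smul_zero]⟩
          left_inv := fun y => Subtype.ext (inv_smul_smul _ _)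
          right_inv := fun y => Subtype.ext (smul_inv_smul _ _) }
      map_one' := Equiv.ext fun y => Subtype.ext (one_smul _ y.1)
      map_mul' := fun τ υ => Equiv.ext fun y => Subtype.ext (mul_smul τ υ y.1) }
  have hf : IsOpen ((f.prod rb).ker : Set Γℚ) := by
    refine Subgroup.isOpen_mono (H₁ := E.fixingSubgroup ⊓ rb.ker) (fun τ hτ => ?_)
      ((IntermediateField.fixingSubgroup_isOpen E).inter hopen)
    rw [MonoidHom.mem_ker]
    refine Prod.ext (Equiv.ext fun y => Subtype.ext (hfix τ ?_ y.1 ?_)) (MonoidHom.mem_ker.mp hτ.2)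
    · exact (IntermediateField.mem_fixingSubgroup_iff _ _).mp hτ.1
    · rw [pow_one]
      exact y.2
  -- `σ` is a power of a good Frobenius `φ` on the torsion and in `rb`
  obtain ⟨T, hT⟩ := exists_finset_map_inertia_eq_one rb hopen
  obtain ⟨ℓ, hℓ, hℓT, A, hA, -, φ, hφ, j, hj⟩ :=
    exists_frobenius_map_eq_pow (f.prod rb) hf σ (T ∪ (N * M * p).primeFactors)
  rw [Finset.mem_union, not_or] at hℓT
  have hℓN' : ¬ ℓ ∣ N * M * p := fun h => hℓT.2 (Nat.mem_primeFactors.mpr
    ⟨hℓ, h, mul_ne_zero (mul_ne_zero (NeZero.ne N) hM) (Fact.out : p.Prime).ne_zero⟩)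
  have hℓN : ¬ ℓ ∣ N * p := fun h => hℓN' (h.trans ⟨M, by ring⟩)
  have hu : IsResUnramified p rb ℓ := hT ℓ hℓ hℓT.1
  let i : GoodPrime rb M := ⟨ℓ, hℓ, fun h => hℓN' (h.trans ⟨N, by ring⟩), hu⟩
  have hne : ℓ ≠ p := fun h => hℓN (h ▸ dvd_mul_left p N)
  set t := (trFrob rb ℓ).val
  have hφrel : ∀ y ∈ eigenP rb M N, φ • φ • y - t • φ • y + ℓ • y = 0 := fun y hy => by
    rw [← D.frobenius_quadratic ℓ hℓ hℓN A hA φ hφ y ⟨1, by rw [pow_one]; exact hy.1⟩]
    congr 2
    exact ((smul_mem_eigenP N φ hy).2 i).symm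
  have hit : ∀ (n : ℕ) (y : JZero N),
      (DistribSMul.toAddMonoidHom (JZero N) φ)^[n] y = φ ^ n • y := fun n y => by
    induction n with
    | zero => simp
    | succ n ih => rw [Function.iterate_succ_apply', ih, pow_succ', mul_smul]; rfl
  -- the Eichler-Shimura relation of `φ`, raised to the power
  have hrel := relation_pow (DistribSMul.toAddMonoidHom (JZero N) φ) t ℓ j (eigenP rb M N)
    (fun y hy => smul_mem_eigenP N φ hy) hφrel hx
  simp only [hit] at hrel
  have hσ : ∀ y : JZero N, p • y = 0 → σ • y = φ ^ j • y := fun y hy => by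
    have h1 : f σ = f φ ^ j := congrArg Prod.fst hj
    have h2 := congrArg Subtype.val (Equiv.congr_fun h1 ⟨y, hy⟩)
    rw [← map_pow] at h2
    exact h2
  have hrbσ : rb σ = rb φ ^ j := congrArg Prod.snd hj
  have hd : (rb φ : M2p).det = ℓ := by rw [hcyc, cycChar_frobenius hℓ hne hA hφ]
  have htr : ((powTrace (t : ℤ) (ℓ : ℤ) j : ℤ) : ZMod p) = (rb σ : M2p).trace := by
    rw [show ∀ z : ℤ, (z : ZMod p) = Int.castRingHom (ZMod p) z from fun _ => rfl, map_powTrace,
      hrbσ, Units.val_pow_eq_pow_val, trace_pow_fin_two, hd, ← trFrob_eq hℓ hu hA hφ]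
    simp [t]
  have hdet : (((ℓ : ℤ) ^ j : ℤ) : ZMod p) = (rb σ : M2p).det := by
    rw [hrbσ, Units.val_pow_eq_pow_val, Matrix.det_pow, hd]
    simp
  have hpx : p • (φ ^ j • x) = 0 := by rw [← smul_nsmul_comm (φ ^ j) p x, hx.1, smul_zero]
  rw [hσ _ hx.1, hσ _ hpx, ← hrel, zsmul_eq_val_nsmul hpx, zsmul_eq_val_nsmul hx.1, htr, hdet]

/-- **The quadratic relation on the eigen classes.** -/
theorem relation_eigenP (hM : M ≠ 0) (hrb : IsSemistableResidual p rb) (D : ESInput N p)
    (σ : Γℚ) {x : JZero N} (hx : x ∈ eigenP rb M N) :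
    σ • σ • x - (rb σ : M2p).trace.val • σ • x + (rb σ : M2p).det.val • x = 0 :=
  relation_eigenP_of_det N hM hrb.isOpen_ker hrb.det_eq D σ hx

include hN in
/-- The group `W₀`, from open kernel and cyclotomic determinant. -/
theorem exists_w0_away_of_det {L : ℕ} [NeZero L] (hM : M ≠ 0) (hLN : L ∣ N)
    (hopen : IsOpen (rb.ker : Set Γℚ))
    (hcyc : ∀ σ, (rb σ : M2p).det = ((Fermat.CFT.cycChar p σ : (ZMod p)ˣ) : ZMod p))
    (hmod : ModularOf p rb L) :
    ∃ W : AddSubgroup (JZero N), W ≠ ⊥ ∧ IsQuadratic rb W ∧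
      ∀ i : GoodPrime rb M, ∀ x ∈ W,
        heckeOperatorBar N i.toPrimes x = (trFrob rb i.1).val • x := by
  obtain ⟨D⟩ := Fermat.GR.hasESInput N p
  have := finite_eigenP (rb := rb) (M := M) N D
  let W : AddSubgroup (JZero N) :=
    { carrier := {x | x ∈ eigenP rb M N ∧ ∀ σ : Γℚ, rb σ = 1 → σ • x = x}
      zero_mem' := ⟨zero_mem _, fun σ _ => smul_zero σ⟩
      add_mem' := fun {x y} hx hy => ⟨add_mem hx.1 hy.1, fun σ hσ => by
        rw [smul_add, hx.2 σ hσ, hy.2 σ hσ]⟩
      neg_mem' := fun {x} hx => ⟨neg_mem hx.1, fun σ hσ => by rw [smul_neg, hx.2 σ hσ]⟩ }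
  refine ⟨W, ?_, ⟨fun x hx => hx.1.1, fun σ x hx => ?_,
    fun σ x hx => relation_eigenP_of_det N hM hopen hcyc D σ hx.1,
    fun σ hσ x hx => hx.2 σ hσ⟩,
    fun i x hx => hx.1.2 i⟩
  · obtain ⟨x, hx, hx0, hfix⟩ := exists_fixed_ne_zero (p := p) rb.ker
      (eigenP_ne_bot N hN hLN hmod D) (fun σ _ x hx => smul_mem_eigenP N σ hx)
      (fun x hx => hx.1) (fun σ hσ x hx => pow_smul_eq_self
        (fun y hy => smul_mem_eigenP N σ hy) (fun y hy => hy.1) (fun y hy => by
          have h := relation_eigenP_of_det N hM hopen hcyc D σ hy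
          rw [MonoidHom.mem_ker.mp hσ, Units.val_one, Matrix.det_one, Matrix.trace_one,
            ZMod.val_one, one_nsmul, Fintype.card_fin, ← Int.cast_natCast 2,
            ← zsmul_eq_val_nsmul (smul_mem_eigenP N σ hy).1, natCast_zsmul] at h
          exact h) hx)
    exact fun hbot => hx0 (W.eq_bot_iff_forall.mp hbot x
      ⟨hx, fun σ hσ => hfix σ (MonoidHom.mem_ker.mpr hσ)⟩)
  · refine ⟨smul_mem_eigenP N σ hx.1, fun τ hτ => ?_⟩
    rw [← inv_smul_eq_iff, ← mul_smul, ← mul_smul]
    exact hx.2 _ (by simp [hτ])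

include hN in
/-- **The group `W₀`.** If a semistable `rb` is modular of a level dividing `N`, then `J₀(N)` has a
nonzero group, quadratic for `rb`, on which the good Hecke operators act through the traces of
`rb`. -/
theorem exists_w0_away {L : ℕ} [NeZero L] (hM : M ≠ 0) (hLN : L ∣ N)
    (hrb : IsSemistableResidual p rb) (hmod : ModularOf p rb L) :
    ∃ W : AddSubgroup (JZero N), W ≠ ⊥ ∧ IsQuadratic rb W ∧
      ∀ i : GoodPrime rb M, ∀ x ∈ W,
        heckeOperatorBar N i.toPrimes x = (trFrob rb i.1).val • x :=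
  exists_w0_away_of_det N hN hM hLN hrb.isOpen_ker hrb.det_eq hmod

include hN in
/-- The group `W₀` when the level is a multiple of `M p`. -/
theorem exists_w0_of_modular {L : ℕ} [NeZero L] (hNp : M * p ∣ N) (hLN : L ∣ N)
    (hrb : IsSemistableResidual p rb) (hmod : ModularOf p rb L) :
    ∃ W : AddSubgroup (JZero N), W ≠ ⊥ ∧ IsQuadratic rb W ∧
      ∀ i : GoodPrime rb M, ∀ x ∈ W,
        heckeOperatorBar N i.toPrimes x = (trFrob rb i.1).val • x :=
  exists_w0_away N hN (fun h => NeZero.ne N (Nat.eq_zero_of_zero_dvd (by simpa [h] using hNp))) hLN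
    hrb hmod

end Construction

end Fermat.BAD.AtP
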