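import Fermat.Agent.BAD.AtP.Scalar

/-!
# An eigen group on which the move is its determinant is zero

In the supersingular case the image of the move has no eigenvalue one, in the ordinary case it is
conjugate to `diag (c, 1)` with `c ≠ 1`; in both cases it is not a scalar equal to its determinant
on a nonzero group satisfying the quadratic relations.
-/

set_option autoImplicit false
set_option linter.unusedSectionVars false

attribute [local instance 10000] SubalgebraClass.toAlgebra HahnSeries.powerSeriesAlgebra

noncomputable section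

open ModularCurve IsLocalRing

namespace Fermat.BAD.AtP

open Fermat.FF Fermat.MC

local notation "Qb" => AlgebraicClosure ℚ
local notation "Γℚ" => (AlgebraicClosure ℚ ≃ₐ[ℚ] AlgebraicClosure ℚ)

section Group

variable {G V : Type*} [Group G] [AddCommGroup V] [DistribMulAction G V] {p : ℕ} [Fact p.Prime]
  {rb : G →* GL (Fin 2) (ZMod p)}

local notation "M2p" => Matrix (Fin 2) (Fin 2) (ZMod p)

/-- If `rb γ` has no eigenvalue one and `γ` acts on `W` as its determinant, then `W = ⊥`. -/
theorem eq_bot_of_scalar_det {W : AddSubgroup V} (hW : IsQuadratic rb W) {γ : G}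
    (h1 : ((rb γ : M2p) - 1).det ≠ 0)
    (hscal : ∀ x ∈ W, γ • x = (rb γ : M2p).det.val • x) : W = ⊥ := by
  by_contra hne
  have h2 := charpoly_root_of_scalar rb hW hne hscal
  have e : ((rb γ : M2p) - 1).det = (rb γ : M2p).det - (rb γ : M2p).trace + 1 := by
    simp only [Matrix.det_fin_two, Matrix.trace_fin_two, Matrix.sub_apply,
      Matrix.one_apply_eq, Matrix.one_apply_ne (show (0 : Fin 2) ≠ 1 by decide),
      Matrix.one_apply_ne (show (1 : Fin 2) ≠ 0 by decide), sub_zero]
    ring
  rw [e] at h1
  exact mul_ne_zero (Matrix.det_ne_zero_of_left_inverse (rb γ).inv_mul) h1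
    (by linear_combination h2)

end Group

variable {p : ℕ} [Fact p.Prime] {M : ℕ} [NeZero M] [NeZero p] {hpM : ¬ p ∣ M}
  {A : ValuationSubring Qb} [IsAlgClosed (ResidueField A)]
  {K : IntermediateField (ResidueField A) (LaurentSeries (ResidueField A))}
  [IsFunctionField (ResidueField A) K] [IsFunctionField Qb (FN (M * p) Qb)]
  {rb : Γℚ →* GL (Fin 2) (ZMod p)} {V : AddSubgroup (JZero (M * p))}

/-- Every class of an eigen group is fixed by the elements fixing the local field. -/
theorem smul_eq_self_of_fix {a₀ : ℕ} (F : LocalField p A rb a₀) (hV : IsQuadratic rb V) {τ : Γℚ}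
    (hτ : ∀ c ∈ F.M, τ c = c) {x : JZero (M * p)} (hx : x ∈ V) : τ • x = x :=
  hV.ker_fixed τ (F.kerM τ hτ) x hx

variable (X : Degen (residue A) (Fermat.BAD.X0.emb M p Fact.out hpM) K)
  (R : RatData (residue A) (Fermat.BAD.X0.emb M p Fact.out hpM))

/-- What the engine needs from the curve over a local field. -/
structure EngineData {a₀ : ℕ} (F : LocalField p A rb a₀) (T : ThreshMove p F)
    {F' : Bool → Type} [∀ b, Field (F' b)] (ND : ∀ b, NormData X R b (F' b)) where
  /-- `a₀` is the threshold of the engine at `p`. -/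
  thresh : Thresh R p a₀
  /-- The constants `M` form the fixed field of the automorphisms fixing them. -/
  fix : FixM R
  /-- The engine uses the uniformiser of the local field. -/
  ρ_eq : R.ρ = F.ρ
  /-- For large bounds, glued pairs are reductions of rational functions with bounded poles. -/
  lift : ∀ n, X.N0 ≤ n → X.LiftGlue R n
  /-- There is a glued point. -/
  S_ne : X.S.Nonempty
  /-- Near each glued point the model is `u v = p`. -/
  node : X.Node (p : Qb)
  /-- The automorphism of the coefficients by which the move acts on functions. -/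
  aut : Degen.CoeffAut X R
  /-- On constants it is the move of the local field. -/
  aut_σ : ∀ c, aut.σ c = T.γ c
  /-- On functions it is the arithmetic Galois action of the move. -/
  aut_s : ∀ f, aut.s f = arithmeticGalois (modularFunctionFieldFull (M * p)) T.γ • f

variable {X R} {F' : Bool → Type} [∀ b, Field (F' b)] {ND : ∀ b, NormData X R b (F' b)}

/-- The move acts on the eigen group by the determinant of its image. -/
theorem smul_eq_det {a₀ : ℕ} {F : LocalField p A rb a₀} {T : ThreshMove p F}
    (E : EngineData X R F T ND) (hV : IsQuadratic rb V)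
    (hP : ∀ x ∈ V, Nonempty (PowerPres X R ND x)) {x : JZero (M * p)} (hx : x ∈ V) :
    T.γ • x = (rb T.γ : Matrix (Fin 2) (Fin 2) (ZMod p)).det.val • x := by
  obtain ⟨P⟩ := hP x hx
  exact smul_eq_nsmul_of_powerPres E.thresh E.fix F.ζ_prim
    (by
      show RatData.Val R (1 - F.ζ) a₀
      have h := F.val_lam
      rw [HasVal, ← E.ρ_eq] at h
      exact h)
    E.lift E.S_ne (Nat.cast_ne_zero.mpr (Fact.out : p.Prime).ne_zero) E.node ND E.aut E.aut_σ
    E.aut_s (χ := T.χ) (by rw [E.ρ_eq]; exact T.smul_pow)
    (Matrix.det_ne_zero_of_left_inverse (rb T.γ).inv_mul) T.χ_res (hV.torsion x hx) P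

/-- **Supersingular case**: over any local field, an element whose image has no eigenvalue one
forces `V = ⊥`. -/
theorem eq_bot_of_no_one {a₀ : ℕ} {F : LocalField p A rb a₀} {T : ThreshMove p F}
    (E : EngineData X R F T ND) (hV : IsQuadratic rb V)
    (hP : ∀ x ∈ V, Nonempty (PowerPres X R ND x))
    (h1 : ((rb T.γ : Matrix (Fin 2) (Fin 2) (ZMod p)) - 1).det ≠ 0) : V = ⊥ :=
  eq_bot_of_scalar_det hV h1 fun _ hx => smul_eq_det E hV hP hx

/-- **Ordinary case**: over any local field, an element with image conjugate to `diag (c, 1)`,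
`c ≠ 1`, forces `V = ⊥`. -/
theorem eq_bot_of_conj {a₀ : ℕ} {F : LocalField p A rb a₀} {T : ThreshMove p F}
    (E : EngineData X R F T ND) (hV : IsQuadratic rb V)
    (hP : ∀ x ∈ V, Nonempty (PowerPres X R ND x)) (hs : Function.Surjective rb) {c : ZMod p}
    (hc0 : c ≠ 0) (hc1 : c ≠ 1) (P : GL (Fin 2) (ZMod p))
    (hrb : (rb T.γ : Matrix (Fin 2) (Fin 2) (ZMod p)) =
      (P : Matrix (Fin 2) (Fin 2) (ZMod p)) * !![c, 0; 0, 1] *
        (↑P⁻¹ : Matrix (Fin 2) (Fin 2) (ZMod p))) : V = ⊥ := by
  by_contra hne
  refine false_of_scalar rb hs hV hne hc0 hc1 P hrb fun x hx => ?_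
  have hdet : (rb T.γ : Matrix (Fin 2) (Fin 2) (ZMod p)).det = c := by
    rw [hrb, Matrix.det_units_conj, Matrix.det_fin_two]
    simp
  rw [smul_eq_det E hV hP hx, hdet]

end Fermat.BAD.AtP
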