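import Fermat.Agent.BAD.X0.Degen
import Fermat.Agent.BAD.Inst.Order

/-!
# The two glued reductions when a prime `11` modulo `12` divides the level

Such a prime kills both kinds of elliptic points, so the two expansions form a `Degen`.
-/

set_option autoImplicit false

attribute [local instance 10000] SubalgebraClass.toAlgebra HahnSeries.powerSeriesAlgebra

noncomputable section

open ModularCurve

namespace Fermat.BAD.AtP

open Fermat.MC Fermat.RED.Model Fermat.BAD.X0

local notation "Qb" => AlgebraicClosure ℚ

variable (M q : ℕ) [NeZero M] [NeZero q] [Fact q.Prime] (hq : q.Prime) (hqM : ¬ q ∣ M)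
variable [FF.IsFunctionField Qb (FN (M * q) Qb)] [FF.IsFunctionField Qb (FN M Qb)]
variable {A : ValuationSubring (AlgebraicClosure ℚ)} (hA : A.LiesOverPrime q)
  [IsAlgClosed (IsLocalRing.ResidueField A)] [CharP (IsLocalRing.ResidueField A) q]
  [FF.IsFunctionField (IsLocalRing.ResidueField A) (FX (IsLocalRing.ResidueField A) M)]
variable {r : ℕ} (hr : r.Prime) (h12 : r % 12 = 11) (hrM : r ∣ M)

/-- The two glued reductions of `X₀ (M q)` when `r ≡ 11 (mod 12)` divides `M`. -/
abbrev degenR : Degen (IsLocalRing.residue A) (emb M q hq hqM)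
    (modularFunctionFieldFullC (IsLocalRing.ResidueField A) M) :=
  degen M q hq hqM hA (NoElliptic.of_prime_dvd hr h12 hrM)

end Fermat.BAD.AtP

end
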