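import Fermat.Agent.BAD.AtP.BridgeModular
import Fermat.Agent.BAD.AtP.Group
import Fermat.Agent.BAD.Corr.X0
import Fermat.Agent.RED.Reduction.X0

/-!
# Eigen classes in characteristic `p` give modularity

If a nonzero class killed by `p` of the level `M` curve in characteristic `p` is an eigen class of
the reduced correspondences with the traces of `rb` as values, then `rb` is modular of level `M`.
-/

set_option autoImplicit false

attribute [local instance 10000] SubalgebraClass.toAlgebra HahnSeries.powerSeriesAlgebra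

noncomputable section

open ModularCurve AlgebraicCurve MvPolynomial

namespace Fermat.BAD.AtP

open Fermat.GR.RT Fermat.BAD.Corr Fermat.RED Fermat.FF

local notation "Γℚ" => (AlgebraicClosure ℚ ≃ₐ[ℚ] AlgebraicClosure ℚ)

variable {p : ℕ} [Fact p.Prime] {rb : Γℚ →* GL (Fin 2) (ZMod p)} {M : ℕ} [NeZero M]

/-- An eigen element of a quotient of `J₀(M)` kills the relations. -/
theorem trEval_eq_zero_of_image_eigen {M' : ℕ} {Q : Type*} [AddCommGroup Q] (red : JZero M →+ Q)
    (hred : Function.Surjective red) (Tb : GoodPrime rb M' → (Q →+ Q))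
    (hcomm : ∀ i x, red (heckeOperatorBar M i.toPrimes x) = Tb i (red x)) {z : Q} (hz0 : z ≠ 0)
    (hpz : p • z = 0) (hz : ∀ i, Tb i z = (trFrob rb i.1).val • z)
    {P : MvPolynomial (GoodPrime rb M') ℤ} (hP : hecBar M P = 0) : trEval rb M' P = 0 := by
  have key : ∀ (P : MvPolynomial (GoodPrime rb M') ℤ) (x : JZero M) (n : ℕ),
      red x = n • z → red (hecBar M P x) = n • (trEval rb M' P).val • z := by
    intro P
    induction P using MvPolynomial.induction_on with
    | C c =>
      intro x n hx
      rw [eq_intCast, map_intCast, Module.End.intCast_apply, map_zsmul, hx, map_intCast,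
        smul_comm c n z]
      exact congrArg (n • ·) (zsmul_eq_val_nsmul hpz c)
    | add P R hP hR =>
      intro x n hx
      rw [map_add, map_add, LinearMap.add_apply, map_add, hP x n hx, hR x n hx, ← nsmul_add,
        ← add_nsmul, ZMod.val_add, ← nsmul_eq_mod_nsmul _ hpz]
    | mul_X P i hP =>
      intro x n hx
      rw [map_mul, map_mul, Module.End.mul_apply, hecBar_X,
        hP _ (n * (trFrob rb i.1).val) (by rw [hcomm, hx, map_nsmul, hz, mul_nsmul']),
        trEval, eval₂Hom_X', mul_nsmul', ← mul_nsmul' z (trFrob rb i.1).val,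
        mul_comm (trFrob rb i.1).val, ZMod.val_mul, ← nsmul_eq_mod_nsmul _ hpz]
  by_contra hne
  obtain ⟨x, hx⟩ := hred z
  have h1 := key P x 1 (by rw [one_nsmul, hx])
  rw [hP, LinearMap.zero_apply, map_zero, one_nsmul] at h1
  exact hz0 (eq_zero_of_val_nsmul hpz hne h1.symm)

/-- An eigen element of a quotient of `J₀(M)` gives modularity. -/
theorem modularOf_of_image_eigen {Q : Type*} [AddCommGroup Q] (red : JZero M →+ Q)
    (hred : Function.Surjective red) (Tb : GoodPrime rb M → (Q →+ Q))
    (hcomm : ∀ i x, red (heckeOperatorBar M i.toPrimes x) = Tb i (red x)) {z : Q} (hz0 : z ≠ 0)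
    (hpz : p • z = 0) (hz : ∀ i, Tb i z = (trFrob rb i.1).val • z) : ModularOf p rb M :=
  modularOf_of_annihilator fun _ hP =>
    trEval_eq_zero_of_image_eigen red hred Tb hcomm hz0 hpz hz hP

/-- **An eigen class of the reduced correspondences gives modularity.** -/
theorem modularOf_of_redEigen {A : ValuationSubring (AlgebraicClosure ℚ)} {q : ℕ} (hq : q.Prime)
    (hA : A.LiesOverPrime q) (hqM : ¬ q ∣ M) (hne : ∀ i : GoodPrime rb M, i.1 ≠ q)
    [IsAlgClosed (IsLocalRing.ResidueField A)]
    [IsFunctionField (IsLocalRing.ResidueField A)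
      (modularFunctionFieldFullC (IsLocalRing.ResidueField A) M)]
    {z : Pic0 (IsLocalRing.ResidueField A)
      (modularFunctionFieldFullC (IsLocalRing.ResidueField A) M)}
    (hz0 : z ≠ 0) (hpz : p • z = 0)
    (hz : ∀ (i : GoodPrime rb M) [NeZero i.1] [IsFunctionField (IsLocalRing.ResidueField A)
        (modularFunctionFieldFullC (IsLocalRing.ResidueField A) (M * i.1))],
      tbarMPic (IsLocalRing.ResidueField A) M i.1 z = (trFrob rb i.1).val • z) :
    ModularOf p rb M := by
  obtain ⟨r, hr⟩ := exists_seriesReduction_modL M hq hqM A hA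
  have hfn : ∀ i : GoodPrime rb M, IsFunctionField (IsLocalRing.ResidueField A)
      (modularFunctionFieldFullC (IsLocalRing.ResidueField A) (M * i.1)) := fun i => by
    have : NeZero i.1 := ⟨i.2.1.ne_zero⟩
    exact Fermat.RED.Cusps.isFunctionField (natCast_mul_ne_zero hq hA i.2.1 (hne i) hqM)
  refine modularOf_of_image_eigen (redPic hr) (redPic_surjective hr)
    (fun i => haveI : NeZero i.1 := ⟨i.2.1.ne_zero⟩; haveI := hfn i
      tbarMPic (IsLocalRing.ResidueField A) M i.1) (fun i x => ?_) hz0 hpz fun i => ?_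
  · have : NeZero i.1 := ⟨i.2.1.ne_zero⟩
    have := hfn i
    exact redPic_heckeT hq hA i.2.1 (hne i) hqM i.not_dvd hr x
  · have : NeZero i.1 := ⟨i.2.1.ne_zero⟩
    have := hfn i
    exact hz i

end Fermat.BAD.AtP
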