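import Fermat.Agent.BAD.AtP.LocalOrd
import Fermat.Agent.FLAT.Curve.Peu
import Fermat.Agent.SW.TorsionRep

/-!
# The local fields of the torsion of a semistable curve with flat `E[p]` at `p`

`exists_local_of_dvd`: if also `p ∣ ord_p Δ`, the torsion has an ordinary (`OrdLocal`) or a
supersingular (`SSLocal`) local field.
-/

set_option autoImplicit false

noncomputable section

open Fermat.EC.Val Fermat.FLAT Matrix Fermat.SW WeierstrassCurve

namespace Fermat.BAD.AtP

local notation "ℚbar" => AlgebraicClosure ℚ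
local notation "Γℚ" => (AlgebraicClosure ℚ ≃ₐ[ℚ] AlgebraicClosure ℚ)

variable {p : ℕ} [hp : Fact p.Prime] {A : ValuationSubring ℚbar}

/-- A flat representation has one of the two local fields. -/
theorem exists_local_of_model (h : IsPlace A p) (hp2 : p ≠ 2)
    {rb : Γℚ →* GL (Fin 2) (ZMod p)} (hopen : IsOpen (rb.ker : Set Γℚ))
    (hdet : ∀ σ, (rb σ : Matrix (Fin 2) (Fin 2) (ZMod p)).det =
      ((Fermat.CFT.cycChar p σ : (ZMod p)ˣ) : ZMod p))
    (G : Model A (A.decompositionSubgroup ℚ) (resAct (matRep rb))) :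
    Nonempty (OrdLocal p A rb) ∨ Nonempty (SSLocal p A rb) := by
  have : NeZero p := ⟨hp.out.ne_zero⟩
  obtain ⟨L, hfin, hnor, hL⟩ :=
    (krullTopology_mem_nhds_one_iff_of_normal ℚ ℚbar _).mp (hopen.mem_nhds (one_mem rb.ker))
  have : FiniteDimensional ℚ L := hfin
  have : Normal ℚ L := hnor
  have hL' : ∀ σ ∈ L.fixingSubgroup, matRep rb σ = 1 := fun σ hσ => congrArg Units.val (hL hσ)
  by_cases hirr : DecompIrred A (matRep rb)
  · obtain ⟨D⟩ := exists_ssData (matRep rb) L hL' h hp2 hirr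
      (fun σ _ => by rw [matRep_apply, hdet, ZMod.natCast_zmod_val]) G
    exact Or.inr (exists_ssLocal h hopen hdet D)
  · exact Or.inl (exists_ordLocal h hp2 hopen hdet L hL' G hirr)

/-- **The torsion of a curve semistable at `p` with `p ∣ ord_p Δ` has a local field.** -/
theorem exists_local_of_dvd {W : WeierstrassCurve ℤ} (hW : W.Δ ≠ 0)
    (hsemi : (p : ℤ) ∣ W.Δ → ¬ (p : ℤ) ∣ W.c₄) (hp : 2 < p) (hdvd : p ∣ padicValInt p W.Δ) :
    ∃ A : ValuationSubring ℚbar, A.LiesOverPrime p ∧
      (Nonempty (OrdLocal p A (Tors.tRep (p := p) W hW)) ∨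
        Nonempty (SSLocal p A (Tors.tRep (p := p) W hW))) := by
  have hpp : p.Prime := Fact.out
  obtain ⟨A, hA⟩ := Fermat.CFT.exists_place hpp
  have h : IsPlace A p := ⟨hpp, hA⟩
  refine ⟨A, hA, ?_⟩
  obtain ⟨G⟩ := nonempty_model_torsion_of_dvd W hW (by omega) hsemi hdvd h
  have : Finite (torsionGroup W p) := finite_torsionGroup W hW hpp.one_le
  set b := Tors.tbasis (p := p) W hW
  let ι : (Fin 2 → ZMod p) →+ torsionGroup W p := b.equivFun.symm.toAddMonoidHom
  have hι : ∀ σ ∈ (⊤ : Subgroup Γℚ), ∀ x, ι (resAct (matRep (Tors.tRep (p := p) W hW)) σ x) =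
      Curve.galHom (torsionGroup_stable W p) σ (ι x) := by
    intro σ _ x
    apply b.equivFun.injective
    refine (b.equivFun.apply_symm_apply _).trans ?_
    change Matrix.mulVec _ x = b.equivFun
      (Affine.Point.galoisRepModuleEnd (K := ℚbar) ℚ (modQ W).toAffine p σ (b.equivFun.symm x))
    rw [matRep_apply, Tors.val_tRep]
    ext i
    conv_lhs => rw [show x = b.equivFun (b.equivFun.symm x) from
      (b.equivFun.apply_symm_apply x).symm]
    exact congrFun (LinearMap.toMatrix_mulVec_repr b b _ _) i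
  obtain ⟨G₁⟩ := (G.restrict ι b.equivFun.symm.injective hι).nonempty_restrictH
    (inertia_le_decomposition A) le_top
  exact exists_local_of_model h (by omega) (Tors.isOpen_ker_tRep hW) (Tors.det_tRep hW) G₁

end Fermat.BAD.AtP

end
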