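import Mathlib
import Fermat.Prelude.Def_FLTPrelim_Ramification

/-!
# The local fields used by the Mazur principle at `p`

A place `A` of `ℚ̄` over `p`, a discretely valued subfield `M` with full residue field over which
the residual representation is trivial, and the elements of inertia used on it.
-/

set_option autoImplicit false

noncomputable section

namespace Fermat.BAD.AtP

local notation "ℚbar" => AlgebraicClosure ℚ
local notation "Γℚ" => (AlgebraicClosure ℚ ≃ₐ[ℚ] AlgebraicClosure ℚ)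

variable {A : ValuationSubring (AlgebraicClosure ℚ)}

/-- `a` has the value of `ρ ^ i` at `A`. -/
def HasVal (A : ValuationSubring ℚbar) (ρ a : ℚbar) (i : ℤ) : Prop :=
  a ≠ 0 ∧ a / ρ ^ i ∈ A ∧ ρ ^ i / a ∈ A

/-- A discretely valued subfield with uniformiser `ρ`, full residue field and `v(p) = (p - 1) a₀`,
containing the `p`-th roots of unity and fixed pointwise only by the kernel of `rb`. -/
structure LocalField (p : ℕ) [Fact p.Prime] (A : ValuationSubring ℚbar)
    (rb : Γℚ →* GL (Fin 2) (ZMod p)) (a₀ : ℕ) where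
  /-- The local field `M` inside `ℚ̄`. -/
  M : Subfield ℚbar
  /-- The uniformiser `ρ` of `M`. -/
  ρ : ℚbar
  /-- `ρ` lies in `M`. -/
  ρ_mem : ρ ∈ M
  /-- `ρ` is nonzero. -/
  ρ_ne : ρ ≠ 0
  /-- `ρ` is integral. -/
  ρ_A : ρ ∈ A
  /-- `ρ` reduces to zero. -/
  ρ_small : IsLocalRing.residue A ⟨ρ, ρ_A⟩ = 0
  /-- The values of `M` are the powers of that of `ρ`. -/
  value : ∀ a ∈ M, a ≠ 0 → ∃ i : ℤ, a / ρ ^ i ∈ A ∧ ρ ^ i / a ∈ A
  /-- The integers of `M` reduce onto the residue field of `A`. -/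
  surjM : ∀ c : IsLocalRing.ResidueField A, ∃ a : A, (a : ℚbar) ∈ M ∧ IsLocalRing.residue A a = c
  /-- `M` is the fixed field of the automorphisms fixing it pointwise. -/
  fixM : ∀ a : ℚbar, (∀ τ : ℚbar ≃+* ℚbar, (∀ c ∈ M, τ c = c) → τ a = a) → a ∈ M
  /-- The representation is trivial on the automorphisms fixing `M`. -/
  kerM : ∀ τ : Γℚ, (∀ c ∈ M, τ c = c) → rb τ = 1
  /-- `a₀` is positive. -/
  a_pos : 0 < a₀
  /-- `p` has the value of `ρ ^ ((p - 1) a₀)`. -/
  val_p : HasVal A ρ (p : ℚbar) (((p : ℤ) - 1) * a₀)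
  /-- A primitive `p`-th root of unity. -/
  ζ : ℚbar
  /-- `ζ` is primitive of order `p`. -/
  ζ_prim : IsPrimitiveRoot ζ p
  /-- `ζ` lies in `M`. -/
  ζ_mem : ζ ∈ M
  /-- `1 - ζ` has the value of `ρ ^ a₀`. -/
  val_lam : HasVal A ρ (1 - ζ) a₀

/-- An element of inertia preserving `M`, with its character at the threshold. -/
structure ThreshMove (p : ℕ) [Fact p.Prime] {rb : Γℚ →* GL (Fin 2) (ZMod p)} {a₀ : ℕ}
    (F : LocalField p A rb a₀) where
  /-- The element `γ` of inertia. -/
  γ : Γℚ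
  /-- `γ` lies in inertia. -/
  mem : γ ∈ A.inertiaSubgroupIn ℚ
  /-- `γ` preserves `M`. -/
  maps : ∀ c ∈ F.M, γ c ∈ F.M
  /-- The value `χ` of the character of the move at the threshold. -/
  χ : A
  /-- `γ` multiplies `ρ ^ (p a₀)` by `χ`. -/
  smul_pow : γ (F.ρ ^ ((p : ℤ) * a₀)) = F.ρ ^ ((p : ℤ) * a₀) * (χ : ℚbar)
  /-- `χ` reduces to the determinant of `rb γ`. -/
  χ_res : IsLocalRing.residue A χ =
    ((((rb γ : Matrix (Fin 2) (Fin 2) (ZMod p)).det).val : ℕ) : IsLocalRing.ResidueField A)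

/-- The ordinary case: `M` has degree `p` over the tame field and a first order movement. -/
structure OrdLocal (p : ℕ) [Fact p.Prime] (A : ValuationSubring ℚbar)
    (rb : Γℚ →* GL (Fin 2) (ZMod p)) where
  /-- The local field, with `a₀ = p`. -/
  F : LocalField p A rb p
  /-- The move of inertia on `F`, with its character. -/
  T : ThreshMove p F
  /-- The eigenvalue of the move. -/
  c : ZMod p
  /-- `c` is nonzero. -/
  c_ne : c ≠ 0
  /-- `c` is not one. -/
  c_ne_one : c ≠ 1
  /-- The eigenbasis of the move. -/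
  P : GL (Fin 2) (ZMod p)
  /-- In that basis the move acts as `diag (c, 1)`. -/
  rb_move : (rb T.γ : Matrix (Fin 2) (Fin 2) (ZMod p)) =
    (P : Matrix (Fin 2) (Fin 2) (ZMod p)) * !![c, 0; 0, 1] *
      (↑P⁻¹ : Matrix (Fin 2) (Fin 2) (ZMod p))
  /-- The first order movement. -/
  σ : Γℚ
  /-- `σ` moves the integers of `M` by multiples of `ρ ^ 2`. -/
  move : ∀ a ∈ F.M, a ∈ A → (σ a - a) / F.ρ ^ 2 ∈ A
  /-- Its leading coefficient. -/
  lead : A
  /-- The leading coefficient is a unit. -/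
  lead_ne : IsLocalRing.residue A lead ≠ 0
  /-- `σ ρ - ρ = lead ρ ^ 2`. -/
  move_rho : (σ F.ρ - F.ρ) / F.ρ ^ 2 = (lead : ℚbar)

/-- The supersingular case: a tame field and an element of inertia without eigenvalue one. -/
structure SSLocal (p : ℕ) [Fact p.Prime] (A : ValuationSubring ℚbar)
    (rb : Γℚ →* GL (Fin 2) (ZMod p)) where
  /-- The local field, with `a₀ = p + 1`. -/
  F : LocalField p A rb (p + 1)
  /-- The move of inertia on `F`, with its character. -/
  T : ThreshMove p F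
  /-- The image of the move does not have the eigenvalue one. -/
  no_one : ((rb T.γ : Matrix (Fin 2) (Fin 2) (ZMod p)) - 1).det ≠ 0

end Fermat.BAD.AtP

end
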