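import Fermat.Agent.BAD.AtP.LocalField

/-!
# Enlarging a local field so that its index gains a factor `p`

Adjoining a root of unity of order `p ^ (a₀ + 1)` gives a discretely valued field with the same
residue field whose index over the first is divisible by `p`; an element of inertia preserving the
first field preserves it and keeps its character.
-/

set_option autoImplicit false
set_option linter.unusedSectionVars false

noncomputable section

open Fermat.EC.Val IsLocalRing Fermat.FLAT Polynomial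

namespace Fermat.BAD.AtP

local notation "ℚbar" => AlgebraicClosure ℚ
local notation "Γℚ" => (AlgebraicClosure ℚ ≃ₐ[ℚ] AlgebraicClosure ℚ)

variable {p : ℕ} [hp : Fact p.Prime] {A : ValuationSubring ℚbar}
  {rb : Γℚ →* GL (Fin 2) (ZMod p)} {a₀ : ℕ}

/-- An element with the value of `ρ ^ i` has order `i` times that of `ρ`. -/
lemma HasVal.is (h : IsPlace A p) {ρ a : ℚbar} (hρ : ρ ≠ 0) {i : ℤ} (ha : HasVal A ρ a i) :
    Is A p a (i * ord A p ρ) := by
  obtain ⟨ha0, h1, h2⟩ := ha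
  have hi := zpow_ne_zero i hρ
  refine ⟨ha0, ?_⟩
  have e1 := (mem_iff_ord h (div_ne_zero ha0 hi)).mp h1
  have e2 := (mem_iff_ord h (div_ne_zero hi ha0)).mp h2
  rw [div_eq_mul_inv, ord_mul h ha0 (inv_ne_zero hi), ord_inv h, ord_zpow h] at e1
  rw [div_eq_mul_inv, ord_mul h hi (inv_ne_zero ha0), ord_inv h, ord_zpow h] at e2
  linarith

namespace LocalField

variable (F : LocalField p A rb a₀)

/-- The uniformiser has order `1 / valIndex`. -/
lemma is_rho (h : IsPlace A p) : Is A p F.ρ (1 / valIndex p a₀) := by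
  refine ⟨F.ρ_ne, ?_⟩
  have h1 := (F.val_p.is h F.ρ_ne).2
  rw [ord_q h] at h1
  rw [eq_div_iff (valIndex_pos (p := p) F.a_pos).ne', valIndex]
  push_cast at h1
  linear_combination -h1

/-- The orders on the field are multiples of `1 / valIndex`. -/
lemma exists_ord_eq_div (h : IsPlace A p) {x : ℚbar} (hx : x ∈ F.M) (hx0 : x ≠ 0) :
    ∃ m : ℤ, ord A p x = (m : ℚ) / valIndex p a₀ := by
  obtain ⟨i, h1, h2⟩ := F.value x hx hx0
  refine ⟨i, ?_⟩
  rw [(HasVal.is h F.ρ_ne ⟨hx0, h1, h2⟩).2, (F.is_rho h).2, mul_one_div]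

/-- The field as an intermediate field. -/
def toInt : IntermediateField ℚ ℚbar :=
  { F.M with
    algebraMap_mem' := fun r => by
      rw [eq_ratCast (algebraMap ℚ ℚbar) r]
      exact SubfieldClass.ratCast_mem F.M r }

/-- Elements of degree at most `d` over the field have orders with bounded denominators. -/
theorem exists_int_ord_algebraic (h : IsPlace A p) {d : ℕ} {x : ℚbar} (hx0 : x ≠ 0)
    (P : (F.toInt)[X]) (hP : P.Monic) (hd : P.natDegree ≤ d) (hev : aeval x P = 0) :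
    ∃ m : ℤ, ord A p x = (m : ℚ) / (valIndex p a₀ * (d.factorial : ℚ)) := by
  classical
  -- write the equation of `x` as a vanishing sum of the terms `f i`
  set n := P.natDegree
  set f : ℕ → ℚbar := fun i => ((P.coeff i : F.toInt) : ℚbar) * x ^ i with hf
  have hsum : ∑ i ∈ Finset.range (n + 1), f i = 0 := by
    rw [← hev, aeval_eq_sum_range]
    exact Finset.sum_congr rfl fun i _ => by rw [Algebra.smul_def]; rfl
  have hfn : f n ≠ 0 := by
    have : P.coeff n = 1 := hP
    simp only [hf, this]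
    simpa using pow_ne_zero n hx0
  -- two distinct nonzero terms have the same order, since the sum vanishes
  obtain ⟨i, hi, j, hj, hi0, hj0, hij, he⟩ : ∃ i ∈ Finset.range (n + 1),
      ∃ j ∈ Finset.range (n + 1), f i ≠ 0 ∧ f j ≠ 0 ∧ i ≠ j ∧ ord A p (f i) = ord A p (f j) := by
    by_contra hc
    push Not at hc
    have := ge_term_of_distinct h (s := Finset.range (n + 1)) (f := f)
      (fun i hi j hj hi0 hj0 he => by_contra fun hne => hc i hi j hj hi0 hj0 hne he)
      (a := ord A p (f n) + 1) (Or.inl hsum) n (Finset.self_mem_range_succ n)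
    have := this.resolve_left hfn
    linarith
  wlog hlt : i < j generalizing i j
  · exact this j hj i hi hj0 hi0 (Ne.symm hij) he.symm (by omega)
  have hci := left_ne_zero_of_mul hi0
  have hcj := left_ne_zero_of_mul hj0
  -- the coefficients have orders in `(1 / valIndex p a₀) ℤ`, and so `(j - i) ord x` lies there
  obtain ⟨u, hu⟩ := F.exists_ord_eq_div h (P.coeff i).2 hci
  obtain ⟨v, hv⟩ := F.exists_ord_eq_div h (P.coeff j).2 hcj
  rw [ord_mul h hci (pow_ne_zero _ hx0), ord_mul h hcj (pow_ne_zero _ hx0), ord_pow h, ord_pow h,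
    hu, hv] at he
  -- `j - i ≤ d` divides `d!`
  obtain ⟨q, hq⟩ := Nat.dvd_factorial (by omega : 0 < j - i)
    (show j - i ≤ d by rw [Finset.mem_range] at hj; omega)
  refine ⟨(u - v) * q, ?_⟩
  have hN := (valIndex_pos (p := p) F.a_pos).ne'
  have hji : ((j - i : ℕ) : ℚ) ≠ 0 := Nat.cast_ne_zero.mpr (by omega)
  have hqq : (q : ℚ) ≠ 0 := by
    intro e
    rw [Nat.cast_eq_zero.mp e, mul_zero] at hq
    exact Nat.factorial_ne_zero _ hq
  rw [hq, Nat.cast_mul]
  push_cast [Nat.cast_sub hlt.le] at hji ⊢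
  field_simp at he ⊢
  linear_combination -he

/-- The `p ^ k`-th roots of `ζ` have order `1 / ((p - 1) p ^ k)` after subtracting one. -/
private lemma is_root_zeta_sub_one (h : IsPlace A p) : ∀ k, ∀ y : ℚbar, y ^ p ^ k = F.ζ →
    Is A p (y - 1) (1 / (((p : ℚ) - 1) * (p : ℚ) ^ k)) := by
  have hp1 := p_sub_one_pos (p := p)
  intro k
  induction k with
  | zero =>
    intro y hy
    rw [pow_zero, pow_one] at hy
    simpa [hy] using Fermat.EC.Cyclo.is_zeta_sub_one h F.ζ_prim
  | succ k ih =>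
    intro y hy
    have h1 := ih (y ^ p) (by rw [← pow_mul, ← pow_succ']; exact hy)
    have hpk : (1 : ℚ) ≤ (p : ℚ) ^ k := one_le_pow₀ (by exact_mod_cast hp.out.one_le)
    have hp0 : (0 : ℚ) < p := by linarith
    have h2 := is_root_sub_one h h1 (by positivity) (by
      rw [one_div, mul_inv, mul_right_comm, inv_mul_cancel₀ hp1.ne', one_mul]
      exact lt_of_le_of_lt (inv_le_one_of_one_le₀ hpk) (by linarith))
    convert h2 using 1
    rw [pow_succ]
    field_simp

/-- In a finite extension the orders have bounded denominators. -/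
private lemma exists_ord_eq_div_factorial (h : IsPlace A p) (E : IntermediateField F.toInt ℚbar)
    [FiniteDimensional F.toInt E] {x : ℚbar} (hx : x ∈ E) (hx0 : x ≠ 0) :
    ∃ m : ℤ, ord A p x = (m : ℚ) /
      (valIndex p a₀ * ((Module.finrank F.toInt E).factorial : ℚ)) := by
  have hxi : IsIntegral F.toInt (⟨x, hx⟩ : E) := IsIntegral.of_finite _ _
  refine F.exists_int_ord_algebraic h hx0 (minpoly F.toInt (⟨x, hx⟩ : E)) (minpoly.monic hxi)
    (minpoly.natDegree_le _) ?_
  have := congrArg E.val (minpoly.aeval F.toInt (⟨x, hx⟩ : E))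
  rwa [← aeval_algHom_apply, map_zero] at this

/-- Multiplying `a₀` by `e` multiplies the index by `e`. -/
private lemma valIndex_mul (e : ℕ) : valIndex p (e * a₀) = valIndex p a₀ * e := by
  rw [valIndex, valIndex]; push_cast; ring

/-- **Index and uniformiser of a finite extension.** -/
lemma exists_uniformiser (h : IsPlace A p) (E : IntermediateField F.toInt ℚbar)
    [FiniteDimensional F.toInt E] :
    ∃ (e : ℕ) (ρ' : ℚbar), 0 < e ∧ ρ' ∈ E ∧ Is A p ρ' (1 / valIndex p (e * a₀)) ∧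
      ∀ x ∈ E, x ≠ 0 → ∃ i : ℤ, Is A p x ((i : ℚ) / valIndex p (e * a₀)) := by
  have hN := valIndex_pos (p := p) F.a_pos
  set d := Module.finrank F.toInt E
  set D : ℚ := valIndex p a₀ * (d.factorial : ℚ) with hD
  -- the group of orders is cyclic; its generator gives `e` and the uniformiser
  let S : AddSubgroup ℤ :=
    { carrier := {m | ∃ x ∈ E, x ≠ 0 ∧ ord A p x = (m : ℚ) / D}
      add_mem' := by
        rintro a b ⟨x, hx, hx0, hxo⟩ ⟨y, hy, hy0, hyo⟩
        refine ⟨x * y, mul_mem hx hy, mul_ne_zero hx0 hy0, ?_⟩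
        rw [ord_mul h hx0 hy0, hxo, hyo]; push_cast; ring
      zero_mem' := ⟨1, one_mem E, one_ne_zero, by rw [ord_one h]; simp⟩
      neg_mem' := by
        rintro a ⟨x, hx, hx0, hxo⟩
        refine ⟨x⁻¹, inv_mem hx, inv_ne_zero hx0, ?_⟩
        rw [ord_inv h, hxo]; push_cast; ring }
  obtain ⟨g₀, hg₀⟩ := Int.subgroup_cyclic S
  set g : ℤ := (g₀.natAbs : ℤ)
  have hS : ∀ m : ℤ, m ∈ S ↔ g ∣ m := by
    intro m
    rw [hg₀, ← AddSubgroup.zmultiples_eq_closure, Int.mem_zmultiples_iff, Int.natAbs_dvd]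
  have hdS : (d.factorial : ℤ) ∈ S := by
    refine ⟨F.ρ, E.algebraMap_mem ⟨_, F.ρ_mem⟩, F.ρ_ne, ?_⟩
    rw [(F.is_rho h).2, hD]
    push_cast
    field_simp
  obtain ⟨e', he'⟩ := (hS _).mp hdS
  obtain ⟨e, rfl⟩ : ∃ e : ℕ, e' = e := by
    refine ⟨e'.toNat, (Int.toNat_of_nonneg ?_).symm⟩
    by_contra hneg
    push Not at hneg
    have : (g : ℤ) * e' ≤ 0 := mul_nonpos_of_nonneg_of_nonpos (by positivity) hneg.le
    have := Nat.factorial_pos d
    omega
  have hg0 : (g : ℚ) ≠ 0 := by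
    intro e0
    rw [Int.cast_eq_zero.mp e0, zero_mul] at he'
    exact Nat.factorial_ne_zero d (by exact_mod_cast he')
  have he0 : 0 < e := Nat.pos_of_ne_zero fun e0 => by
    rw [e0, Nat.cast_zero, mul_zero] at he'
    exact Nat.factorial_ne_zero d (by exact_mod_cast he')
  have hval : (d.factorial : ℚ) = (g : ℚ) * e := by exact_mod_cast he'
  obtain ⟨ρ', hρE, hρ0, hρo⟩ := (hS g).mpr dvd_rfl
  refine ⟨e, ρ', he0, hρE, ⟨hρ0, ?_⟩, fun x hx hx0 => ?_⟩
  · rw [hρo, valIndex_mul, hD, hval]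
    field_simp
  · obtain ⟨m, hm⟩ := F.exists_ord_eq_div_factorial h E hx hx0
    obtain ⟨i, rfl⟩ := (hS m).mp ⟨x, hx, hx0, hm⟩
    refine ⟨i, hx0, ?_⟩
    rw [hm, valIndex_mul, hval]
    push_cast
    field_simp

/-- A root of unity of order `p ^ (a₀ + 1)` forces `p` into the index. -/
private lemma dvd_of_root_mem {e : ℕ} {θ : ℚbar}
    (hθI : Is A p (θ - 1) (1 / (((p : ℚ) - 1) * (p : ℚ) ^ a₀))) (hF : 0 < a₀)
    {i : ℤ} (hi : Is A p (θ - 1) ((i : ℚ) / valIndex p (e * a₀))) : p ∣ e := by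
  have hp1 := p_sub_one_pos (p := p)
  by_contra hpe
  have he0 : 0 < e := Nat.pos_of_ne_zero fun e0 => hpe (e0 ▸ dvd_zero p)
  have hi := hi.2
  rw [hθI.2, valIndex_mul, valIndex, div_eq_div_iff
    (mul_pos hp1 (pow_pos (by linarith) _)).ne' (by positivity)] at hi
  have h2 : ((e * a₀ : ℕ) : ℚ) = (i : ℚ) * ((p ^ a₀ : ℕ) : ℚ) := by
    push_cast
    refine mul_left_cancel₀ hp1.ne' ?_
    linear_combination hi
  have h3 : p ^ a₀ ∣ e * a₀ := Int.natCast_dvd_natCast.mp
    ⟨i, by rw [mul_comm ((p ^ a₀ : ℕ) : ℤ)]; exact_mod_cast h2⟩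
  have h4 := Nat.le_of_dvd hF
    ((Nat.Coprime.pow_left a₀ (hp.out.coprime_iff_not_dvd.mpr hpe)).dvd_of_dvd_mul_left h3)
  exact absurd h4 (not_le.mpr (Nat.lt_pow_self hp.out.one_lt))

/-- A value for `F.ρ` is multiplied by the index at the new uniformiser. -/
lemma hasVal_extend (h : IsPlace A p) {e : ℕ} (he0 : 0 < e) {ρ' : ℚbar}
    (hρI : Is A p ρ' (1 / valIndex p (e * a₀))) {a : ℚbar} {i : ℤ} (ha : HasVal A F.ρ a i) :
    HasVal A ρ' a (e * i) := by
  have hN := valIndex_pos (p := p) F.a_pos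
  refine hasVal_of_is h hρI ?_
  have h1 := ha.is h F.ρ_ne
  rw [(F.is_rho h).2] at h1
  convert h1 using 1
  rw [valIndex_mul]
  push_cast
  field_simp

/-- The local field carried by a finite extension with given index and uniformiser. -/
@[reducible] def enlarge (h : IsPlace A p) (E : IntermediateField F.toInt ℚbar) (e : ℕ)
    (ρ' : ℚbar) (he0 : 0 < e) (hρE : ρ' ∈ E) (hρI : Is A p ρ' (1 / valIndex p (e * a₀)))
    (hkey : ∀ x ∈ E, x ≠ 0 → ∃ i : ℤ, Is A p x ((i : ℚ) / valIndex p (e * a₀))) :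
    LocalField p A rb (e * a₀) where
  -- the field is `E` with uniformiser `ρ'`; the rest is inherited from `F`
  M := (IntermediateField.restrictScalars ℚ E).toSubfield
  ρ := ρ'
  ρ_mem := hρE
  ρ_ne := hρI.1
  ρ_A := (mem_iff_ge h _).mpr (hρI.gt (one_div_pos.mpr (valIndex_pos (Nat.mul_pos he0 F.a_pos)))).ge
  ρ_small := by
    have hgt := hρI.gt (one_div_pos.mpr (valIndex_pos (p := p) (Nat.mul_pos he0 F.a_pos)))
    rw [← red_of_mem, red_eq_zero_iff h hgt.ge]
    exact hgt
  value a ha ha0 := by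
    obtain ⟨i, hi⟩ := hkey a ha ha0
    obtain ⟨-, h1, h2⟩ := hasVal_of_is h hρI hi
    exact ⟨i, h1, h2⟩
  surjM c := by
    obtain ⟨a, ha, hc⟩ := F.surjM c
    exact ⟨a, E.algebraMap_mem ⟨_, ha⟩, hc⟩
  fixM a ha := by
    change a ∈ IntermediateField.restrictScalars ℚ E
    rw [← InfiniteGalois.fixedField_fixingSubgroup (IntermediateField.restrictScalars ℚ E),
      IntermediateField.mem_fixedField_iff]
    exact fun τ hτ => ha τ.toRingEquiv fun c hc =>
      (IntermediateField.mem_fixingSubgroup_iff _ _).mp hτ c hc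
  kerM τ hτ := F.kerM τ fun c hc => hτ c (E.algebraMap_mem ⟨c, hc⟩)
  a_pos := Nat.mul_pos he0 F.a_pos
  val_p := hasVal_of_is h hρI (by
    rw [show ((((p : ℤ) - 1) * ((e * a₀ : ℕ) : ℤ) : ℤ) : ℚ) = valIndex p (e * a₀) by
      unfold valIndex; push_cast; ring,
      div_self (valIndex_pos (Nat.mul_pos he0 F.a_pos)).ne']
    exact is_p h)
  ζ := F.ζ
  ζ_prim := F.ζ_prim
  ζ_mem := E.algebraMap_mem ⟨_, F.ζ_mem⟩
  val_lam := by
    rw [Nat.cast_mul]
    exact F.hasVal_extend h he0 hρI F.val_lam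

/-- An automorphism preserving the field preserves the field generated by a stable set. -/
lemma maps_adjoin (T : ThreshMove p F) {S : Set ℚbar}
    (hS : ∀ y ∈ S, T.γ y ∈ IntermediateField.adjoin F.toInt S) {c : ℚbar}
    (hc : c ∈ IntermediateField.adjoin F.toInt S) :
    T.γ c ∈ IntermediateField.adjoin F.toInt S :=
  let E := IntermediateField.adjoin F.toInt S
  let pre : IntermediateField F.toInt ℚbar :=
    { (E.toSubfield.comap (T.γ : ℚbar →+* ℚbar)) with
      algebraMap_mem' := fun r => E.algebraMap_mem ⟨_, T.maps r r.2⟩ }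
  (IntermediateField.adjoin_le_iff.mpr hS : E ≤ pre) hc

/-- The move acts on the new threshold by a character with the same residue. -/
lemma exists_char_extend (h : IsPlace A p) (T : ThreshMove p F) {e : ℕ} (he0 : 0 < e)
    {ρ' : ℚbar} (hρI : Is A p ρ' (1 / valIndex p (e * a₀))) :
    ∃ χ : A, T.γ (ρ' ^ ((p : ℤ) * ((e * a₀ : ℕ) : ℤ))) =
      ρ' ^ ((p : ℤ) * ((e * a₀ : ℕ) : ℤ)) * (χ : ℚbar) ∧
      residue A χ = residue A T.χ := by
  have hN := valIndex_pos (p := p) F.a_pos
  -- the two thresholds differ by the `p`-th power of a unit, which inertia fixes residually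
  set u := ρ' ^ (e * a₀) / F.ρ ^ a₀ with hu
  have huI : Is A p u 0 := by
    have h1 := (hρI.pow h (e * a₀)).div h ((F.is_rho h).pow h a₀)
    convert h1 using 1
    rw [valIndex_mul]
    push_cast
    field_simp
    ring
  have hinert := isInert_of_mem_inertia T.mem
  clear_value u
  have hq : Is A p (T.γ u / u) 0 := by simpa using (hinert.is_apply h huI).div h huI
  have hq1 : red A (T.γ u / u) = 1 := by
    rw [← red_one (A := A), red_eq_iff h hq.ge (is_one h).ge]
    have h1 := Gt.div h (hinert.gt_sub h huI.ge) huI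
    rw [sub_zero] at h1
    convert h1 using 1
    rw [sub_div, div_self huI.1]
  have hqA : T.γ u / u ∈ A := (mem_iff_ge h _).mpr hq.ge
  have hpow : ρ' ^ ((p : ℤ) * ((e * a₀ : ℕ) : ℤ)) = u ^ p * F.ρ ^ ((p : ℤ) * a₀) := by
    rw [show ((p : ℤ) * ((e * a₀ : ℕ) : ℤ)) = ((e * a₀ * p : ℕ) : ℤ) by push_cast; ring,
      show ((p : ℤ) * a₀) = ((a₀ * p : ℕ) : ℤ) by push_cast; ring, zpow_natCast, zpow_natCast,
      hu, div_pow, ← pow_mul, ← pow_mul, div_mul_cancel₀ _ (pow_ne_zero _ F.ρ_ne)]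
  refine ⟨⟨_, hqA⟩ ^ p * T.χ, ?_, ?_⟩
  · rw [hpow, _root_.map_mul, _root_.map_pow, T.smul_pow]
    push_cast
    rw [div_pow]
    field_simp [pow_ne_zero p huI.1]
  · rw [_root_.map_mul, _root_.map_pow, ← red_of_mem hqA, hq1, one_pow, one_mul]

/-- **A field with index divisible by `p`.** -/
theorem exists_extend (h : IsPlace A p) (T : ThreshMove p F) :
    ∃ (a₀' : ℕ) (F' : LocalField p A rb a₀') (T' : ThreshMove p F') (e : ℕ),
      T'.γ = T.γ ∧ F.M ≤ F'.M ∧ p ∣ e ∧ a₀' = e * a₀ ∧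
        ∀ (a : ℚbar) (i : ℤ), HasVal A F.ρ a i → HasVal A F'.ρ a (e * i) := by
  classical
  obtain ⟨θ, hθ⟩ : ∃ θ : ℚbar, θ ^ p ^ a₀ = F.ζ :=
    IsAlgClosed.exists_pow_nat_eq _ (pow_pos hp.out.pos _)
  have hθI := F.is_root_zeta_sub_one h a₀ θ hθ
  have hθord : θ ^ p ^ (a₀ + 1) = 1 := by rw [pow_succ, pow_mul, hθ, F.ζ_prim.pow_eq_one]
  have hθroot : IsPrimitiveRoot θ (p ^ (a₀ + 1)) := by
    refine IsPrimitiveRoot.iff_orderOf.mpr (orderOf_eq_prime_pow ?_ hθord)
    rw [hθ]
    exact F.ζ_prim.ne_one hp.out.one_lt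
  have : NeZero (p ^ (a₀ + 1)) := ⟨pow_ne_zero _ hp.out.ne_zero⟩
  set E : IntermediateField F.toInt ℚbar := IntermediateField.adjoin F.toInt {θ}
  have hθint : IsIntegral F.toInt θ := (Algebra.IsIntegral.isIntegral (R := ℚ) θ).tower_top
  have : FiniteDimensional F.toInt E := IntermediateField.adjoin.finiteDimensional hθint
  obtain ⟨e, ρ', he0, hρE, hρI, hkey⟩ := F.exists_uniformiser h E
  obtain ⟨i, hi⟩ := hkey (θ - 1) (sub_mem (IntermediateField.mem_adjoin_simple_self _ θ)
    (one_mem E))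
    hθI.1
  obtain ⟨χ, hχ, hχres⟩ := F.exists_char_extend h T he0 hρI
  let T' : ThreshMove p (F.enlarge h E e ρ' he0 hρE hρI hkey) :=
    { γ := T.γ
      mem := T.mem
      maps := fun c hc => F.maps_adjoin T (fun y hy => by
        obtain rfl := Set.mem_singleton_iff.mp hy
        obtain ⟨j, -, hj⟩ := hθroot.eq_pow_of_pow_eq_one (ξ := T.γ y)
          (by rw [← _root_.map_pow, hθord, _root_.map_one])
        exact hj ▸ pow_mem (IntermediateField.mem_adjoin_simple_self _ y) j) hc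
      χ := χ
      smul_pow := hχ
      χ_res := hχres.trans T.χ_res }
  exact ⟨e * a₀, _, T', e, rfl, fun x hx => E.algebraMap_mem ⟨x, hx⟩,
    dvd_of_root_mem hθI F.a_pos hi,
    rfl, fun a i ha => F.hasVal_extend h he0 hρI ha⟩

end LocalField

end Fermat.BAD.AtP

end
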