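import Fermat.Agent.BAD.AtP.LocalDef
import Fermat.Agent.FLAT.TwoStep
import Fermat.Agent.FLAT.Mult
import Mathlib.FieldTheory.Galois.Infinite

/-!
# Fixed fields of subgroups of inertia with discrete values

The fixed field of a subgroup of inertia with orders in `(1/N)ℤ` and an invariant element of order
`1/N` is a local field in the sense of `LocalDef`; a normalising element of inertia has the
determinant as character at the threshold.
-/

set_option autoImplicit false
set_option linter.unusedSectionVars false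

noncomputable section

open Fermat.EC.Val IsLocalRing Fermat.FLAT Matrix

namespace Fermat.BAD.AtP

local notation "ℚbar" => AlgebraicClosure ℚ
local notation "Γℚ" => (AlgebraicClosure ℚ ≃ₐ[ℚ] AlgebraicClosure ℚ)
variable {p : ℕ} [hp : Fact p.Prime] {A : ValuationSubring ℚbar}

local notation "M2p" => Matrix (Fin 2) (Fin 2) (ZMod p)

/-- The value group index `(p - 1) a₀`. -/
def valIndex (p a₀ : ℕ) : ℚ := ((p : ℚ) - 1) * a₀

/-- The index is positive. -/
lemma valIndex_pos {a₀ : ℕ} (ha : 0 < a₀) : 0 < valIndex p a₀ :=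
  mul_pos (p_sub_one_pos (p := p)) (by exact_mod_cast ha)

/-- An element of order `i / N` has the value of `ρ ^ i` when `ρ` has order `1 / N`. -/
lemma hasVal_of_is (h : IsPlace A p) {ρ a : ℚbar} {N : ℚ} (hρ : Is A p ρ (1 / N)) {i : ℤ}
    (ha : Is A p a ((i : ℚ) / N)) : HasVal A ρ a i := by
  have hi : Is A p (ρ ^ i) ((i : ℚ) / N) :=
    ⟨zpow_ne_zero _ hρ.1, by rw [ord_zpow h, hρ.2, mul_one_div]⟩
  refine ⟨ha.1, (mem_iff_ge h _).mpr ?_, (mem_iff_ge h _).mpr ?_⟩
  · simpa using (ha.div h hi).ge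
  · simpa using (hi.div h ha).ge

/-- An open kernel contains the automorphisms fixing the fixed field of a subgroup of it. -/
lemma eq_one_of_fixes {G : Type*} [Group G] (f : Γℚ →* G) (hopen : IsOpen (f.ker : Set Γℚ))
    {K : Subgroup Γℚ} (hK : ∀ τ ∈ K, f τ = 1) {τ : Γℚ}
    (hτ : ∀ c : ℚbar, (∀ k ∈ K, k c = c) → τ c = c) : f τ = 1 := by
  obtain ⟨L, hfin, hnor, hL⟩ :=
    (krullTopology_mem_nhds_one_iff_of_normal ℚ ℚbar _).mp (hopen.mem_nhds (one_mem f.ker))
  have : FiniteDimensional ℚ L := hfin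
  have : Normal ℚ L := hnor
  have : IsGalois ℚ L := ⟨⟩
  set R := AlgEquiv.restrictNormalHom (F := ℚ) (K₁ := ℚbar) L
  have hmem : R τ ∈ K.map R := by
    rw [← IntermediateField.fixingSubgroup_fixedField (K.map R),
      IntermediateField.mem_fixingSubgroup_iff]
    intro x hx
    refine Subtype.ext ?_
    refine (AlgEquiv.restrictNormal_commutes τ L x).trans (hτ _ fun k hk => ?_)
    have := (IntermediateField.mem_fixedField_iff _ _).mp hx (R k) ⟨k, hk, rfl⟩
    exact (AlgEquiv.restrictNormal_commutes k L x).symm.trans (congrArg Subtype.val this)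
  obtain ⟨k, hk, hkτ⟩ := hmem
  have h1 : k⁻¹ * τ ∈ L.fixingSubgroup := by
    rw [← Fermat.CFT.restrict_eq_one_iff, _root_.map_mul, _root_.map_inv, hkτ, inv_mul_cancel]
  have h2 : f (k⁻¹ * τ) = 1 := hL h1
  rwa [_root_.map_mul, _root_.map_inv, hK k hk, inv_one, one_mul] at h2

/-- The data from which a local field is built: a subgroup `K` of inertia on which the
representation is trivial, with a uniformiser and a `p`-th root of unity of its fixed field. -/
structure FieldData (p : ℕ) [Fact p.Prime] (A : ValuationSubring ℚbar)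
    (rb : Γℚ →* GL (Fin 2) (ZMod p)) (a₀ : ℕ) where
  /-- The subgroup of inertia whose fixed field is the local field. -/
  K : Subgroup Γℚ
  /-- `K` lies in inertia. -/
  le : K ≤ A.inertiaSubgroupIn ℚ
  /-- The uniformiser of the fixed field of `K`. -/
  ρ : ℚbar
  /-- `K` fixes `ρ`. -/
  ρ_fix : ∀ τ ∈ K, τ ρ = ρ
  /-- `ρ` has order `1 / ((p - 1) a₀)`. -/
  ρ_is : Is A p ρ (1 / valIndex p a₀)
  /-- The orders of the invariants of `K` are multiples of that of `ρ`. -/
  int : ∀ x : ℚbar, x ≠ 0 → (∀ τ ∈ K, τ x = x) → ∃ m : ℤ, ord A p x = (m : ℚ) / valIndex p a₀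
  /-- A primitive `p`-th root of unity. -/
  ξ : ℚbar
  /-- `ξ` is primitive of order `p`. -/
  root : IsPrimitiveRoot ξ p
  /-- `K` fixes `ξ`. -/
  root_fix : ∀ τ ∈ K, τ ξ = ξ
  /-- The representation is trivial on `K`. -/
  ker : ∀ τ ∈ K, rb τ = 1

variable {rb : Γℚ →* GL (Fin 2) (ZMod p)} {a₀ : ℕ}

/-- The fixed field of `K` as a `LocalField`. -/
def FieldData.toField (D : FieldData p A rb a₀) (h : IsPlace A p) (ha : 0 < a₀)
    (hopen : IsOpen (rb.ker : Set Γℚ)) : LocalField p A rb a₀ where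
  M := (IntermediateField.fixedField D.K).toSubfield
  ρ := D.ρ
  ρ_mem := (IntermediateField.mem_fixedField_iff _ _).mpr D.ρ_fix
  ρ_ne := D.ρ_is.1
  ρ_A := (mem_iff_ge h _).mpr (D.ρ_is.gt (one_div_pos.mpr (valIndex_pos ha))).ge
  ρ_small := by
    have hgt := D.ρ_is.gt (one_div_pos.mpr (valIndex_pos (p := p) ha))
    rw [← red_of_mem, red_eq_zero_iff h hgt.ge]
    exact hgt
  value a hmem ha0 := by
    obtain ⟨m, hm⟩ := D.int a ha0 ((IntermediateField.mem_fixedField_iff _ _).mp hmem)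
    obtain ⟨-, h1, h2⟩ := hasVal_of_is h D.ρ_is (i := m) ⟨ha0, hm⟩
    exact ⟨m, h1, h2⟩
  surjM c := by
    obtain ⟨x, rfl⟩ := IsLocalRing.residue_surjective c
    by_cases hx : residue A x = 0
    · exact ⟨0, (IntermediateField.fixedField D.K).zero_mem, by rw [hx, map_zero]⟩
    have hI : Is A p (x : ℚbar) 0 := by
      refine ((mem_iff_ge h _).mp x.2).is_of_not_gt fun hg => hx ?_
      have := (red_eq_zero_iff h hg.ge).mpr hg
      rwa [red_of_mem x.2] at this
    -- a nonzero residue is that of a root of unity, fixed by inertia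
    obtain ⟨n, hn, z, hz, hxz⟩ := exists_root_near h hI
    have hzI := is_root_unity h (fun e => hn (by rw [e]; exact dvd_zero p)) hz
    refine ⟨⟨z, (mem_iff_ge h z).mpr hzI.ge⟩, (IntermediateField.mem_fixedField_iff _ _).mpr
      fun τ hτ => apply_root_eq h hn hz (isInert_of_mem_inertia (D.le hτ)), ?_⟩
    have := (red_eq_iff h hI.ge hzI.ge).mpr hxz
    rw [red_of_mem x.2, red_of_mem ((mem_iff_ge h z).mpr hzI.ge)] at this
    exact this.symm
  fixM a hfix := by
    refine (IntermediateField.mem_fixedField_iff _ _).mpr fun τ hτ => ?_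
    exact hfix τ.toRingEquiv fun c hc => (IntermediateField.mem_fixedField_iff _ _).mp hc τ hτ
  kerM τ hτ := eq_one_of_fixes rb hopen D.ker fun c hc =>
    hτ c ((IntermediateField.mem_fixedField_iff _ _).mpr hc)
  a_pos := ha
  val_p := hasVal_of_is h D.ρ_is (by
    have hN := (valIndex_pos (p := p) ha).ne'
    rw [show ((((p : ℤ) - 1) * a₀ : ℤ) : ℚ) = valIndex p a₀ by unfold valIndex; push_cast; ring,
      div_self hN]
    exact is_p h)
  ζ := D.ξ
  ζ_prim := D.root
  ζ_mem := (IntermediateField.mem_fixedField_iff _ _).mpr D.root_fix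
  val_lam := hasVal_of_is h D.ρ_is (by
    have h1 := (Fermat.EC.Cyclo.is_zeta_sub_one h D.root).neg h
    rw [neg_sub] at h1
    have hp1 := p_sub_one_pos (p := p)
    have ha0 : (0 : ℚ) < a₀ := by exact_mod_cast ha
    convert h1 using 1
    unfold valIndex
    field_simp
    simp)

/-- A normalising element of inertia is a move with the determinant as character. -/
theorem FieldData.exists_threshMove (D : FieldData p A rb a₀) (h : IsPlace A p) (ha : 0 < a₀)
    (hopen : IsOpen (rb.ker : Set Γℚ))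
    (hdet : ∀ σ, (rb σ : M2p).det = ((Fermat.CFT.cycChar p σ : (ZMod p)ˣ) : ZMod p))
    {γ : Γℚ} (hγ : γ ∈ A.inertiaSubgroupIn ℚ) (hnorm : ∀ τ ∈ D.K, γ⁻¹ * τ * γ ∈ D.K) :
    ∃ T : ThreshMove p (D.toField h ha hopen), T.γ = γ := by
  -- `ρ ^ a₀` has valuation `1 / (p - 1)`
  obtain ⟨π, hπ⟩ := exists_pi p (p - 1) sub_one_ne_zero'
  have hπI : Is A p π (1 / ((p : ℚ) - 1)) := by
    have := is_pi h sub_one_ne_zero' hπ
    rwa [Nat.cast_sub hp.out.one_le, Nat.cast_one] at this
  have hw : Is A p (D.ρ ^ a₀) (1 / ((p : ℚ) - 1)) := by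
    have := D.ρ_is.pow h a₀
    convert this using 1
    unfold valIndex
    have := p_sub_one_pos (p := p)
    field_simp
  have hu : Is A p (D.ρ ^ a₀ / π) 0 := by simpa using hw.div h hπI
  -- so inertia acts on it by the cyclotomic character
  have hpsi : psi A γ (D.ρ ^ a₀) =
      (((Fermat.CFT.cycChar p γ : (ZMod p)ˣ) : ZMod p).val : ResidueField A) := by
    rw [cycChar_cast_eq_psi h hγ hπ]
    conv_lhs => rw [show D.ρ ^ a₀ = D.ρ ^ a₀ / π * π from (div_mul_cancel₀ _ hπI.1).symm]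
    rw [psi_unit_mul h hγ hu]
  have hq : Is A p (γ (D.ρ ^ a₀) / D.ρ ^ a₀) 0 := by
    simpa using ((isInert_of_mem_inertia hγ).is_apply h hw).div h hw
  have hqp : γ (D.ρ ^ ((p : ℤ) * a₀)) / D.ρ ^ ((p : ℤ) * a₀) =
      (γ (D.ρ ^ a₀) / D.ρ ^ a₀) ^ p := by
    rw [show ((p : ℤ) * a₀) = ((a₀ * p : ℕ) : ℤ) by push_cast; ring, zpow_natCast, pow_mul,
      _root_.map_pow, div_pow]
  have hmem : γ (D.ρ ^ ((p : ℤ) * a₀)) / D.ρ ^ ((p : ℤ) * a₀) ∈ A := by
    rw [hqp]
    exact pow_mem ((mem_iff_ge h _).mpr hq.ge) p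
  -- `γ` moves the field with the ratio at `p * a₀`
  refine ⟨{
    γ := γ
    mem := hγ
    maps := fun c hc => ?_
    χ := ⟨_, hmem⟩
    smul_pow := (mul_div_cancel₀ _ (zpow_ne_zero _ D.ρ_is.1)).symm
    χ_res := ?_ }, rfl⟩
  · refine (IntermediateField.mem_fixedField_iff _ _).mpr fun τ hτ => ?_
    have h1 := (IntermediateField.mem_fixedField_iff _ _).mp hc _ (hnorm τ hτ)
    change γ.symm (τ (γ c)) = c at h1
    rwa [AlgEquiv.symm_apply_eq] at h1
  · rw [← red_of_mem hmem, hqp, red_pow h hq.ge, show red A (γ (D.ρ ^ a₀) / D.ρ ^ a₀) =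
      psi A γ (D.ρ ^ a₀) from rfl, hpsi, hdet]
    have := charP_res h
    rw [← map_natCast (ZMod.castHom (dvd_refl p) (ResidueField A)), ← _root_.map_pow, ZMod.pow_card]

end Fermat.BAD.AtP

end
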