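import Fermat.Agent.FLAT.ORD.Kummer

/-!
# The Kummer generator of an ordinary flat residual representation

For a flat representation which is triangular on inertia with characters `(cyclotomic, 1)`, the
extension class on the tame group is given by a `p`-th root `y` of a unit with
`ord (y ^ p - 1) = 1`; when the class is trivial the root of `1 + p` serves.
-/

set_option autoImplicit false

noncomputable section

open Fermat.EC.Val IsLocalRing Fermat.FLAT Matrix

namespace Fermat.BAD.AtP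

local notation "ℚbar" => AlgebraicClosure ℚ
local notation "Γℚ" => (AlgebraicClosure ℚ ≃ₐ[ℚ] AlgebraicClosure ℚ)

variable {p : ℕ} [hp : Fact p.Prime] {A : ValuationSubring ℚbar}

/-- Triangular on inertia with characters `(cyclotomic, 1)`, diagonal at a move of the tame root. -/
structure OrdShape (p : ℕ) [Fact p.Prime] (A : ValuationSubring ℚbar)
    (r : Γℚ →* Matrix (Fin 2) (Fin 2) (ZMod p)) (π z : ℚbar) (γ : Γℚ) : Prop where
  /-- `π` is a `(p - 1)`-st root of `p`. -/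
  pi_pow : π ^ (p - 1) = (p : ℚbar)
  /-- `z` is a primitive `(p - 1)`-st root of unity. -/
  prim_z : IsPrimitiveRoot z (p - 1)
  /-- `γ` lies in inertia. -/
  γ_mem : γ ∈ A.inertiaSubgroupIn ℚ
  /-- `γ` multiplies `π` by `z`. -/
  γ_pi : γ π = z * π
  /-- On inertia the representation is upper triangular. -/
  lower : ∀ σ ∈ A.inertiaSubgroupIn ℚ, r σ 1 0 = 0
  /-- On inertia the lower diagonal character is trivial. -/
  one : ∀ σ ∈ A.inertiaSubgroupIn ℚ, r σ 1 1 = 1
  /-- On inertia the upper diagonal character is the cyclotomic one. -/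
  cyc : ∀ σ ∈ A.inertiaSubgroupIn ℚ, r σ 0 0 = (cycNat p σ : ZMod p)
  /-- The image of `γ` is diagonal. -/
  γ_diag : r γ 0 1 = 0

variable {r : Γℚ →* Matrix (Fin 2) (Fin 2) (ZMod p)} {π z : ℚbar} {γ : Γℚ}

/-- A move of the tame root by a primitive root of unity has cyclotomic value other than one. -/
lemma cycNat_move_ne_one (h : IsPlace A p) (hp2 : p ≠ 2) (hπ : π ^ (p - 1) = (p : ℚbar))
    (hz : IsPrimitiveRoot z (p - 1)) (hγ : γ ∈ A.inertiaSubgroupIn ℚ) (hγπ : γ π = z * π) :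
    (cycNat p γ : ZMod p) ≠ 1 := by
  intro e
  have := charP_res h
  have h2 := congrArg (ZMod.castHom (dvd_refl p) (ResidueField A)) e
  rw [map_natCast, map_one, cycNat, cycChar_cast_eq_psi h hγ hπ, psi, hγπ,
    mul_div_cancel_right₀ _ (is_pi h sub_one_ne_zero' hπ).1] at h2
  have h3 := Nat.le_of_dvd one_pos (hz.dvd_of_pow_eq_one 1 (by
    rw [pow_one]
    exact red_root_eq_one h not_dvd_sub_one hz.pow_eq_one h2))
  have := hp.out.two_le
  omega

namespace OrdShape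

variable (D : OrdShape p A r π z γ) (h : IsPlace A p)
include D

/-- The tame group has upper diagonal entry one. -/
lemma one_on_tame (h : IsPlace A p) {τ : Γℚ} (hτ : τ ∈ tame A π) : r τ 0 0 = 1 := by
  have := charP_res h
  have h1 : (cycNat p τ : ResidueField A) = 1 := by
    rw [cycNat, cycChar_cast_eq_psi h hτ.1 D.pi_pow, psi, (mem_tame.mp hτ).2,
      div_self (is_pi h sub_one_ne_zero' D.pi_pow).1, red_one]
  rw [D.cyc τ hτ.1]
  exact (ZMod.castHom (dvd_refl p) (ResidueField A)).injective (by rw [map_natCast, map_one, h1])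

/-- A tame element with trivial class has trivial image. -/
lemma eq_one (h : IsPlace A p) {τ : Γℚ} (hτ : τ ∈ tame A π) (h0 : r τ 0 1 = 0) : r τ = 1 := by
  ext i j
  fin_cases i <;> fin_cases j <;>
    simp [D.one_on_tame h hτ, h0, D.lower τ hτ.1, D.one τ hτ.1]

/-- The residue of `z` has order `p - 1`. -/
lemma dvd_of_red_pow (h : IsPlace A p) {m : ℕ} (hm : red A z ^ m = 1) : p - 1 ∣ m :=
  D.prim_z.dvd_of_pow_eq_one m (red_root_eq_one h not_dvd_sub_one
    (by rw [← pow_mul, mul_comm, pow_mul, D.prim_z.pow_eq_one, one_pow])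
    (by rw [red_pow h (is_root_unity h sub_one_ne_zero' D.prim_z.pow_eq_one).ge, hm]))

/-- The move has cyclotomic value other than one. -/
lemma χ_ne_one (h : IsPlace A p) (hp2 : p ≠ 2) : (cycNat p γ : ZMod p) ≠ 1 :=
  cycNat_move_ne_one h hp2 D.pi_pow D.prim_z D.γ_mem D.γ_pi

/-- The move normalises the tame group. -/
lemma conj_mem (h : IsPlace A p) {τ : Γℚ} (hτ : τ ∈ tame A π) : γ⁻¹ * τ * γ ∈ tame A π := by
  refine mem_tame.mpr ⟨mul_mem (mul_mem (inv_mem D.γ_mem) hτ.1) D.γ_mem, ?_⟩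
  change γ.symm (τ (γ π)) = π
  rw [AlgEquiv.symm_apply_eq, D.γ_pi, _root_.map_mul, (mem_tame.mp hτ).2,
    apply_root_eq h not_dvd_sub_one D.prim_z.pow_eq_one (isInert_of_mem_tame hτ)]

/-- The move divides the class by its cyclotomic value. -/
lemma conj_entry (τ : Γℚ) :
    r (γ⁻¹ * τ * γ) 0 1 = (cycNat p γ : ZMod p)⁻¹ * r τ 0 1 := by
  have e := congrFun (congrFun (congrArg r (show γ * (γ⁻¹ * τ * γ) = τ * γ by group)) 0) 1
  simp only [_root_.map_mul r γ, _root_.map_mul r τ, Matrix.mul_apply, Fin.sum_univ_two, D.γ_diag,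
    zero_mul, mul_zero, add_zero, zero_add, D.one γ D.γ_mem, mul_one, D.cyc γ D.γ_mem] at e
  rw [← e, inv_mul_cancel_left₀ (FLAT.OrdData.χ_ne_zero γ)]

end OrdShape

/-- The extension class on the tame group. -/
def extMap (D : OrdShape p A r π z γ) (h : IsPlace A p) (L : IntermediateField ℚ ℚbar)
    [hfin : FiniteDimensional ℚ L] [hnor : Normal ℚ L] (hL : ∀ σ ∈ L.fixingSubgroup, r σ = 1)
    {ξ : ℚbar} (hξ : IsPrimitiveRoot ξ p) : TameMap p A π (ZMod p) where
  c σ := r σ 0 1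
  ξ := ξ
  root := hξ
  fix_root τ hτ := apply_zeta_p h sub_one_ne_zero' D.pi_pow (dvd_refl _) hτ hξ.pow_eq_one
  map_mul σ hσ τ hτ := by
    rw [_root_.map_mul, Matrix.mul_apply, Fin.sum_univ_two, D.one_on_tame h hσ, D.one τ hτ.1,
      one_mul, mul_one, add_comm]
  level := L
  finite := hfin
  normal := hnor
  map_fix σ _ hσ := by rw [hL σ hσ]; rfl

variable (D : OrdShape p A r π z γ) (h : IsPlace A p) (L : IntermediateField ℚ ℚbar)
  [FiniteDimensional ℚ L] [Normal ℚ L] (hL : ∀ σ ∈ L.fixingSubgroup, r σ = 1)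
  {ξ : ℚbar} (hξ : IsPlace A p → IsPrimitiveRoot ξ p)

/-- **The class of a flat extension has a unit generator.** -/
theorem exists_unit_kum (G : Model A (A.inertiaSubgroupIn ℚ) (resAct r)) {σ₀ : Γℚ}
    (hσ₀ : σ₀ ∈ tame A π) (hne : r σ₀ 0 1 ≠ 0) :
    ∃ y, (extMap D h L hL (hξ h)).Kum (AddMonoidHom.id _) y ∧ Gt A p (y ^ p - 1) 0 := by
  classical
  have : NeZero p := ⟨hp.out.ne_zero⟩
  set C := extMap D h L hL (hξ h) with hC
  have he0 : p - 1 ≠ 0 := sub_one_ne_zero'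
  have hπ := D.pi_pow
  obtain ⟨y, hy⟩ := TameMap.exists_kum C (AddMonoidHom.id _)
  obtain ⟨m, hmy⟩ := exists_int_ord_tame h not_dvd_sub_one hπ (pow_ne_zero p hy.1) hy.pow_fixed
  by_cases hdvd : (p : ℤ) ∣ m
  · exact hy.exists_gt_of_dvd h hπ hdvd hmy
  -- otherwise flatness kills the class
  exfalso
  have hne' : (AddMonoidHom.id (ZMod p)) (C.c σ₀) ≠ 0 := hne
  obtain ⟨σ, hσ, h1⟩ : ∃ σ ∈ tame A π, (AddMonoidHom.id (ZMod p)) (C.c σ) = 1 :=
    ⟨_, pow_mem hσ₀ _, TameMap.apply_pow_inv_eq_one hσ₀ hne'⟩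
  have hM : ∀ x : Fin 2 → ZMod p, p • x = 0 := fun x => by funext i; simp
  set x₀ : Fin 2 → ZMod p := ![0, 1]
  have hact : ∀ τ ∈ tame A π, resAct r τ x₀ = ![C.c τ, 1] := fun τ hτ => by
    funext i
    fin_cases i
    · simp [x₀, Matrix.mulVec, dotProduct, Fin.sum_univ_two, hC, extMap]
    · simp [x₀, Matrix.mulVec, dotProduct, Fin.sum_univ_two, D.one τ hτ.1]
  have hzero : resAct r σ x₀ - x₀ = 0 := by
    refine G.eq_zero_of_sdom hM h (G.sdom_smul_sub h hσ.1 fun a ha => ?_)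
    refine (hy.step hσ h1).gt_sub_nonunit (n := p - 1) h
      (fun x hx0 hx => exists_int_ord_tame h not_dvd_sub_one hπ hx0 hx) (r := ord A p y)
      ⟨hy.1, rfl⟩ (fun b hb hbp m' hm' => ?_) (G.ge_zero h ha x₀) fun τ hτ e1 => ?_
    · rw [ord_pow h] at hmy
      have he : ((p - 1 : ℕ) : ℚ) ≠ 0 := Nat.cast_ne_zero.mpr he0
      have h2 : (b : ℚ) * ((m : ℚ) / ((p - 1 : ℕ) : ℚ)) = p * ((m' : ℚ) / ((p - 1 : ℕ) : ℚ)) := by
        rw [← hmy, ← hm']; ring
      rw [mul_div, mul_div, div_left_inj' he] at h2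
      have h3 : (b : ℤ) * m = p * m' := by exact_mod_cast h2
      rcases Int.Prime.dvd_mul' hp.out ⟨m', h3⟩ with hd | hd
      · exact absurd (Nat.le_of_dvd hb (Int.natCast_dvd_natCast.mp hd)) (not_le.mpr hbp)
      · exact hdvd hd
    · rw [← G.equivariant a ha τ hτ.1, hact τ hτ,
        show C.c τ = 0 from hy.zero_of_apply_eq hτ e1]
  rw [hact σ hσ, sub_eq_zero] at hzero
  have h0 : C.c σ = 0 := congrFun hzero 0
  rw [AddMonoidHom.id_apply, h0] at h1
  exact zero_ne_one h1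

/-- **The class of a flat extension has level exactly `p - 1`.** -/
theorem exists_kum_level (G : Model A (A.inertiaSubgroupIn ℚ) (resAct r)) {σ₀ : Γℚ}
    (hσ₀ : σ₀ ∈ tame A π) (hne : r σ₀ 0 1 ≠ 0) :
    ∃ y, (extMap D h L hL (hξ h)).Kum (AddMonoidHom.id _) y ∧ Is A p (y ^ p - 1) 1 := by
  classical
  have : NeZero p := ⟨hp.out.ne_zero⟩
  have := charP_res h
  have hπ := D.pi_pow
  have he0 : p - 1 ≠ 0 := sub_one_ne_zero'
  set C := extMap D h L hL (hξ h) with hC
  obtain ⟨y₀, hy₀, hgt⟩ := exists_unit_kum D h L hL hξ G hσ₀ hne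
  have h1 : C.Lev (p - 1) 1 (AddMonoidHom.id _) := by
    refine TameMap.lev_succ_of_lead_zero h not_dvd_sub_one hπ (n := 0)
      ⟨y₀, hy₀, by simpa using hgt.ge, ?_⟩
    rw [pow_zero, div_one, red_eq_zero_iff h hgt.ge]
    exact hgt
  set χ := cycNat p γ with hχ
  set b : ZMod p := -(χ : ZMod p)⁻¹ with hb
  have hχ0 : (χ : ZMod p) ≠ 0 := FLAT.OrdData.χ_ne_zero γ
  have hm : C.Move γ z χ (AddMonoidHom.mulLeft (χ : ZMod p)⁻¹) :=
    { mem := D.γ_mem
      apply_pi := D.γ_pi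
      apply_root := Fermat.CFT.apply_eq_pow_cycChar γ (hξ h).pow_eq_one
      conj_mem := fun σ hσ => D.conj_mem h hσ
      conj := fun σ _ => D.conj_entry σ }
  have hkill : C.Killed (AddMonoidHom.mulLeft (χ : ZMod p)⁻¹) b.val 0 (AddMonoidHom.id _) := by
    intro σ _
    simp only [AddMonoidHom.id_apply, AddMonoidHom.coe_mulLeft, ZMod.natCast_zmod_val,
      Nat.cast_zero, zero_mul, add_zero]
    rw [hb]; ring
  have hbχ : (χ : ResidueField A) * (b.val : ResidueField A) = -1 := by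
    have h3 : ((χ * b.val : ℕ) : ZMod p) = -1 := by
      rw [Nat.cast_mul, ZMod.natCast_zmod_val, hb, mul_neg, mul_inv_cancel₀ hχ0]
    have h4 := congrArg (ZMod.castHom (dvd_refl p) (ResidueField A)) h3
    rwa [map_natCast, map_neg, map_one, Nat.cast_mul] at h4
  -- climb the levels: at `n < p - 1` the move changes the leading coefficient
  have hclimb : ∀ n, 1 ≤ n → n ≤ p - 1 → C.Lev (p - 1) n (AddMonoidHom.id _) := by
    intro n hn
    induction n, hn using Nat.le_induction with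
    | base => exact fun _ => h1
    | succ n hn ih =>
      intro hle
      refine hm.lev_succ h not_dvd_sub_one hπ (by omega) ?_ (Or.inr fun h0 => ?_) hkill
        (ih (by omega))
      · have hp1 := p_sub_one_pos (p := p)
        rw [cast_sub_one, div_mul_cancel₀ _ hp1.ne']
        exact_mod_cast (show n < p by omega)
      · rw [hbχ, Nat.cast_zero, mul_zero, add_zero] at h0
        have h5 : red A z ^ n * (red A z ^ n - 1) = 0 := by linear_combination h0
        rcases mul_eq_zero.mp h5 with h6 | h6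
        · have h7 : red A z ^ (p - 1) = 1 := by
            rw [← red_pow h (is_root_unity h sub_one_ne_zero' D.prim_z.pow_eq_one).ge,
              D.prim_z.pow_eq_one, red_one]
          rw [eq_zero_of_pow_eq_zero h6, zero_pow sub_one_ne_zero'] at h7
          exact zero_ne_one h7
        · have := Nat.le_of_dvd (by omega) (D.dvd_of_red_pow h (sub_eq_zero.mp h6))
          omega
  obtain ⟨y, hy, hyn⟩ := hclimb (p - 1) (Nat.pos_of_ne_zero he0) le_rfl
  have hge : Ge A p (y ^ p - 1) 1 := by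
    rwa [div_self (Nat.cast_ne_zero.mpr he0)] at hyn
  refine ⟨y, hy, hge.is_of_not_gt fun hg => hne ?_⟩
  have hl : C.Lead (p - 1) (p - 1) (AddMonoidHom.id _) 0 := by
    refine ⟨y, hy, hyn, ?_⟩
    rw [red_eq_zero_iff h (TameMap.ge_div_pi_pow h hπ he0 hyn), hπ]
    have := Gt.div h hg (is_p h)
    rwa [sub_self] at this
  exact TameMap.eq_zero_of_deep h not_dvd_sub_one hπ (dvd_refl _)
    (by rw [cast_sub_one, Nat.sub_add_cancel hp.out.one_le])
    (TameMap.lev_succ_of_lead_zero h not_dvd_sub_one hπ hl) σ₀ hσ₀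

include D in
/-- **The generator of the degree `p` step.** -/
theorem exists_step_root (G : Model A (A.inertiaSubgroupIn ℚ) (resAct r))
    (h : IsPlace A p) (L : IntermediateField ℚ ℚbar)
    [FiniteDimensional ℚ L] [Normal ℚ L] (hL : ∀ σ ∈ L.fixingSubgroup, r σ = 1) :
    ∃ y ξ : ℚbar, IsPrimitiveRoot ξ p ∧ Is A p (y ^ p - 1) 1 ∧
      (∀ τ ∈ tame A π, ∃ m : ℕ, τ y = ξ ^ m * y) ∧
      (∀ τ ∈ tame A π, τ y = y → r τ = 1) ∧
      ∀ τ ∈ tame A π, τ y = y → (γ⁻¹ * τ * γ) y = y := by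
  classical
  have : NeZero p := ⟨hp.out.ne_zero⟩
  obtain ⟨ξ, hξ⟩ := Fermat.EC.Cyclo.exists_zeta hp.out
  by_cases hne : ∃ σ₀ ∈ tame A π, r σ₀ 0 1 ≠ 0
  · obtain ⟨σ₀, hσ₀, hne⟩ := hne
    obtain ⟨y, hy, hI⟩ := exists_kum_level D h L hL (fun _ => hξ) G hσ₀ hne
    refine ⟨y, ξ, hξ, hI, fun τ hτ => ⟨_, hy.2 τ hτ⟩,
      fun τ hτ e => D.eq_one h hτ (hy.zero_of_apply_eq hτ e), fun τ hτ e => ?_⟩
    have h0 : r τ 0 1 = 0 := hy.zero_of_apply_eq hτ e
    rw [hy.2 _ (D.conj_mem h hτ)]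
    change ξ ^ (r (γ⁻¹ * τ * γ) 0 1).val * y = y
    rw [D.conj_entry τ, h0, mul_zero, ZMod.val_zero, pow_zero, one_mul]
  -- trivial class: the root of `1 + p`
  push Not at hne
  obtain ⟨y, hy⟩ : ∃ y : ℚbar, y ^ p = 1 + (p : ℚbar) :=
    IsAlgClosed.exists_pow_nat_eq _ hp.out.pos
  have hy0 : y ≠ 0 := fun e => by
    rw [e, zero_pow hp.out.ne_zero] at hy
    have : ((p + 1 : ℕ) : ℚbar) = 0 := by push_cast; linear_combination -hy
    exact Nat.succ_ne_zero p (by exact_mod_cast this)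
  have hscale : ∀ τ : Γℚ, ∃ m : ℕ, τ y = ξ ^ m * y := fun τ => by
    obtain ⟨m, -, hm⟩ := hξ.eq_pow_of_pow_eq_one (ξ := τ y / y) (by
      rw [div_pow, ← _root_.map_pow, hy, map_add, map_one, map_natCast, ← hy,
        div_self (pow_ne_zero _ hy0)])
    exact ⟨m, by rw [hm, div_mul_cancel₀ _ hy0]⟩
  refine ⟨y, ξ, hξ, by rw [hy, add_sub_cancel_left]; exact is_p h, fun τ _ => hscale τ,
    fun τ hτ _ => D.eq_one h hτ (hne τ hτ), fun τ hτ e => ?_⟩
  obtain ⟨m, hm⟩ := hscale γ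
  change γ.symm (τ (γ y)) = y
  rw [AlgEquiv.symm_apply_eq, hm, _root_.map_mul, _root_.map_pow, e,
    apply_zeta_p h sub_one_ne_zero' D.pi_pow (dvd_refl _) hτ hξ.pow_eq_one]

end Fermat.BAD.AtP

end
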