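import Fermat.Agent.BAD.AtP.LocalField
import Fermat.Agent.FLAT.SS.Data

/-!
# The supersingular local field

The tame group of a root of order `p² - 1` of `p` acts trivially; the move of this root has no
eigenvalue one.
-/

set_option autoImplicit false

noncomputable section

open Fermat.EC.Val IsLocalRing Fermat.FLAT Matrix

namespace Fermat.BAD.AtP

local notation "ℚbar" => AlgebraicClosure ℚ
local notation "Γℚ" => (AlgebraicClosure ℚ ≃ₐ[ℚ] AlgebraicClosure ℚ)

variable {p : ℕ} [hp : Fact p.Prime] {A : ValuationSubring ℚbar}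
  {rb : Γℚ →* GL (Fin 2) (ZMod p)}

local notation "M2p" => Matrix (Fin 2) (Fin 2) (ZMod p)

/-- The matrices of a representation. -/
def matRep (rb : Γℚ →* GL (Fin 2) (ZMod p)) : Γℚ →* Matrix (Fin 2) (Fin 2) (ZMod p) :=
  (Units.coeHom _).comp rb

/-- The matrix of an element. -/
@[simp] lemma matRep_apply (σ : Γℚ) : matRep rb σ = (rb σ : M2p) := rfl

/-- The root of the residual data moves out of the prime field. -/
lemma ssData_red_ne [CharP (ResidueField A) p] (D : SSData p A (matRep rb)) (a : ZMod p)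
    (ha : a ≠ 0) : red A D.z ≠ ZMod.castHom (dvd_refl p) (ResidueField A) a := by
  intro e
  have hz := is_root_unity D.place sq_sub_one_ne_zero D.prim_z.pow_eq_one
  have h1 : red A (D.z ^ (p - 1)) = 1 := by
    rw [red_pow D.place hz.ge, e, ← _root_.map_pow, ZMod.pow_card_sub_one_eq_one ha, map_one]
  have h2 := red_root_eq_one D.place not_dvd_sq_sub_one
    (by rw [← pow_mul, mul_comm, pow_mul, D.prim_z.pow_eq_one, one_pow]) h1
  have h3 := Nat.le_of_dvd (by have := hp.out.two_le; omega) (D.prim_z.dvd_of_pow_eq_one _ h2)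
  have : p * 2 ≤ p ^ 2 := by rw [sq]; exact Nat.mul_le_mul_left p hp.out.two_le
  have := hp.out.two_le
  generalize p ^ 2 = q at *
  omega

/-- **The supersingular field.** If `rb` has cyclotomic determinant, supersingular data `SSData` at
`A` give local data `SSLocal`: a tame field and a move of inertia without eigenvalue one. -/
theorem exists_ssLocal (h : IsPlace A p)
    (hopen : IsOpen (rb.ker : Set Γℚ))
    (hdet : ∀ σ, (rb σ : M2p).det = ((Fermat.CFT.cycChar p σ : (ZMod p)ˣ) : ZMod p))
    (D : SSData p A (matRep rb)) : Nonempty (SSLocal p A rb) := by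
  have := charP_res h
  have he0 : p ^ 2 - 1 ≠ 0 := sq_sub_one_ne_zero
  have hval : valIndex p (p + 1) = ((p ^ 2 - 1 : ℕ) : ℚ) := by
    rw [valIndex, Nat.cast_sub (Nat.one_le_pow _ _ hp.out.pos)]
    push_cast
    ring
  have hpe : p - 1 ∣ p ^ 2 - 1 := by simpa using Nat.sub_dvd_pow_sub_pow p 1 2
  -- the tame field of `D` gives field data, and `γ` a threshold move
  let F : FieldData p A rb (p + 1) :=
    { K := tame A D.π
      le := fun τ hτ => hτ.1
      ρ := D.π
      ρ_fix := fun τ hτ => (mem_tame.mp hτ).2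
      ρ_is := by rw [hval]; exact is_pi h he0 D.pi_pow
      int := fun x hx0 hx => by
        rw [hval]; exact exists_int_ord_tame h not_dvd_sq_sub_one D.pi_pow hx0 hx
      ξ := D.ξ
      root := D.root
      root_fix := fun τ hτ => apply_zeta_p h he0 D.pi_pow hpe hτ D.root.pow_eq_one
      ker := fun τ hτ => Units.ext (D.tame_one τ hτ) }
  obtain ⟨T, hT⟩ := F.exists_threshMove h (Nat.succ_pos p) hopen hdet D.γ_mem fun τ hτ => by
    refine mem_tame.mpr ⟨mul_mem (mul_mem (inv_mem D.γ_mem) hτ.1) D.γ_mem, ?_⟩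
    change D.γ.symm (τ (D.γ D.π)) = D.π
    rw [AlgEquiv.symm_apply_eq, D.γ_pi, _root_.map_mul, (mem_tame.mp hτ).2,
      apply_root_eq h not_dvd_sq_sub_one D.prim_z.pow_eq_one (isInert_of_mem_tame hτ)]
  refine ⟨⟨F.toField h (Nat.succ_pos p) hopen, T, fun hzero => ?_⟩⟩
  -- a vanishing `1 - t + χ` would make a residue of `D.z` a forbidden value
  rw [hT, Matrix.det_fin_two] at hzero
  have h1 : (1 : ZMod p) - (D.t : ZMod p) + (D.χ : ZMod p) = 0 := by
    rw [← D.trace_eq, ← D.det_eq, matRep_apply, Matrix.trace_fin_two, Matrix.det_fin_two]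
    simp at hzero ⊢
    linear_combination hzero
  have h2 : (1 : ResidueField A) - (D.t : ResidueField A) + (D.χ : ResidueField A) = 0 := by
    have := congrArg (ZMod.castHom (dvd_refl p) (ResidueField A)) h1
    simpa using this
  have h3 : (red A D.z - 1) * (red A D.z - (D.χ : ResidueField A)) = 0 := by
    linear_combination D.res_eq - red A D.z * h2
  rcases mul_eq_zero.mp h3 with h4 | h4
  · exact ssData_red_ne D 1 one_ne_zero (by rw [sub_eq_zero.mp h4, map_one])
  · refine ssData_red_ne D (D.χ : ZMod p) ?_ (by rw [sub_eq_zero.mp h4, map_natCast])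
    rw [← D.det_eq, matRep_apply, hdet]
    exact (Fermat.CFT.cycChar p _).ne_zero

end Fermat.BAD.AtP

end
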