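import Fermat.Agent.BAD.AtP.LocalField
import Fermat.Agent.BAD.AtP.LocalSS
import Fermat.Agent.BAD.AtP.LocalKummer

/-!
# The ordinary local field

The field generated over the tame field by the `p`-th root `y` with `ord (y ^ p - 1) = 1` has
uniformiser `π / (y - 1)`, and the generator of its inertia has first order movement exactly one.
-/

set_option autoImplicit false

noncomputable section

open Fermat.EC.Val Fermat.FLAT Matrix

namespace Fermat.BAD.AtP

local notation "ℚbar" => AlgebraicClosure ℚ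
local notation "Γℚ" => (AlgebraicClosure ℚ ≃ₐ[ℚ] AlgebraicClosure ℚ)

variable {p : ℕ} [hp : Fact p.Prime] {A : ValuationSubring ℚbar}
  {rb : Γℚ →* GL (Fin 2) (ZMod p)}

local notation "M2p" => Matrix (Fin 2) (Fin 2) (ZMod p)

section step

variable {π y : ℚbar}

/-- The root `y` is a unit. -/
lemma is_unit_root (h : IsPlace A p) (hu : Is A p (y ^ p - 1) 1) : Is A p y 0 := by
  have h1 : Is A p (y ^ p) 0 := by
    have := (is_one (A := A) h).add h (hu.gt one_pos)
    rwa [add_sub_cancel] at this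
  refine ⟨fun e => h1.1 (by rw [e, zero_pow hp.out.ne_zero]), ?_⟩
  have := h1.2
  rw [ord_pow h, mul_eq_zero] at this
  exact this.resolve_left (Nat.cast_ne_zero.mpr hp.out.ne_zero)

/-- `y - 1` has order `1 / p`. -/
lemma is_w (h : IsPlace A p) (hu : Is A p (y ^ p - 1) 1) : Is A p (y - 1) (1 / (p : ℚ)) := by
  exact is_root_sub_one h hu one_pos (by linarith)

/-- The orders of the powers of `y - 1` below `p` are not orders of the tame field. -/
lemma mul_inv_p_ne {b : ℕ} (hb : 0 < b) (hbp : b < p) (m : ℤ) :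
    (b : ℚ) * (1 / (p : ℚ)) ≠ (m : ℚ) / ((p - 1 : ℕ) : ℚ) := by
  intro e
  have hp0 : (p : ℚ) ≠ 0 := Nat.cast_ne_zero.mpr hp.out.ne_zero
  rw [mul_one_div, div_eq_div_iff hp0 (Nat.cast_ne_zero.mpr sub_one_ne_zero')] at e
  have e2 : ((b * (p - 1) : ℕ) : ℤ) = m * p := by exact_mod_cast e
  have hd : p ∣ b * (p - 1) := Int.natCast_dvd_natCast.mp ⟨m, by rw [e2, mul_comm]⟩
  rcases (Nat.Prime.dvd_mul hp.out).mp hd with hd | hd
  · exact absurd (Nat.le_of_dvd hb hd) (not_le.mpr hbp)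
  · exact not_dvd_sub_one hd

/-- An element of the tame group moving `y`. -/
theorem exists_step (h : IsPlace A p) (hπ : π ^ (p - 1) = (p : ℚbar)) {ξ : ℚbar}
    (hξ : IsPrimitiveRoot ξ p) (hu : Is A p (y ^ p - 1) 1)
    (hscale : ∀ τ ∈ tame A π, ∃ m : ℕ, τ y = ξ ^ m * y) :
    ∃ (σ : Γℚ) (ξ' : ℚbar), Step p (tame A π) y ξ' σ := by
  have hfix : ∀ τ ∈ tame A π, τ ξ = ξ := fun τ hτ =>
    apply_zeta_p h sub_one_ne_zero' hπ (dvd_refl _) hτ hξ.pow_eq_one
  obtain ⟨σ, hσ, hσy⟩ : ∃ σ ∈ tame A π, σ y ≠ y := by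
    by_contra hc
    push Not at hc
    obtain ⟨m, hm⟩ := exists_int_ord_tame h not_dvd_sub_one hπ (is_w h hu).1 fun τ hτ => by
      rw [map_sub, hc τ hτ, _root_.map_one]
    refine mul_inv_p_ne one_pos hp.out.one_lt m ?_
    rw [Nat.cast_one, one_mul, ← hm, (is_w h hu).2]
  obtain ⟨m, hm⟩ := hscale σ hσ
  have hne : ξ ^ m ≠ 1 := fun e => hσy (by rw [hm, e, one_mul])
  have hp' : (ξ ^ m) ^ p = 1 := by rw [← pow_mul, mul_comm, pow_mul, hξ.pow_eq_one, one_pow]
  have hroot : IsPrimitiveRoot (ξ ^ m) p :=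
    IsPrimitiveRoot.iff_orderOf.mpr (orderOf_eq_prime hp' hne)
  refine ⟨σ, ξ ^ m, hroot, fun τ hτ => by rw [map_pow, hfix τ hτ], hσ, hm, fun τ hτ => ?_⟩
  obtain ⟨k, hk⟩ := hscale τ hτ
  have : NeZero p := ⟨hp.out.ne_zero⟩
  obtain ⟨j, -, hj⟩ := hroot.eq_pow_of_pow_eq_one (ξ := ξ ^ k)
    (by rw [← pow_mul, mul_comm, pow_mul, hξ.pow_eq_one, one_pow])
  exact ⟨j, by rw [hj]; exact hk⟩

/-- **First order movement.** An integral `x` fixed by the stabiliser of `y` in the tame group is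
moved by `σ` by order at least `2 / ((p - 1) p)`. -/
theorem ge_move (h : IsPlace A p) (hπ : π ^ (p - 1) = (p : ℚbar)) {ξ : ℚbar} {σ : Γℚ}
    (S : Step p (tame A π) y ξ σ) (hu : Is A p (y ^ p - 1) 1) {x : ℚbar} (hx0 : Ge A p x 0)
    (hx : ∀ τ ∈ tameStab A π y, τ x = x) : Ge A p (σ x - x) (2 / valIndex p p) := by
  have hp1 := p_sub_one_pos (p := p)
  have hpq : (0 : ℚ) < p := by linarith
  obtain ⟨c, hc, hxc⟩ := S.exists_expansion_sub (is_unit_root h hu).1 (g := 1)
    (fun τ _ => _root_.map_one τ) fun τ hτ e => hx τ (mem_tameStab.mpr ⟨hτ, e⟩)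
  set w := y - 1 with hwdef
  have hw : Is A p w (1 / (p : ℚ)) := is_w h hu
  have hL : ∀ z : ℚbar, z ≠ 0 → (∀ τ ∈ tame A π, τ z = z) →
      ∃ m : ℤ, ord A p z = (m : ℚ) / ((p - 1 : ℕ) : ℚ) :=
    fun z hz0 hz => exists_int_ord_tame h not_dvd_sub_one hπ hz0 hz
  -- the terms of the expansion in `w` have distinct orders, so each moves to second order
  have hterm := ge_term_of_distinct h (s := Finset.range p) (f := fun b => c b * w ^ b)
    (fun i hi j hj hi0 hj0 he => ord_terms_injective h hL hw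
      (fun b hb hbp m => mul_inv_p_ne hb hbp m) hc (Finset.mem_range.mp hi)
      (Finset.mem_range.mp hj) hi0 hj0 he) (hxc ▸ hx0)
  have hσw : Is A p (σ w - w) (1 / ((p : ℚ) - 1)) := by
    have h1 : σ w - w = (ξ - 1) * y := by
      simp only [hwdef, map_sub, S.apply_eq, _root_.map_one]; ring
    rw [h1]
    simpa using (Fermat.EC.Cyclo.is_zeta_sub_one h S.root).mul h (is_unit_root h hu)
  rw [hxc, map_sum, ← Finset.sum_sub_distrib]
  refine Ge.sum h fun b hb => ?_
  rw [map_mul, hc b σ S.mem, map_pow, ← mul_sub]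
  rcases Nat.eq_zero_or_pos b with rfl | hb0
  · exact Or.inl (by simp)
  rcases eq_or_ne (c b) 0 with h0 | h0
  · exact Or.inl (by simp [h0])
  have hbp := Finset.mem_range.mp hb
  have hcy : c b * w ^ b ≠ 0 := mul_ne_zero h0 (pow_ne_zero _ hw.1)
  obtain ⟨m, hm⟩ := hL _ h0 (hc b)
  have hord : ord A p (c b * w ^ b) = (m : ℚ) / ((p - 1 : ℕ) : ℚ) + b * (1 / (p : ℚ)) := by
    rw [ord_mul h h0 (pow_ne_zero _ hw.1), ord_pow h, hw.2, hm]
  have hge : 1 / valIndex p p ≤ ord A p (c b * w ^ b) := by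
    have h0le := (hterm b hb).resolve_left hcy
    have hne : ord A p (c b * w ^ b) ≠ 0 := fun e => mul_inv_p_ne hb0 hbp (-m) (by
      push_cast; rw [neg_div]; linarith)
    have hpos : 0 < ord A p (c b * w ^ b) := lt_of_le_of_ne h0le (Ne.symm hne)
    have e : ord A p (c b * w ^ b) = ((m * p + b * ((p - 1 : ℕ) : ℤ) : ℤ) : ℚ) / valIndex p p := by
      rw [hord, valIndex, Nat.cast_sub hp.out.one_le]
      push_cast [Nat.cast_sub hp.out.one_le]
      field_simp
    rw [e] at hpos ⊢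
    have hN := valIndex_pos (p := p) hp.out.pos
    rw [div_le_div_iff_of_pos_right hN]
    have h1 : (0 : ℚ) < ((m * p + b * ((p - 1 : ℕ) : ℤ) : ℤ) : ℚ) :=
      (div_pos_iff_of_pos_right hN).mp hpos
    exact_mod_cast Int.add_one_le_iff.mpr (show (0 : ℤ) < _ by exact_mod_cast h1)
  have h1 : Ge A p (c b) (1 / valIndex p p - (b : ℚ) * (1 / (p : ℚ))) := by
    refine Or.inr ?_
    rw [hord] at hge
    rw [hm]
    linarith
  have h2 : Ge A p ((σ w) ^ b - w ^ b) (((b : ℚ) - 1) * (1 / (p : ℚ)) + 1 / ((p : ℚ) - 1)) := by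
    rw [← geom_sum₂_mul]
    refine Ge.mul h (Ge.sum h fun i hi => ?_) hσw.ge
    rw [Finset.mem_range] at hi
    refine (((isInert_of_mem_tame S.mem).is_apply h hw).pow h i |>.mul h
      (hw.pow h (b - 1 - i))).ge.mono ?_
    rw [← add_mul, ← Nat.cast_add, show i + (b - 1 - i) = b - 1 by omega, Nat.cast_sub hb0,
      Nat.cast_one]
  refine (h1.mul h h2).mono (le_of_eq ?_)
  unfold valIndex
  field_simp
  ring

end step

/-- **The ordinary field.** If a conjugate `r` of `rb` has shape `OrdShape` and is trivial on the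
stabiliser of a Kummer root `y` with `ord (y ^ p - 1) = 1`, then `rb` has local data `OrdLocal`. -/
theorem exists_ordLocal_of_shape (h : IsPlace A p) (hp2 : p ≠ 2)
    (hopen : IsOpen (rb.ker : Set Γℚ))
    (hdet : ∀ σ, (rb σ : M2p).det = ((Fermat.CFT.cycChar p σ : (ZMod p)ˣ) : ZMod p))
    {r : Γℚ →* Matrix (Fin 2) (Fin 2) (ZMod p)} (P : GL (Fin 2) (ZMod p))
    (hr : ∀ σ, (rb σ : M2p) = (P : M2p) * r σ * (↑P⁻¹ : M2p))
    {π z : ℚbar} {γ : Γℚ} (D : OrdShape p A r π z γ)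
    {y ξ : ℚbar} (hξ : IsPrimitiveRoot ξ p) (hu : Is A p (y ^ p - 1) 1)
    (hscale : ∀ τ ∈ tame A π, ∃ m : ℕ, τ y = ξ ^ m * y)
    (hone : ∀ τ ∈ tame A π, τ y = y → r τ = 1)
    (hnorm : ∀ τ ∈ tame A π, τ y = y → (γ⁻¹ * τ * γ) y = y) :
    Nonempty (OrdLocal p A rb) := by
  have hπ := D.pi_pow
  have hp1 := p_sub_one_pos (p := p)
  have hpq : (0 : ℚ) < p := by linarith
  obtain ⟨σ, ξ', S⟩ := exists_step h hπ hξ hu hscale
  have hπI : Is A p π (1 / ((p : ℚ) - 1)) := by
    have := is_pi h sub_one_ne_zero' hπ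
    rwa [Nat.cast_sub hp.out.one_le, Nat.cast_one] at this
  have hw := is_w h hu
  have hρ : Is A p (π / (y - 1)) (1 / valIndex p p) := by
    have := hπI.div h hw
    convert this using 1
    unfold valIndex
    field_simp
    ring
  let F : FieldData p A rb p :=
    { K := tameStab A π y
      le := fun τ hτ => hτ.1.1
      ρ := π / (y - 1)
      ρ_fix := fun τ hτ => by
        rw [map_div₀, map_sub, (mem_tameStab.mp hτ).2, (mem_tame.mp (mem_tameStab.mp hτ).1).2,
          _root_.map_one]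
      ρ_is := hρ
      int := fun x hx0 hx => by
        obtain ⟨m, hm⟩ := exists_int_ord_step h not_dvd_sub_one hπ S hx0 hx
        refine ⟨m, ?_⟩
        rw [hm, valIndex, Nat.cast_mul, Nat.cast_sub hp.out.one_le, Nat.cast_one, mul_comm]
      ξ := ξ
      root := hξ
      root_fix := fun τ hτ =>
        apply_zeta_p h sub_one_ne_zero' hπ (dvd_refl _) (mem_tameStab.mp hτ).1 hξ.pow_eq_one
      ker := fun τ hτ => Units.ext (by
        rw [hr, hone τ (mem_tameStab.mp hτ).1 (mem_tameStab.mp hτ).2, mul_one, Units.mul_inv,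
          Units.val_one]) }
  obtain ⟨T, hT⟩ := F.exists_threshMove h hp.out.pos hopen hdet D.γ_mem fun τ hτ => by
    obtain ⟨h1, h2⟩ := mem_tameStab.mp hτ
    exact mem_tameStab.mpr ⟨D.conj_mem h h1, hnorm τ h1 h2⟩
  -- the leading coefficient of the first order movement is a unit
  have hlead : Is A p ((σ (π / (y - 1)) - π / (y - 1)) / (π / (y - 1)) ^ 2) 0 := by
    have hI := isInert_of_mem_tame S.mem
    have hσw : Is A p (σ (y - 1) - (y - 1)) (1 / ((p : ℚ) - 1)) := by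
      have h1 : σ (y - 1) - (y - 1) = (ξ' - 1) * y := by
        simp only [map_sub, S.apply_eq, _root_.map_one]; ring
      rw [h1]
      simpa using (Fermat.EC.Cyclo.is_zeta_sub_one h S.root).mul h (is_unit_root h hu)
    have e : σ (π / (y - 1)) - π / (y - 1) =
        -(π * (σ (y - 1) - (y - 1)) / (σ (y - 1) * (y - 1))) := by
      have ha := (hI.is_apply h hw).1
      have hb := hw.1
      rw [map_div₀, (mem_tame.mp S.mem).2]
      generalize σ (y - 1) = a at ha ⊢
      generalize y - 1 = b at hb ⊢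
      field_simp
      ring
    rw [e]
    have := ((((hπI.mul h hσw).div h ((hI.is_apply h hw).mul h hw)).neg h)).div h (hρ.pow h 2)
    convert this using 1
    unfold valIndex
    push_cast
    field_simp
    ring
  refine ⟨{
    F := F.toField h hp.out.pos hopen
    T := T
    c := (cycNat p γ : ZMod p)
    c_ne := FLAT.OrdData.χ_ne_zero γ
    c_ne_one := D.χ_ne_one h hp2
    P := P
    rb_move := ?_
    σ := σ
    move := fun a ha haA => ?_
    lead := ⟨_, (mem_iff_ge h _).mpr hlead.ge⟩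
    lead_ne := ?_
    move_rho := rfl }⟩
  · rw [hT, hr]
    congr 2
    ext i j
    fin_cases i <;> fin_cases j <;>
      simp [D.lower γ D.γ_mem, D.one γ D.γ_mem, D.cyc γ D.γ_mem, D.γ_diag]
  · have hge := ge_move h hπ S hu ((mem_iff_ge h _).mp haA)
      ((IntermediateField.mem_fixedField_iff _ _).mp ha)
    change (σ a - a) / (π / (y - 1)) ^ 2 ∈ A
    refine (mem_iff_ge h _).mpr ?_
    have := hge.div h (hρ.pow h 2)
    rwa [show (2 : ℚ) / valIndex p p - ((2 : ℕ) : ℚ) * (1 / valIndex p p) = 0 by push_cast; ring]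
      at this
  · rw [← red_of_mem, Ne, red_eq_zero_iff h hlead.ge]
    exact hlead.not_gt

/-- Conjugation by an invertible matrix. -/
def conjRep (r : Γℚ →* Matrix (Fin 2) (Fin 2) (ZMod p)) (P : GL (Fin 2) (ZMod p)) :
    Γℚ →* Matrix (Fin 2) (Fin 2) (ZMod p) where
  toFun σ := (↑P⁻¹ : M2p) * r σ * (P : M2p)
  map_one' := by rw [map_one, mul_one, Units.inv_mul]
  map_mul' σ τ := by
    rw [_root_.map_mul]
    simp only [mul_assoc, Units.mul_inv_cancel_left]

/-- The matrices of the conjugate. -/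
@[simp] lemma conjRep_apply (r : Γℚ →* Matrix (Fin 2) (Fin 2) (ZMod p)) (P : GL (Fin 2) (ZMod p))
    (σ : Γℚ) : conjRep r P σ = (↑P⁻¹ : M2p) * r σ * (P : M2p) := rfl

/-- A model of a conjugate representation. -/
theorem nonempty_model_conj {H : Subgroup Γℚ} {r : Γℚ →* Matrix (Fin 2) (Fin 2) (ZMod p)}
    (G : Model A H (resAct r)) (P : GL (Fin 2) (ZMod p)) :
    Nonempty (Model A H (resAct (conjRep r P))) := by
  refine ⟨G.restrict (Matrix.mulVecLin (P : M2p)).toAddMonoidHom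
    (Matrix.mulVec_injective_of_isUnit P.isUnit) fun σ _ x => ?_⟩
  change (P : M2p) *ᵥ (conjRep r P σ *ᵥ x) = r σ *ᵥ ((P : M2p) *ᵥ x)
  rw [Matrix.mulVec_mulVec, Matrix.mulVec_mulVec, conjRep_apply, ← mul_assoc, ← mul_assoc,
    Units.mul_inv, one_mul]

/-- **The ordinary local data.** If `rb` has cyclotomic determinant, has a model at `A` and is
reducible on the decomposition group, then it has local data `OrdLocal` at `A`. -/
theorem exists_ordLocal (h : IsPlace A p) (hp2 : p ≠ 2) (hopen : IsOpen (rb.ker : Set Γℚ))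
    (hdet : ∀ σ, (rb σ : M2p).det = ((Fermat.CFT.cycChar p σ : (ZMod p)ˣ) : ZMod p))
    (L : IntermediateField ℚ ℚbar) [FiniteDimensional ℚ L] [Normal ℚ L]
    (hL : ∀ σ ∈ L.fixingSubgroup, matRep rb σ = 1)
    (G : Model A (A.decompositionSubgroup ℚ) (resAct (matRep rb)))
    (hnot : ¬ DecompIrred A (matRep rb)) : Nonempty (OrdLocal p A rb) := by
  have : NeZero p := ⟨hp.out.ne_zero⟩
  obtain ⟨P₀, Q₀, hPQ, hQP, hlow, hdiag⟩ := exists_ordinary_basis (matRep rb) L hL h hp2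
    (fun σ _ => by rw [matRep_apply, hdet, ZMod.natCast_zmod_val]) G hnot
  obtain ⟨π, hπ⟩ := exists_pi p (p - 1) sub_one_ne_zero'
  have : NeZero ((p - 1 : ℕ) : ℚbar) := ⟨Nat.cast_ne_zero.mpr sub_one_ne_zero'⟩
  have : NeZero (p - 1) := ⟨sub_one_ne_zero'⟩
  obtain ⟨z, hz⟩ := HasEnoughRootsOfUnity.exists_primitiveRoot ℚbar (p - 1)
  obtain ⟨γ, hγ, hγπ⟩ := exists_move h not_dvd_sub_one hπ hz.pow_eq_one
  have hI := inertia_le_decomposition A
  -- a basis in which the move is diagonal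
  set χ : ZMod p := (cycNat p γ : ZMod p)
  set t : ZMod p := (Q₀ * (rb γ : M2p) * P₀) 0 1 / (1 - χ)
  let U : GL (Fin 2) (ZMod p) := ⟨!![1, t; 0, 1], !![1, -t; 0, 1],
    by simp [Matrix.one_fin_two], by simp [Matrix.one_fin_two]⟩
  let P : GL (Fin 2) (ZMod p) := ⟨P₀, Q₀, hPQ, hQP⟩ * U
  have hr0 : ∀ σ, conjRep (matRep rb) P σ = !![1, -t; 0, 1] * (Q₀ * (rb σ : M2p) * P₀) *
      !![1, t; 0, 1] := fun σ => by
    change (!![1, -t; 0, 1] * Q₀) * (rb σ : M2p) * (P₀ * !![1, t; 0, 1]) = _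
    simp only [mul_assoc]
  have hχ1 : χ ≠ 1 := cycNat_move_ne_one h hp2 hπ hz hγ hγπ
  have hcol : ∀ σ ∈ A.inertiaSubgroupIn ℚ, conjRep (matRep rb) P σ =
      !![(cycNat p σ : ZMod p), (cycNat p σ : ZMod p) * t + (Q₀ * (rb σ : M2p) * P₀) 0 1 - t;
        0, 1] := fun σ hσ => by
    rw [hr0]
    have h1 := (hdiag σ hσ).1
    have h2 := hlow σ (hI hσ)
    have h3 := (hdiag σ hσ).2
    simp only [matRep_apply] at h1 h2 h3
    generalize Q₀ * (rb σ : M2p) * P₀ = X at h1 h2 h3 ⊢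
    rw [Matrix.eta_fin_two X, h1, h2, h3]
    ext i j
    fin_cases i <;> fin_cases j <;> simp [cycNat]; ring
  have D : OrdShape p A (conjRep (matRep rb) P) π z γ :=
    { pi_pow := hπ
      prim_z := hz
      γ_mem := hγ
      γ_pi := hγπ
      lower := fun σ hσ => by rw [hcol σ hσ]; simp
      one := fun σ hσ => by rw [hcol σ hσ]; simp
      cyc := fun σ hσ => by rw [hcol σ hσ]; simp
      γ_diag := by
        have ht : t * (1 - χ) = (Q₀ * (rb γ : M2p) * P₀) 0 1 :=
          div_mul_cancel₀ _ (sub_ne_zero.mpr (Ne.symm hχ1))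
        rw [hcol γ hγ]
        simp only [Matrix.cons_val', Matrix.cons_val_zero, Matrix.cons_val_one, Matrix.of_apply,
          Matrix.cons_val_fin_one, ← ht]
        ring }
  obtain ⟨G₁⟩ := G.nonempty_restrictH le_rfl (inertia_le_decomposition A)
  obtain ⟨G₂⟩ := nonempty_model_conj G₁ P
  have hL' : ∀ σ ∈ L.fixingSubgroup, conjRep (matRep rb) P σ = 1 := fun σ hσ => by
    rw [conjRep_apply, hL σ hσ, mul_one, Units.inv_mul]
  obtain ⟨y, ξ, hξ, hu, hscale, hone, hnorm⟩ := exists_step_root D G₂ h L hL'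
  exact exists_ordLocal_of_shape h hp2 hopen hdet P (fun σ => by
    rw [conjRep_apply, matRep_apply]
    simp only [mul_assoc, Units.mul_inv, mul_one, Units.mul_inv_cancel_left]) D hξ hu hscale hone
    hnorm

end Fermat.BAD.AtP

end
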