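import Fermat.Agent.BAD.AtP.MazurStatement
import Fermat.Agent.BAD.AtP.BridgeW0

/-!
# The Mazur principle at `p`, from the absence of eigen groups

For `p ≥ 5` and a semistable curve with good or peu ramifiée reduction at `p` (`MazurAtPTorsion`):
an auxiliary prime `r ≡ 11 (mod 12)` is added to the level and removed again by level lowering.
-/

set_option autoImplicit false

noncomputable section

open ModularCurve

namespace Fermat.BAD.AtP

open Fermat.GR.RT Fermat.SW

/-- No eigen group at level `M p` when `rb` is not modular of level `M`, the level `M` having a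
prime `≡ 11 (mod 12)`. -/
def NoEigenGroup (p : ℕ) [Fact p.Prime] : Prop :=
  4 < p → ∀ (W : WeierstrassCurve ℤ) (hW : W.Δ ≠ 0), W.IsSemistableModel →
    IsSemistableResidual p (Tors.tRep (p := p) W hW) →
      (¬ (p : ℤ) ∣ W.Δ ∨ p ∣ padicValInt p W.Δ) →
        ∀ (M : ℕ) [NeZero M] [NeZero (M * p)], Squarefree M → ¬ p ∣ M →
          (∃ r : ℕ, r.Prime ∧ r % 12 = 11 ∧ r ∣ M) →
            ¬ ModularOf p (Tors.tRep (p := p) W hW) M →
              ∀ V : AddSubgroup (JZero (M * p)), IsQuadratic (Tors.tRep (p := p) W hW) V →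
                (∀ i : GoodPrime (Tors.tRep (p := p) W hW) M, ∀ x ∈ V,
                  heckeOperatorBar (M * p) i.toPrimes x =
                    (trFrob (Tors.tRep (p := p) W hW) i.1).val • x) → V = ⊥

/-- A prime `11` modulo `12` above any bound. -/
theorem exists_auxiliary_prime (B : ℕ) : ∃ r : ℕ, B < r ∧ r.Prime ∧ r % 12 = 11 := by
  obtain ⟨r, hr1, hr2, hr3⟩ := Nat.forall_exists_prime_gt_and_eq_mod (q := 12) (a := 11)
    (IsUnit.of_mul_eq_one (11 : ZMod 12) (by decide)) B
  refine ⟨r, hr1, hr2, ?_⟩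
  rw [← ZMod.val_natCast 12 r, hr3]
  rfl

/-- **The Mazur principle at `p`.** Level lowering and the absence of eigen groups at level `M p`
(`NoEigenGroup`) give `MazurAtPTorsion`. -/
theorem mazurAtPTorsion_of_noEigenGroup {p : ℕ} [Fact p.Prime] (hno : NoEigenGroup p)
    (hlow : LoweringStatement p) : MazurAtPTorsion p := by
  intro h4 W hW hss hres hat M hM hpM hmod
  have hp : p.Prime := Fact.out
  obtain ⟨M0, rfl⟩ := hpM
  rw [Nat.mul_div_cancel_left _ hp.pos]
  by_contra hnone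
  push Not at hnone
  obtain ⟨hcop, -, hM0⟩ := Nat.squarefree_mul_iff.mp hM
  have hpM0 : ¬ p ∣ M0 := hp.coprime_iff_not_dvd.mp hcop
  have hM0pos : 0 < M0 := Nat.pos_of_ne_zero hM0.ne_zero
  obtain ⟨r, hrB, hr, hr12⟩ := exists_auxiliary_prime (p + M0 + W.Δ.natAbs)
  have hrp : r ≠ p := by omega
  have hrM0 : ¬ r ∣ M0 := fun h => by have := Nat.le_of_dvd hM0pos h; omega
  have hrΔ : ¬ (r : ℤ) ∣ W.Δ := fun h => by
    have h1 : r ∣ W.Δ.natAbs := Int.natCast_dvd.mp h
    have := Nat.le_of_dvd (Int.natAbs_pos.mpr hW) h1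
    omega
  have hu : IsResUnramified p (Tors.tRep (p := p) W hW) r := fun A hA σ hσ =>
    Tors.unramified_tRep hW hss (by omega) hr hrp
      (by rw [padicValInt.eq_zero_of_not_dvd hrΔ]; exact dvd_zero p) hA hσ
  have hsq : Squarefree (M0 * r) :=
    (Nat.squarefree_mul (Nat.Coprime.symm (hr.coprime_iff_not_dvd.mpr hrM0))).mpr
      ⟨hM0, hr.prime.squarefree⟩
  have hpM1 : ¬ p ∣ M0 * r := fun h => (hp.dvd_mul.mp h).elim hpM0 fun h' =>
    hrp ((Nat.prime_dvd_prime_iff_eq hp hr).mp h').symm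
  -- lowering would remove `r` again, so there is no modularity of level `M0 r`
  have hnot : ¬ ModularOf p (Tors.tRep (p := p) W hW) (M0 * r) := fun hmod1 => by
    obtain ⟨M', hM', hmodM'⟩ := hlow (by omega) _ hres (fun h => absurd h (by omega)) (M0 * r) r
      hsq hpM1 hr (dvd_mul_left r M0) hu hmod1
    rw [Nat.mul_div_cancel _ hr.pos] at hM'
    exact hnone M' hM' hmodM'
  have : NeZero (M0 * r) := ⟨hsq.ne_zero⟩
  have : NeZero (M0 * r * p) := ⟨mul_ne_zero hsq.ne_zero hp.ne_zero⟩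
  have : NeZero (p * M0) := ⟨hM.ne_zero⟩
  -- but modularity of level `p M0` gives a nonzero eigen group at level `M0 r p`
  obtain ⟨V, hV0, hV, hT⟩ := exists_w0_of_modular (M := M0 * r) (L := p * M0) (M0 * r * p) dvd_rfl
    dvd_rfl ⟨r, by ring⟩ hres hmod
  exact hV0 (hno h4 W hW hss hres hat (M0 * r) hsq hpM1 ⟨r, hr, hr12,
    dvd_mul_left r M0⟩ hnot V hV hT)

end Fermat.BAD.AtP
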