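import Fermat.Agent.SW.TorsionRep

/-!
# The Mazur principle at `p` for the torsion of a semistable curve

`MazurAtPTorsion`: good reduction or peu ramifiée torsion at `p` removes `p` from a squarefree
level at which the torsion is modular.
-/

set_option autoImplicit false

noncomputable section

namespace Fermat.BAD.AtP

open Fermat.GR.RT Fermat.SW

/-- **The Mazur principle at `p`**: good reduction or peu ramifiée torsion at `p` removes `p` from
the level. -/
def MazurAtPTorsion (p : ℕ) [Fact p.Prime] : Prop :=
  4 < p → ∀ (W : WeierstrassCurve ℤ) (hW : W.Δ ≠ 0), W.IsSemistableModel →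
    IsSemistableResidual p (Tors.tRep (p := p) W hW) →
      (¬ (p : ℤ) ∣ W.Δ ∨ p ∣ padicValInt p W.Δ) →
        ∀ M : ℕ, Squarefree M → p ∣ M → ModularOf p (Tors.tRep (p := p) W hW) M →
          ∃ M' : ℕ, M' ∣ M / p ∧ ModularOf p (Tors.tRep (p := p) W hW) M'

end Fermat.BAD.AtP
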