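import Fermat.Agent.BAD.Inst.Rat
import Fermat.Agent.BAD.AtP.LocalExtend

/-!
# Presentations over a larger local field, and their scale

A presentation over `F` is one over any larger local field; if the index of the larger field is
divisible by `p` the ratio of its two scales is a `p`-th power times a unit with residue one.
-/

set_option autoImplicit false
set_option linter.unusedSectionVars false

attribute [local instance 10000] SubalgebraClass.toAlgebra HahnSeries.powerSeriesAlgebra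

noncomputable section

open ModularCurve AlgebraicCurve IsLocalRing

namespace Fermat.BAD.AtP

open Fermat.MC Fermat.BAD.X0

local notation "Qb" => AlgebraicClosure ℚ
local notation "Γℚ" => (AlgebraicClosure ℚ ≃ₐ[ℚ] AlgebraicClosure ℚ)

variable (M p : ℕ) [NeZero M] [NeZero p] [Fact p.Prime] (hp : p.Prime) (hpM : ¬ p ∣ M)
variable {A : ValuationSubring (AlgebraicClosure ℚ)}
variable [FF.IsFunctionField Qb (FN (M * p) Qb)] [IsAlgClosed (ResidueField A)]
  [FF.IsFunctionField (ResidueField A) (modularFunctionFieldFullC (ResidueField A) M)]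
variable {rb : Γℚ →* GL (Fin 2) (ZMod p)} {a₀ a₁ : ℕ} (F : LocalField p A rb a₀)
  (F' : LocalField p A rb a₁)
variable {X : Degen (residue A) (emb M p hp hpM) (modularFunctionFieldFullC (ResidueField A) M)}

/-- Rational functions over `F` are rational over a larger field. -/
theorem ratData_R_mono (hle : F.M ≤ F'.M) :
    (Inst.ratData M p hp hpM F).R ≤ (Inst.ratData M p hp hpM F').R :=
  fun _ hf b n => hle (hf b n)

/-- A presentation over `F` is one over a larger field. -/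
theorem pres_mono (hle : F.M ≤ F'.M) {l : ℕ} {D : Divisor Qb (FN (M * p) Qb)}
    {y : FN (M * p) Qb} {c1 c0 : Qb}
    (h : X.Pres (Inst.ratData M p hp hpM F) p l D y c1 c0) :
    X.Pres (Inst.ratData M p hp hpM F') p l D y c1 c0 where
  y_ne := h.y_ne
  div_eq := h.div_eq
  inv_mem := ratData_R_mono M p hp hpM F F' hle h.inv_mem
  le_A0 := h.le_A0
  c1_mem := hle h.c1_mem
  c0_mem := hle h.c0_mem
  prim_true := h.prim_true
  prim_false := h.prim_false
  span m := (h.span m).trans (Submodule.span_mono fun _ hw =>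
    ⟨hw.1, ratData_R_mono M p hp hpM F F' hle hw.2⟩)

variable {F F'}

/-- **The scale.** If the index of `F'` over `F` is divisible by `p`, the ratio `c1 / c0` of nonzero
elements of `F.M` is `s ^ p` times a unit of residue one, with `s ∈ F'.M`. -/
theorem exists_scale {e : ℕ} (hpe : p ∣ e)
    (hup : ∀ (a : Qb) (i : ℤ), HasVal A F.ρ a i → HasVal A F'.ρ a ((e : ℤ) * i))
    {c1 c0 : Qb} (h1 : c1 ∈ F.M) (h0 : c0 ∈ F.M) (hc1 : c1 ≠ 0) (hc0 : c0 ≠ 0) :
    ∃ s ∈ F'.M, s ≠ 0 ∧ ∃ hμ : c1 / (s ^ p * c0) ∈ A,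
      s ^ p * c0 / c1 ∈ A ∧ residue A ⟨_, hμ⟩ = 1 := by
  obtain ⟨i, hi1, hi2⟩ := F.value (c0 / c1) (div_mem h0 h1) (div_ne_zero hc0 hc1)
  obtain ⟨-, hv1, hv2⟩ := hup (c0 / c1) i ⟨div_ne_zero hc0 hc1, hi1, hi2⟩
  obtain ⟨f, hf⟩ := hpe
  set e₁ := F'.ρ ^ (-((f : ℤ) * i))
  have he₁ : e₁ ^ p = (F'.ρ ^ ((e : ℤ) * i))⁻¹ := by
    simp only [e₁]
    rw [← zpow_natCast, ← zpow_mul, ← zpow_neg, hf]
    congr 1
    push_cast
    ring
  have hw : F'.ρ ^ ((e : ℤ) * i) ≠ 0 := zpow_ne_zero _ F'.ρ_ne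
  set w := F'.ρ ^ ((e : ℤ) * i)
  have hu1 : c1 / (e₁ ^ p * c0) = w / (c0 / c1) := by rw [he₁]; field_simp
  have hu2 : e₁ ^ p * c0 / c1 = c0 / c1 / w := by rw [he₁]; field_simp
  set u : A := ⟨c1 / (e₁ ^ p * c0), hu1 ▸ hv2⟩
  have hu0 : residue A u ≠ 0 := by
    refine (residue_ne_zero_iff_isUnit u).mpr (IsUnit.of_mul_eq_one
      (⟨e₁ ^ p * c0 / c1, hu2 ▸ hv1⟩ : A) (Subtype.ext ?_))
    change c1 / (e₁ ^ p * c0) * (e₁ ^ p * c0 / c1) = 1
    rw [hu1, hu2, div_mul_div_comm, mul_comm w, div_self (mul_ne_zero (div_ne_zero hc0 hc1) hw)]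
  -- correct the residue by a `p`-th power from the field
  obtain ⟨b, hb⟩ := IsAlgClosed.exists_pow_nat_eq (residue A u) (Fact.out : p.Prime).pos
  obtain ⟨a, haM, hab⟩ := F'.surjM b
  have ha0 : residue A a ≠ 0 := by
    rw [hab]; exact fun h => hu0 (by rw [← hb, h, zero_pow (Fact.out : p.Prime).ne_zero])
  obtain ⟨ai, hai⟩ := ((residue_ne_zero_iff_isUnit a).mp ha0).exists_right_inv
  have hinv : ((ai : A) : Qb) = ((a : Qb))⁻¹ :=
    eq_inv_of_mul_eq_one_right (by simpa using congrArg Subtype.val hai)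
  have haQ : (a : Qb) ≠ 0 := fun h => ha0 (by rw [show a = 0 from Subtype.ext h, map_zero])
  have key : c1 / (((a : Qb) * e₁) ^ p * c0) = ((ai ^ p * u : A) : Qb) := by
    change _ = ((ai : A) : Qb) ^ p * (c1 / (e₁ ^ p * c0))
    rw [hinv, inv_pow, mul_pow, mul_assoc, div_mul_eq_div_div_swap, div_eq_inv_mul]
  refine ⟨(a : Qb) * e₁, mul_mem haM (zpow_mem F'.ρ_mem _),
    mul_ne_zero haQ (zpow_ne_zero _ F'.ρ_ne), key ▸ SetLike.coe_mem _, ?_, ?_⟩
  · rw [mul_pow, mul_assoc, mul_div_assoc]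
    exact mul_mem (pow_mem a.2 p) (hu2 ▸ hv1)
  · have e2 : (⟨c1 / (((a : Qb) * e₁) ^ p * c0), key ▸ SetLike.coe_mem _⟩ : A) = ai ^ p * u :=
      Subtype.ext key
    rw [e2, map_mul, map_pow, ← hb, ← hab, ← mul_pow, ← map_mul, mul_comm ai, hai, map_one, one_pow]

end Fermat.BAD.AtP

end
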