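import Fermat.Agent.BAD.AtP.BridgePush
import Fermat.Agent.JAC.EvalDiv

/-!
# Norms of presentations of killed classes are powers

If the pushforward of the class of `D` vanishes and `divOf y = n D`, the norm of `y` is an `n`-th
power.  In particular this holds for both degeneracy norms on an eigen group of a representation
which is not modular of the lower level.
-/

set_option autoImplicit false

noncomputable section

open AlgebraicCurve ModularCurve

namespace Fermat.BAD.AtP

open Fermat.JAC Fermat.FF

section General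

variable {L F F' : Type*} [Field L] [IsAlgClosed L] [Field F] [Field F'] [Algebra L F]
  [Algebra L F'] [IsFunctionField L F] [IsFunctionField L F']

/-- **The norm of a presentation of a killed class is a power.** -/
theorem exists_root_normAlong (φ : F →ₐ[L] F') {n : ℕ} (hn : n ≠ 0)
    {D : Divisor.degZero (K := L) (F := F')} (hD : pushPic φ (Pic0.mk D) = 0) {y : F'} (hy : y ≠ 0)
    (hdiv : divOf L y = n • (D : Divisor L F')) : ∃ W : F, W ^ n = normAlong φ y := by
  have hmem : pushDiv φ (D : Divisor L F') ∈ Divisor.degZero (K := L) (F := F) := by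
    rw [Divisor.mem_degZero, degree_pushDiv, Divisor.mem_degZero.mp D.2]
  rw [pushPic_mk φ D hmem, pic0_mk_eq_zero_iff] at hD
  obtain ⟨g, hg, hgD⟩ := hD
  have h1 : divOf L (normAlong φ y) = divOf L (g ^ n) := by
    rw [divOf_pow, hgD, ← pushDiv_divOf φ hy, hdiv, map_nsmul]
  obtain ⟨c, -, hc⟩ := exists_eq_smul_of_divOf_eq (normAlong_ne_zero φ hy) (pow_ne_zero n hg) h1
  obtain ⟨d, hd⟩ := IsAlgClosed.exists_pow_nat_eq c (Nat.pos_of_ne_zero hn)
  exact ⟨algebraMap L F d * g, by rw [mul_pow, ← map_pow, hd, hc]⟩

end General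

open Fermat.JAC.X0 Fermat.GR.RT

local notation "Γℚ" => (AlgebraicClosure ℚ ≃ₐ[ℚ] AlgebraicClosure ℚ)

/-- The two degeneracy maps to level `M p`. -/
def degMap (M p : ℕ) [NeZero M] [NeZero p] :
    Bool → (modularFunctionFieldBar M →ₐ[Qbar] modularFunctionFieldBar (M * p))
  | true => heckeAlphaBar Qbar M p
  | false => heckeBetaBar Qbar M p

variable {p : ℕ} [Fact p.Prime] [NeZero p] {rb : Γℚ →* GL (Fin 2) (ZMod p)} {M : ℕ} [NeZero M]

/-- **Both norms of presentations in an eigen group are `p`-th powers.** -/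
theorem exists_root_norm_of_eigen (hmod : ¬ ModularOf p rb M) {V : AddSubgroup (JZero (M * p))}
    (hV : IsQuadratic rb V)
    (hT : ∀ i : GoodPrime rb M, ∀ x ∈ V,
      heckeOperatorBar (M * p) i.toPrimes x = (trFrob rb i.1).val • x)
    {D : Divisor.degZero (K := Qbar) (F := modularFunctionFieldBar (M * p))}
    (hD : (Pic0.mk D : JZero (M * p)) ∈ V) {y : modularFunctionFieldBar (M * p)} (hy : y ≠ 0)
    (hdiv : divOf Qbar y = p • (D : Divisor Qbar (modularFunctionFieldBar (M * p)))) (b : Bool) :
    ∃ W : modularFunctionFieldBar M, W ^ p = normAlong (degMap M p b) y := by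
  obtain ⟨h1, h2⟩ := push_w0_eq_zero hmod hV hT hD
  cases b
  · exact exists_root_normAlong _ (Fact.out : p.Prime).ne_zero h2 hy hdiv
  · exact exists_root_normAlong _ (Fact.out : p.Prime).ne_zero h1 hy hdiv

end Fermat.BAD.AtP
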