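import Fermat.Agent.BAD.AtP.NoEigenReds
import Fermat.Agent.BAD.AtP.Scale
import Fermat.Agent.BAD.AtP.Contradiction
import Fermat.Agent.BAD.AtP.Local
import Fermat.Agent.BAD.AtP.Mazur
import Fermat.Agent.BAD.Inst.Node
import Fermat.Agent.BAD.Inst.Norm
import Fermat.Agent.BAD.Inst.Pres
import Fermat.Agent.BAD.Inst.Pairs

/-!
# No eigen groups at level `M p`

Presentations over the local field, their reductions, and their scale over a larger field feed the
contradiction of the move with its determinant; this gives the Mazur principle at `p`.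

`Fermat.BAD.AtP` (Mazur's principle at `p`):
* `MazurStatement`, `Mazur`: the statement, and its proof from `NoEigenGroup` and level lowering;
* `Group`, `Bridge*`, `EigenModular`: eigen groups in `J₀ (M p)`, modularity from eigen classes;
* `LocalDef`, `Local*`: the ordinary and supersingular local fields and their moves;
* `Phi*`, `Powers`, `NoEigenReds`: both reductions of a presentation are `p`-th powers;
* `DegenR`, `Scale`, `Scalar`, `Contradiction`: so the move acts by its determinant, absurd;
* `NoEigen` (this file): `noEigenGroup` and `mazurAtPTorsion_of_lowering`.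
-/

set_option autoImplicit false

attribute [local instance 10000] SubalgebraClass.toAlgebra HahnSeries.powerSeriesAlgebra

noncomputable section

open ModularCurve AlgebraicCurve IsLocalRing

namespace Fermat.BAD.AtP

open Fermat.MC Fermat.JAC Fermat.JAC.X0 Fermat.RED Fermat.RED.Model Fermat.BAD.X0 Fermat.GR.RT

local notation "Qb" => AlgebraicClosure ℚ
local notation "Γℚ" => (AlgebraicClosure ℚ ≃ₐ[ℚ] AlgebraicClosure ℚ)

section Engine

variable {M p : ℕ} [NeZero M] [NeZero p] [Fact p.Prime] (hpM : ¬ p ∣ M)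
variable [FF.IsFunctionField Qb (FN (M * p) Qb)] [FF.IsFunctionField Qb (FN M Qb)]
variable {A : ValuationSubring (AlgebraicClosure ℚ)} (hA : A.LiesOverPrime p)
  [IsAlgClosed (ResidueField A)] [CharP (ResidueField A) p]
  [FF.IsFunctionField (ResidueField A) (modularFunctionFieldFullC (ResidueField A) M)]
variable {rb : Γℚ →* GL (Fin 2) (ZMod p)} {V : AddSubgroup (JZero (M * p))}
variable {r : ℕ} (hr : r.Prime) (h12 : r % 12 = 11) (hrM : r ∣ M)

include hr h12 hrM in
/-- `hbar` has order twelve at each glued point, as the level has no elliptic points. -/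
theorem ord_hbar_degenR : ∀ s ∈ SS M p Fact.out hpM hA, s.ord (hbar M p Fact.out hpM hA) = 12 :=
  fun _ hs => Inst.ord_hbar_eq M p Fact.out hpM hA (degenR M p Fact.out hpM hA hr h12 hrM)
    rfl (NoElliptic.of_prime_dvd hr h12 hrM) hs

/-- What the engine needs, over any local field. -/
theorem engineData_degenR {a₀ : ℕ} (F : LocalField p A rb a₀) (T : ThreshMove p F)
    (ND : ∀ b, NormData (degenR M p Fact.out hpM hA hr h12 hrM)
      (Inst.ratData M p Fact.out hpM F) b (FN M Qb)) :
    Nonempty (EngineData (degenR M p Fact.out hpM hA hr h12 hrM)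
      (Inst.ratData M p Fact.out hpM F) F T ND) :=
  ⟨{ thresh := Inst.thresh_ratData M p Fact.out hpM F
     fix := Inst.fixM_ratData M p Fact.out hpM F
     ρ_eq := rfl
     lift := fun _ hn => Inst.liftGlue M p Fact.out hpM hA F
       (degenR M p Fact.out hpM hA hr h12 hrM) rfl hn
     S_ne := SS_nonempty M p Fact.out hpM hA
     node := Inst.node M p Fact.out hpM hA (degenR M p Fact.out hpM hA hr h12 hrM) rfl rfl
       (fun _ _ => rfl) (ord_hbar_degenR hpM hA hr h12 hrM)
     aut := Inst.coeffAut M p Fact.out hpM F (degenR M p Fact.out hpM hA hr h12 hrM)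
       rfl T.γ T.mem T.maps
     aut_σ := fun _ => rfl
     aut_s := fun _ => rfl }⟩

/-- The norm data exist over every local field. -/
theorem exists_normData {a₀ : ℕ} (F : LocalField p A rb a₀) :
    ∃ ND : ∀ b, NormData (degenR M p Fact.out hpM hA hr h12 hrM)
      (Inst.ratData M p Fact.out hpM F) b (FN M Qb),
      ∀ b f, (ND b).N f = normAlong (degMap M p b) f :=
  ⟨fun b => Inst.normData M p Fact.out hpM hA F (degenR M p Fact.out hpM hA hr h12 hrM) rfl b,
    fun _ _ => rfl⟩

/-- A class of an eigen group has a presentation over the local field. -/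
theorem exists_pres_of_mem {a₀ : ℕ} (F : LocalField p A rb a₀) (hV : IsQuadratic rb V)
    {x : JZero (M * p)} (hx : x ∈ V) :
    ∃ (l : ℕ) (D : Divisor.degZero (K := Qb) (F := FN (M * p) Qb)) (y : FN (M * p) Qb)
      (c1 c0 : Qb), Pic0.mk D = x ∧
        Degen.Pres (degenR M p Fact.out hpM hA hr h12 hrM) (Inst.ratData M p Fact.out hpM F) p l
          (D : Divisor Qb (FN (M * p) Qb)) y c1 c0 :=
  Inst.exists_pres M p Fact.out hpM F (degenR M p Fact.out hpM hA hr h12 hrM) rfl (hV.torsion x hx)
    fun _ hτ => smul_eq_self_of_fix F hV hτ hx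

/-- **A presentation with power reductions gives the data over the larger field.** -/
theorem powerPres_of_reds {a₀ a₁ e : ℕ} {F : LocalField p A rb a₀} {F' : LocalField p A rb a₁}
    (hle : F.M ≤ F'.M) (hpe : p ∣ e)
    (hup : ∀ (a : Qb) (i : ℤ), HasVal A F.ρ a i → HasVal A F'.ρ a ((e : ℤ) * i))
    (ND : ∀ b, NormData (degenR M p Fact.out hpM hA hr h12 hrM)
      (Inst.ratData M p Fact.out hpM F') b (FN M Qb))
    (hND : ∀ b f, (ND b).N f = normAlong (degMap M p b) f)
    (hmod : ¬ ModularOf p rb M) (hV : IsQuadratic rb V)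
    (hT : ∀ i : GoodPrime rb M, ∀ x ∈ V,
      heckeOperatorBar (M * p) i.toPrimes x = (trFrob rb i.1).val • x)
    {x : JZero (M * p)} (hx : x ∈ V) {l : ℕ}
    {D : Divisor.degZero (K := Qb) (F := FN (M * p) Qb)} {y : FN (M * p) Qb} {c1 c0 : Qb}
    (hD : Pic0.mk D = x)
    (h : Degen.Pres (degenR M p Fact.out hpM hA hr h12 hrM) (Inst.ratData M p Fact.out hpM F) p l
      (D : Divisor Qb (FN (M * p) Qb)) y c1 c0)
    (h1 : ∃ z, Degen.red (degenR M p Fact.out hpM hA hr h12 hrM) true (c1 • y) = z ^ p)
    (h0 : ∃ z, Degen.red (degenR M p Fact.out hpM hA hr h12 hrM) false (c0 • y) = z ^ p) :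
    Nonempty (PowerPres (degenR M p Fact.out hpM hA hr h12 hrM)
      (Inst.ratData M p Fact.out hpM F') ND x) := by
  obtain ⟨s, hsM, hs0, hμ, hν, hone⟩ :=
    exists_scale p hpe hup h.c1_mem h.c0_mem h.c1_ne h.c0_ne
  obtain ⟨z1, hz1⟩ := h1
  obtain ⟨z0, hz0⟩ := h0
  exact ⟨{ D := D, class_eq := hD, l₀ := l, y := y, c1 := c1, c0 := c0
           pres := pres_mono M p Fact.out hpM F F' hle h
           e := s, e_mem := hsM, e_ne := hs0, mu := hμ, nu := hν, mu_one := hone
           hh := fun b => cond b z1 z0, red_true := hz1, red_false := hz0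
           norm_pow := fun b => by
             obtain ⟨Wt, hWt⟩ :=
               exists_root_norm_of_eigen hmod hV hT (by rw [hD]; exact hx) h.y_ne h.div_eq b
             exact ⟨Wt, hWt.trans (hND b y).symm⟩ }⟩

variable (hmod : ¬ ModularOf p rb M) (hV : IsQuadratic rb V)
  (hT : ∀ i : GoodPrime rb M, ∀ x ∈ V,
    heckeOperatorBar (M * p) i.toPrimes x = (trFrob rb i.1).val • x)
include hpM hA hr h12 hrM hmod hV hT

/-- **No eigen group in the supersingular case.** -/
theorem eq_bot_ss (hA' : Fermat.EC.Val.IsPlace A p) (S : SSLocal p A rb) : V = ⊥ := by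
  -- no eigenvalue one: each class is `γ x - x`, so its reductions are powers
  obtain ⟨a₁, F', T', e, hγ, hle, hpe, -, hup⟩ := LocalField.exists_extend S.F hA' S.T
  obtain ⟨ND, hN⟩ := exists_normData hpM hA hr h12 hrM F'
  obtain ⟨E⟩ := engineData_degenR hpM hA hr h12 hrM F' T' ND
  refine eq_bot_of_no_one E hV (fun x hx => ?_) (by rw [hγ]; exact S.no_one)
  obtain ⟨l, D, y, c1, c0, hD, h⟩ := exists_pres_of_mem hpM hA hr h12 hrM S.F hV hx
  obtain ⟨hr1, hr0⟩ := Degen.Pres.rep h (⟨D.2, hD⟩ : IsCls _ x)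
  exact powerPres_of_reds hpM hA hr h12 hrM hle hpe hup ND hN hmod hV hT hx hD h
    (exists_pow_red_of_move S.F rfl S.T.mem S.T.maps hV S.no_one hx hr1)
    (exists_pow_red_of_move S.F rfl S.T.mem S.T.maps hV S.no_one hx hr0)

/-- **No eigen group in the ordinary case.** -/
theorem eq_bot_ord (hp4 : 4 < p) (hrb : IsSemistableResidual p rb)
    (hA' : Fermat.EC.Val.IsPlace A p) (O : OrdLocal p A rb) : V = ⊥ := by
  -- first order data, Hecke operators and norms make the reductions powers
  obtain ⟨a₁, F', T', e, hγ, hle, hpe, -, hup⟩ := LocalField.exists_extend O.F hA' O.T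
  obtain ⟨ND, hN⟩ := exists_normData hpM hA hr h12 hrM F'
  obtain ⟨E⟩ := engineData_degenR hpM hA hr h12 hrM F' T' ND
  refine eq_bot_of_conj E hV (fun x hx => ?_) hrb.surjective O.c_ne O.c_ne_one O.P
    (by rw [hγ]; exact O.rb_move)
  obtain ⟨l, D, y, c1, c0, hD, h⟩ := exists_pres_of_mem hpM hA hr h12 hrM O.F hV hx
  let FO := Inst.foData M p Fact.out hpM (degenR M p Fact.out hpM hA hr h12 hrM) rfl O.F O.σ O.move
    O.lead O.lead_ne O.move_rho
    (by omega) (Inst.node_fixed M p Fact.out hpM hA O.F (degenR M p Fact.out hpM hA hr h12 hrM)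
      rfl rfl
      (fun _ _ => rfl) (ord_hbar_degenR hpM hA hr h12 hrM) O.σ)
  obtain ⟨h1, h0⟩ := exists_pow_red_of_foData hp4 hA hrb FO rfl
    (SS_nonempty M p Fact.out hpM hA) hr h12 hrM hmod hV hT
    (D := D) (by rw [hD]; exact hx) h
  exact powerPres_of_reds hpM hA hr h12 hrM hle hpe hup ND hN hmod hV hT hx hD h h1 h0

end Engine

/-- **No eigen groups at level `M p`**: the torsion at `p` is ordinary or supersingular, and either
way the group is trivial. -/
theorem noEigenGroup {p : ℕ} [Fact p.Prime] : NoEigenGroup p := by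
  intro h4 W hW hss hres hat M _ _ hsq hpM hr hmod V hV hT
  obtain ⟨r, hr, h12, hrM⟩ := hr
  have : NeZero p := ⟨(Fact.out : p.Prime).ne_zero⟩
  obtain ⟨A, hA, hloc⟩ := exists_local_of_dvd (p := p) hW (hss p Fact.out)
    (by omega) (hat.elim (fun hn => by rw [padicValInt.eq_zero_of_not_dvd hn]; exact dvd_zero p) id)
  have := Model.isAlgClosed_residue A
  have : CharP (ResidueField A) p := (CharP.charP_iff_prime_eq_zero Fact.out).mpr (by
    rw [← map_natCast (IsLocalRing.residue A), IsLocalRing.residue_eq_zero_iff,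
      IsLocalRing.mem_maximalIdeal]
    exact ValuationSubring.coe_mem_nonunits_iff.mp (by push_cast; exact hA))
  have : FF.IsFunctionField (ResidueField A) (modularFunctionFieldFullC (ResidueField A) M) :=
    Fermat.RED.Cusps.isFunctionField (natCast_ne_zero_residue A Fact.out hA hpM)
  have : FF.IsFunctionField Qb (FN (M * p) Qb) := MC.isFunctionField_FN (M * p) embC
  have : FF.IsFunctionField Qb (FN M Qb) := MC.isFunctionField_FN M embC
  rcases hloc with ⟨⟨O⟩⟩ | ⟨⟨S⟩⟩
  · exact eq_bot_ord hpM hA hr h12 hrM hmod hV hT h4 hres ⟨Fact.out, hA⟩ O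
  · exact eq_bot_ss hpM hA hr h12 hrM hmod hV hT ⟨Fact.out, hA⟩ S

/-- **The Mazur principle at `p`**, from level lowering away from `p`. -/
theorem mazurAtPTorsion_of_lowering (p : ℕ) [Fact p.Prime] (hlow : LoweringStatement p) :
    MazurAtPTorsion p :=
  mazurAtPTorsion_of_noEigenGroup noEigenGroup hlow

end Fermat.BAD.AtP

end
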