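import Fermat.Agent.BAD.AtP.PhiCore
import Fermat.Agent.BAD.Corr.X0Comp
import Fermat.Agent.BAD.X0.Glue
import Fermat.Agent.BAD.X0.Branches

/-!
# The reduction at `0` through the norm

If the norm to level `M` of a presentation is a `p`-th power and its reduction at `∞` is one, then
so is its reduction at `0`: the norm reduces to the first times the Frobenius twist of the second.
-/

set_option autoImplicit false

attribute [local instance 10000] SubalgebraClass.toAlgebra HahnSeries.powerSeriesAlgebra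

noncomputable section

open ModularCurve AlgebraicCurve

namespace Fermat.BAD.AtP

open Fermat.FF Fermat.MC Fermat.JAC Fermat.JAC.X0 Fermat.RED Fermat.RED.Model Fermat.BAD.X0
  Fermat.BAD.Corr

local notation "Qb" => AlgebraicClosure ℚ

variable {M p : ℕ} [NeZero M] [NeZero p] [Fact p.Prime] {hp : p.Prime} {hpM : ¬ p ∣ M}
variable [FF.IsFunctionField Qb (FN (M * p) Qb)] [FF.IsFunctionField Qb (FN M Qb)]
variable {A : ValuationSubring (AlgebraicClosure ℚ)}
  [IsAlgClosed (IsLocalRing.ResidueField A)] [CharP (IsLocalRing.ResidueField A) p]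
  [FF.IsFunctionField (IsLocalRing.ResidueField A)
    (modularFunctionFieldFullC (IsLocalRing.ResidueField A) M)]

local notation "kA" => IsLocalRing.ResidueField A

variable {X : Degen (IsLocalRing.residue A) (emb M p hp hpM)
  (modularFunctionFieldFullC (IsLocalRing.ResidueField A) M)}

/-- **The reduction at `0` of a function with power norm and power reduction at `∞`.** -/
theorem exists_pow_false_of_norm (hA : A.LiesOverPrime p) {e : ℕ} (he : e ≠ 0)
    {y : modularFunctionFieldBar (M * p)} {c1 c0 : Qb} (hy0 : y ≠ 0)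
    (hp1 : X.Prim true (c1 • y)) (hp0 : X.Prim false (c0 • y))
    (hui : emb M p hp hpM true (c1 • y)⁻¹ ∈ intSeries A)
    (hvi : emb M p hp hpM false (c0 • y)⁻¹ ∈ intSeries A)
    (hW : ∃ W : FN M Qb, W ^ e = normAlong (heckeAlphaBar Qb M p) y)
    (h1 : ∃ g : modularFunctionFieldFullC kA M, X.red true (c1 • y) = g ^ e) :
    ∃ g : modularFunctionFieldFullC kA M, X.red false (c0 • y) = g ^ e := by
  obtain ⟨W, hW⟩ := hW
  obtain ⟨g1, hg1⟩ := h1
  obtain ⟨ζ, hζ⟩ := exists_zeta p
  set u := (c1 • y)⁻¹ with hu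
  set v := (c0 • y)⁻¹ with hv
  obtain ⟨ys, hys⟩ := id hui
  obtain ⟨yd, hyd⟩ := id hvi
  set α := heckeAlphaBar Qb M p
  have hc1 : c1 ≠ 0 := fun h => hp1.ne_zero (by rw [h, zero_smul])
  have hc0 : c0 ≠ 0 := fun h => hp0.ne_zero (by rw [h, zero_smul])
  obtain ⟨r, hr⟩ := IsAlgClosed.exists_pow_nat_eq ((c1 * c0 ^ p)⁻¹) (Nat.pos_of_ne_zero he)
  set W' : FN M Qb := W⁻¹ * algebraMap Qb (FN M Qb) r with hW'
  -- the expansion of the `p`-th power
  have hC : ∀ (b : Bool) (c : Qb), c ≠ 0 → emb M p hp hpM b ((c • y)⁻¹) =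
      algebraMap Qb (LaurentSeries Qb) c⁻¹ * emb M p hp hpM b y⁻¹ := fun b c hc => by
    rw [Algebra.smul_def, mul_inv, map_mul, ← map_inv₀, emb_algebraMap]
  have hN : qExpand Qb p ((W' ^ e : FN M Qb) : LaurentSeries Qb) =
      qExpand Qb p (coeffMap A.subtype ys) *
        ∏ i : Fin p, twist (ζ ^ (i : ℕ)) (coeffMap A.subtype yd) := by
    have : IsFunctionField Qb (FN (M * p) Qb) := MC.isFunctionField_FN (M * p) embC
    have hy' : normAlong α y⁻¹ = (W⁻¹) ^ e := by
      refine eq_inv_of_mul_eq_one_left ?_ |>.trans (inv_pow W e).symm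
      rw [hW, ← map_mul, inv_mul_cancel₀ hy0, map_one]
    rw [hys, hyd, hu, hv, hC true c1 hc1, hC false c0 hc0, hW', mul_pow, ← map_pow, hr, ← hy',
      MulMemClass.coe_mul, map_mul, qExpand_norm M p hp hpM hζ]
    have hA' : ∀ c : Qb, qExpand Qb p (algebraMap Qb (LaurentSeries Qb) c) =
        algebraMap Qb (LaurentSeries Qb) c := fun c => by
      rw [algebraMap_laurentSeries_eq_single, qExpand_single, mul_zero]
    have hT : ∀ (z : Qbˣ) (c : Qb), twist z (algebraMap Qb (LaurentSeries Qb) c) =
        algebraMap Qb (LaurentSeries Qb) c :=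
      RED.twist_algebraMap
    simp only [map_mul, hA', hT, Finset.prod_mul_distrib, Finset.prod_const, Finset.card_univ,
      Fintype.card_fin]
    rw [show ((algebraMap Qb (FN M Qb) (c1 * c0 ^ p)⁻¹ : FN M Qb) : LaurentSeries Qb) =
      algebraMap Qb (LaurentSeries Qb) (c1 * c0 ^ p)⁻¹ from rfl, hA', mul_inv, map_mul]
    simp only [map_inv₀, map_pow, inv_pow]
    ring
  obtain ⟨y', hy', hred⟩ := exists_reduction_of_norm_type (π := IsLocalRing.residue A) hζ hN
  -- the reduction of the `p`-th power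
  have hcomp := comp_good hp hA M hpM
  have hZ : (FN M Qb).val.toRingHom (W' ^ e) ∈ intSeries A := ⟨y', hy'.symm⟩
  obtain ⟨huP, hur⟩ := X.prim_inv hp1
  obtain ⟨hvP, hvr⟩ := X.prim_inv hp0
  have hus : ((X.red true u : modularFunctionFieldFullC kA M) : LaurentSeries kA) =
      coeffMap (IsLocalRing.residue A) ys := by
    rw [X.red_of_int hui, ← redHom_coeffMap (IsLocalRing.residue A) ys ⟨ys, rfl⟩]
    exact (redF_of_mem hui).trans (congrArg _ (Subtype.ext hys.symm))
  have hvs : ((X.red false v : modularFunctionFieldFullC kA M) : LaurentSeries kA) =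
      coeffMap (IsLocalRing.residue A) yd := by
    rw [X.red_of_int hvi, ← redHom_coeffMap (IsLocalRing.residue A) yd ⟨yd, rfl⟩]
    exact (redF_of_mem hvi).trans (congrArg _ (Subtype.ext hyd.symm))
  set P : modularFunctionFieldFullC kA M := X.red true u * frobAut M p (A := A) • X.red false v
  have hZr : gRed (IsLocalRing.residue A) (FN M Qb).val.toRingHom (W' ^ e) =
      (P : LaurentSeries kA) := by
    rw [gRed_of_int hZ, redF_of_mem hZ, MulMemClass.coe_mul, coe_frobAut_smul, hus, hvs, ← hred,
      ← redHom_coeffMap (IsLocalRing.residue A) y' ⟨y', rfl⟩]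
    exact congrArg _ (Subtype.ext hy')
  have hP0 : P ≠ 0 := mul_ne_zero huP.2 ((smul_ne_zero_iff_ne (frobAut M p (A := A))).mpr hvP.2)
  -- `W'` reduces to a root `w` of the product
  have hW'm : W' ∈ gInt (IsLocalRing.residue A) (FN M Qb).val.toRingHom := by
    refine (hcomp.mem_or_inv_mem W').elim id fun hi => ?_
    have h0 : gRed (IsLocalRing.residue A) (FN M Qb).val.toRingHom W'⁻¹ ≠ 0 := fun h0 => by
      have h1 := gRed_mul (pow_mem hi e) (mem_gInt_of_int (π := IsLocalRing.residue A) hZ)
      rw [gRed_pow hi, h0, zero_pow he, zero_mul, inv_pow, inv_mul_cancel₀] at h1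
      · rw [gRed_of_int (by rw [map_one]; exact one_mem _), redF_one] at h1
        exact one_ne_zero h1
      · refine pow_ne_zero e fun hW0 => hP0 (Subtype.ext ?_)
        rw [← hZr, hW0, zero_pow he, gRed_zero]
        rfl
    have := (inv_mem_gInt hi h0).1
    rwa [inv_inv] at this
  set w : modularFunctionFieldFullC kA M :=
    ⟨gRed (IsLocalRing.residue A) (FN M Qb).val.toRingHom W', hcomp.gRed_mem_target W'⟩
  have hPw : P = w ^ e := Subtype.ext (by rw [← hZr, gRed_pow hW'm, SubmonoidClass.coe_pow])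
  -- so the twisted reduction at `0` is a power, hence the reduction itself
  have hf : frobAut M p (A := A) • X.red false v = (w * g1) ^ e := by
    rw [mul_pow, ← hPw, ← hg1]
    change _ = X.red true u * frobAut M p (A := A) • X.red false v * X.red true (c1 • y)
    rw [hur, mul_right_comm, inv_mul_cancel₀ hp1.2, one_mul]
  refine ⟨((frobAut M p (A := A))⁻¹ • (w * g1))⁻¹, ?_⟩
  rw [inv_pow, ← smul_pow', ← hf, inv_smul_smul, hvr, inv_inv]

/-- **The reduction at `0` of a presentation with power norm and power reduction at `∞`.** -/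
theorem exists_pow_false (hA : A.LiesOverPrime p)
    {R : RatData (IsLocalRing.residue A) (emb M p hp hpM)} {l : ℕ}
    {D : Divisor Qb (modularFunctionFieldBar (M * p))} {y : modularFunctionFieldBar (M * p)}
    {c1 c0 : Qb} (h : X.Pres R p l D y c1 c0)
    (hW : ∃ W : FN M Qb, W ^ p = normAlong (heckeAlphaBar Qb M p) y)
    (h1 : ∃ g : modularFunctionFieldFullC kA M, X.red true (c1 • y) = g ^ p) :
    ∃ g : modularFunctionFieldFullC kA M, X.red false (c0 • y) = g ^ p :=
  exists_pow_false_of_norm hA hp.ne_zero h.y_ne h.prim_true h.prim_false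
    (FOData.inv_int h h.prim_true) (FOData.inv_int h h.prim_false) hW h1

end Fermat.BAD.AtP

end
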