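import Fermat.Agent.BAD.AtP.PhiHecke
import Fermat.Agent.BAD.AtP.PhiFalse
import Fermat.Agent.BAD.AtP.Powers
import Fermat.Agent.BAD.AtP.DegenR
import Fermat.Agent.BAD.Inst.Rat

/-!
# Both reductions of the presentations in an eigen group are powers

In the supersingular case every class is a difference `γ x - x`; in the ordinary case the first
order data, the Hecke operators and the norms do it.
-/

set_option autoImplicit false
set_option linter.unusedSectionVars false

attribute [local instance 10000] SubalgebraClass.toAlgebra HahnSeries.powerSeriesAlgebra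

noncomputable section

open ModularCurve AlgebraicCurve IsLocalRing

namespace Fermat.BAD.AtP

open Fermat.MC Fermat.JAC Fermat.BAD.X0 Fermat.BAD.Corr Fermat.GR.RT

local notation "Qb" => AlgebraicClosure ℚ
local notation "Γℚ" => (AlgebraicClosure ℚ ≃ₐ[ℚ] AlgebraicClosure ℚ)

variable {M p : ℕ} [NeZero M] [NeZero p] [Fact p.Prime] {hp : p.Prime} {hpM : ¬ p ∣ M}
variable [FF.IsFunctionField Qb (FN (M * p) Qb)] [FF.IsFunctionField Qb (FN M Qb)]
variable {A : ValuationSubring (AlgebraicClosure ℚ)}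
  [IsAlgClosed (ResidueField A)] [CharP (ResidueField A) p]
  [FF.IsFunctionField (ResidueField A) (modularFunctionFieldFullC (ResidueField A) M)]
variable {rb : Γℚ →* GL (Fin 2) (ZMod p)} {V : AddSubgroup (JZero (M * p))}
variable {X : Degen (residue A) (emb M p hp hpM) (modularFunctionFieldFullC (ResidueField A) M)}

/-- The class of a presentation with a degree zero divisor. -/
theorem isCls_mk (D : Divisor.degZero (K := Qb) (F := modularFunctionFieldBar (M * p))) :
    IsCls (D : Divisor Qb (modularFunctionFieldBar (M * p))) (Pic0.mk D : JZero (M * p)) :=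
  ⟨D.2, rfl⟩

/-- **Supersingular case**: every class is `γ x - x`, so both reductions are powers. -/
theorem exists_pow_red_of_move {a₀ : ℕ} (F : LocalField p A rb a₀) (hA0 : X.A0 = A0 M p)
    {γ : Γℚ} (hγ : γ ∈ A.inertiaSubgroupIn ℚ) (hmaps : ∀ c ∈ F.M, γ c ∈ F.M)
    (hV : IsQuadratic rb V) (h1 : ((rb γ : Matrix (Fin 2) (Fin 2) (ZMod p)) - 1).det ≠ 0)
    {x : JZero (M * p)} (hx : x ∈ V) {b : Bool}
    {D : Divisor Qb (modularFunctionFieldBar (M * p))}
    {y : modularFunctionFieldBar (M * p)} {c : Qb}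
    (h : X.Rep p b x D y c) :
    ∃ z : modularFunctionFieldFullC (ResidueField A) M, X.red b (c • y) = z ^ p := by
  obtain ⟨x', hx', e⟩ := exists_smul_sub_eq rb hV h1 hx
  rw [← e] at h
  obtain ⟨z, -, hz⟩ := Degen.powEq_one_of_sub hp.ne_zero
    (Inst.coeffAut M p hp hpM F X hA0 γ hγ hmaps) (X0.galAut M p γ)
    (fun f => (Inst.coeffAut_s M p hp hpM F X hA0 γ hγ hmaps f).symm) (hV.torsion x' hx') h
  exact ⟨z, by rw [hz, one_mul]⟩

/-- **Ordinary case**: the reductions are powers by first order data, Hecke operators and norms. -/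
theorem exists_pow_red_of_foData (hp4 : 4 < p) (hA : A.LiesOverPrime p)
    (hrb : IsSemistableResidual p rb) {R : RatData (residue A) (emb M p hp hpM)}
    (W : FOData X R p (p : Qb)) (hS : X.S = SS M p hp hpM hA) (hne : X.S.Nonempty)
    {r : ℕ} (hr : r.Prime) (h12 : r % 12 = 11) (hrM : r ∣ M)
    (hmod : ¬ ModularOf p rb M) (hV : IsQuadratic rb V)
    (hT : ∀ i : GoodPrime rb M, ∀ x ∈ V,
      heckeOperatorBar (M * p) i.toPrimes x = (trFrob rb i.1).val • x)
    {D : Divisor.degZero (K := Qb) (F := modularFunctionFieldBar (M * p))}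
    (hx : (Pic0.mk D : JZero (M * p)) ∈ V) {l : ℕ} {y : modularFunctionFieldBar (M * p)}
    {c1 c0 : Qb}
    (h : X.Pres R p l (D : Divisor Qb (modularFunctionFieldBar (M * p))) y c1 c0) :
    (∃ z : modularFunctionFieldFullC (ResidueField A) M, X.red true (c1 • y) = z ^ p) ∧
      ∃ z : modularFunctionFieldFullC (ResidueField A) M, X.red false (c0 • y) = z ^ p := by
  obtain ⟨s₀, hs₀⟩ := hne
  obtain ⟨hoff, hon, -, -⟩ := Degen.Pres.orders hp W h hs₀
  have hrep := (Degen.Pres.rep h (isCls_mk D)).1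
  have hH : X.red true (c1 • y) ≠ 0 := hrep.red_ne
  have heig : ∀ (i : GoodPrime rb M) [NeZero i.1],
      PowEq p (X.red true (c1 • y) ^ (trFrob rb i.1).val)
        (nbarM (ResidueField A) M i.1 (X.red true (c1 • y))) := fun i _ =>
    powEq_nbar hA hrep hp.ne_zero i.2.1 i.2.2.1 (hT i _ hx)
  obtain ⟨i, hi⟩ := exists_good_prime_ne (by omega) hrb M
  have : NeZero i.1 := ⟨i.2.1.ne_zero⟩
  have hall := dvd_ord_all hA hS
    (fun s hs => Inst.ord_hbar_eq M p hp hpM hA X hS (NoElliptic.of_prime_dvd hr h12 hrM) hs)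
    hH hoff hs₀ hon i.2.1 i.2.2.1
    (heig i) (by rw [ZMod.natCast_zmod_val]; exact hi)
  obtain ⟨z, hz⟩ := exists_pow_eq_of_eigen hp hpM hA hmod hH hall heig
  refine ⟨⟨z, hz⟩, exists_pow_false hA h ?_ ⟨z, hz⟩⟩
  obtain ⟨Wt, hWt⟩ := exists_root_norm_of_eigen hmod hV hT hx h.y_ne h.div_eq true
  exact ⟨Wt, hWt⟩

end Fermat.BAD.AtP

end
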