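import Fermat.Agent.BAD.Mono.FirstOrder
import Fermat.Agent.BAD.Wit.Threshold
import Fermat.Agent.BAD.Engine.Theorems
import Fermat.Agent.JAC.EvalDiv

/-!
# The reductions of torsion classes, up to powers

For a class killed by `p` the reduction of a normalised function with divisor `p D` is well defined
up to `p`-th powers.  It is additive and does not change under inertia.  At first order its orders
at the glued points are congruent, and its orders elsewhere are divisible by `p`.
-/

set_option autoImplicit false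

attribute [local instance 10000] SubalgebraClass.toAlgebra HahnSeries.powerSeriesAlgebra

noncomputable section

open AlgebraicCurve

namespace Fermat.BAD

open Fermat.FF Fermat.RED.Model

variable {L : Type*} [Field L] {A : ValuationSubring L}
variable {k : Type*} [Field k] [IsAlgClosed L] [IsAlgClosed k]
variable {F : Type*} [Field F] [Algebra L F]
variable {π : A →+* k} {ι : Bool → F →+* LaurentSeries L}
  {K : IntermediateField k (LaurentSeries k)}
variable [FF.IsFunctionField L F] [FF.IsFunctionField k K]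

/-- `H'` is `H` times a nonzero `p`-th power. -/
def PowEq {G : Type*} [Field G] (p : ℕ) (H H' : G) : Prop := ∃ r : G, r ≠ 0 ∧ H' = H * r ^ p

namespace PowEq

variable {G : Type*} [Field G] {p : ℕ} {H H' H'' : G}

/-- Equality up to `p`-th powers is transitive. -/
theorem trans (h : PowEq p H H') (h' : PowEq p H' H'') : PowEq p H H'' := by
  obtain ⟨r, hr, rfl⟩ := h
  obtain ⟨r', hr', rfl⟩ := h'
  exact ⟨r * r', mul_ne_zero hr hr', by rw [mul_pow, mul_assoc]⟩

/-- Functions equal up to `p`-th powers have orders congruent modulo `p`. -/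
theorem dvd_ord {k' G' : Type*} [Field k'] [Field G'] [Algebra k' G']
    {H H' : G'} (h : PowEq p H H') (hH : H ≠ 0) (v : Place k' G') :
    (p : ℤ) ∣ v.ord H' - v.ord H := by
  obtain ⟨r, hr, rfl⟩ := h
  rw [v.ord_mul hH (pow_ne_zero p hr), FF.ord_pow, add_sub_cancel_left]
  exact dvd_mul_right _ _

end PowEq

namespace Degen

variable (X : Degen π ι K)

/-- A normalised function presenting the class `x` killed by `n`, at the component `b`. -/
structure Rep (n : ℕ) (b : Bool) (x : Pic0 L F) (D : Divisor L F) (y : F) (c : L) : Prop where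
  /-- `D` represents the class `x`. -/
  cls : IsCls D x
  /-- `y` is nonzero. -/
  y_ne : y ≠ 0
  /-- The divisor of `y` is `n D`. -/
  div_eq : divOf L y = n • D
  /-- `c y` is primitive on the component `b`. -/
  prim : X.Prim b (c • y)

variable {X} {n : ℕ} {b : Bool} {x x' : Pic0 L F} {D D' : Divisor L F} {y y' : F} {c c' : L}

/-- A class killed by `n` has a normalised presentation at each component. -/
theorem exists_rep (b : Bool) (hx : n • x = 0) : ∃ D y c, X.Rep n b x D y c := by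
  obtain ⟨D, hD⟩ := exists_isCls x
  obtain ⟨y, hy, hdiv⟩ := hD.exists_div hx
  obtain ⟨c, -, hp⟩ := X.exists_smul_prim b hy
  exact ⟨D, y, c, hD, hy, hdiv, hp⟩

/-- The normalising scale is nonzero. -/
theorem Rep.c_ne (h : X.Rep n b x D y c) : c ≠ 0 :=
  fun h0 => h.prim.ne_zero (by rw [h0, zero_smul])

/-- The reduction of a presentation is nonzero. -/
theorem Rep.red_ne (h : X.Rep n b x D y c) : X.red b (c • y) ≠ 0 := h.prim.2

/-- Two presentations of a class reduce to the same function up to `n`-th powers. -/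
theorem Rep.unique (hn : n ≠ 0) (h : X.Rep n b x D y c) (h' : X.Rep n b x D' y' c') :
    PowEq n (X.red b (c • y)) (X.red b (c' • y')) := by
  obtain ⟨hd, hcl⟩ := (h'.cls.add h.cls.neg)
  rw [add_neg_cancel] at hcl
  obtain ⟨g, hg, hgv⟩ := AddSubgroup.mem_addSubgroupOf.mp ((QuotientAddGroup.eq_zero_iff _).mp hcl)
  have hgd : divOf L g = D' + -D := Finsupp.ext fun v => by rw [divOf_apply]; exact (hgv v).symm
  obtain ⟨e, he, hge⟩ := X.exists_smul_prim b hg
  set z := c • y * (e • g) ^ n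
  have hz : X.Prim b z := h.prim.mul (hge.pow n)
  have hzy : divOf L z = divOf L (c' • y') := by
    rw [divOf_mul h.prim.ne_zero (pow_ne_zero n hge.ne_zero), JAC.divOf_pow,
      divOf_const_smul h.c_ne h.y_ne, divOf_const_smul he hg, divOf_const_smul h'.c_ne h'.y_ne,
      h.div_eq, h'.div_eq, hgd, smul_add, smul_neg]
    abel
  obtain ⟨δ, hδ, heq⟩ := JAC.exists_eq_smul_of_divOf_eq h'.prim.ne_zero hz.ne_zero hzy.symm
  rw [← Algebra.smul_def] at heq
  have hδA : δ ∈ A := hz.mem_of_smul (by rw [← heq]; exact h'.prim.1)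
  have hπ : π ⟨δ, hδA⟩ ≠ 0 := fun h0 => h'.prim.2 (by
    rw [heq, show δ = ((⟨δ, hδA⟩ : A) : L) from rfl, X.red_smul _ hz.1, h0, zero_smul])
  obtain ⟨a, ha⟩ := IsAlgClosed.exists_pow_nat_eq (π ⟨δ, hδA⟩) (Nat.pos_of_ne_zero hn)
  refine ⟨algebraMap k K a * X.red b (e • g), mul_ne_zero ((_root_.map_ne_zero _).mpr fun h0 => hπ
    (by rw [← ha, h0, zero_pow hn])) hge.2, ?_⟩
  rw [heq, show δ = ((⟨δ, hδA⟩ : A) : L) from rfl, X.red_smul _ hz.1,
    X.red_mul h.prim.1 (pow_mem hge.1 n), X.red_pow hge.1, Algebra.smul_def, mul_pow, ← map_pow, ha]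
  ring

/-- Products present sums. -/
theorem Rep.mul (h : X.Rep n b x D y c) (h' : X.Rep n b x' D' y' c') :
    X.Rep n b (x + x') (D + D') (y * y') (c * c') ∧
      X.red b ((c * c') • (y * y')) = X.red b (c • y) * X.red b (c' • y') := by
  have e : (c * c') • (y * y') = c • y * c' • y' := (smul_mul_smul_comm c y c' y').symm
  refine ⟨⟨h.cls.add h'.cls, mul_ne_zero h.y_ne h'.y_ne, ?_, e ▸ h.prim.mul h'.prim⟩, ?_⟩
  · rw [divOf_mul h.y_ne h'.y_ne, h.div_eq, h'.div_eq, smul_add]
  · rw [e, X.red_mul h.prim.1 h'.prim.1]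

/-- Powers present multiples. -/
theorem Rep.nsmul (h : X.Rep n b x D y c) (j : ℕ) :
    X.Rep n b (j • x) (j • D) (y ^ j) (c ^ j) ∧
      X.red b (c ^ j • y ^ j) = X.red b (c • y) ^ j := by
  refine ⟨⟨h.cls.nsmul j, pow_ne_zero j h.y_ne, ?_, ?_⟩, ?_⟩
  · rw [JAC.divOf_pow, h.div_eq, smul_comm]
  · rw [← smul_pow]; exact h.prim.pow j
  · rw [← smul_pow, X.red_pow h.prim.1]

variable {R : RatData π ι}

/-- An automorphism of the coefficients fixes the reductions of everything defined generically. -/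
theorem CoeffAut.map_gInt (T : CoeffAut X R) {f : F} (hf : f ∈ gInt π (ι b)) :
    T.s f ∈ gInt π (ι b) ∧ X.red b (T.s f) = X.red b f := by
  obtain ⟨g, u, hg, hu, hu0, e⟩ := id hf
  have hr : ∀ {z : F} (hz : ι b z ∈ intSeries A), redF π (ι b) (T.s z) = redF π (ι b) z :=
    fun {z} hz => by
      rw [← gRed_of_int (T.int hz), ← gRed_of_int hz, ← X.coe_red, ← X.coe_red, T.red hz]
  have hq : IsGQuot π (ι b) (T.s f) (T.s g) (T.s u) :=
    ⟨T.int hg, T.int hu, by rwa [hr hu], by rw [← map_mul, e]⟩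
  refine ⟨hq.mem, Subtype.ext ?_⟩
  rw [coe_red, coe_red, hq.gRed_eq, IsGQuot.gRed_eq ⟨hg, hu, hu0, e⟩, hr hg, hr hu]

/-- The image of a presentation under a coefficient automorphism, with unchanged reduction. -/
theorem Rep.map (h : X.Rep n b x D y c) (T : CoeffAut X R) (g : SemilinearAut L F)
    (hg : ∀ f, g • f = T.s f) :
    X.Rep n b (g • x) (g • D) (T.s y) (T.σ c) ∧
      X.red b (T.σ c • T.s y) = X.red b (c • y) := by
  obtain ⟨h1, h2⟩ := T.map_gInt h.prim.1
  rw [← T.s_smul]
  refine ⟨⟨h.cls.smul g, (_root_.map_ne_zero _).mpr h.y_ne, ?_, ?_⟩, h2⟩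
  · rw [← hg, JAC.divOf_smul, h.div_eq]
    exact map_nsmul (DistribSMul.toAddMonoidHom (Divisor L F) g) n D
  · rw [← T.s_smul]
    exact ⟨h1, by rw [h2]; exact h.prim.2⟩

/-- **Differences `g x - x` reduce to powers.** -/
theorem powEq_one_of_sub (hn : n ≠ 0) (T : CoeffAut X R) (g : SemilinearAut L F)
    (hg : ∀ f, g • f = T.s f) (hx : n • x = 0) (h' : X.Rep n b (g • x - x) D' y' c') :
    PowEq n 1 (X.red b (c' • y')) := by
  obtain ⟨D, y, c, h⟩ := exists_rep (X := X) b hx
  obtain ⟨h1, e1⟩ := h.map T g hg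
  obtain ⟨h2, e2⟩ := h'.mul h
  rw [sub_add_cancel] at h2
  obtain ⟨r, hr, e⟩ := Rep.unique hn h1 h2
  rw [e1, e2, mul_comm] at e
  exact ⟨r, hr, by rw [one_mul]; exact mul_left_cancel₀ h.prim.2 e⟩

/-- The reductions of a presentation at both components are reductions of presentations. -/
theorem Pres.rep {l : ℕ} {c1 c0 : L} (h : X.Pres R n l D y c1 c0) (hcls : IsCls D x) :
    X.Rep n true x D y c1 ∧ X.Rep n false x D y c0 :=
  ⟨⟨hcls, h.y_ne, h.div_eq, h.prim_true⟩, ⟨hcls, h.y_ne, h.div_eq, h.prim_false⟩⟩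

/-- **First order:** away from the glued points the orders are divisible by `p`, on them they are
congruent to one another and opposite to those of the other component. -/
theorem Pres.orders {p l : ℕ} {ϖ c1 c0 : L} (hp : p.Prime) (W : FOData X R p ϖ)
    (h : X.Pres R p l D y c1 c0) {s₀ : Place k K} (hs₀ : s₀ ∈ X.S) :
    (∀ v, v ∉ X.S → (p : ℤ) ∣ v.ord (X.red true (c1 • y))) ∧
      (∀ s ∈ X.S, (p : ℤ) ∣ s.ord (X.red true (c1 • y)) - s₀.ord (X.red true (c1 • y))) ∧
      (∀ v, v ∉ X.flip.S → (p : ℤ) ∣ v.ord (X.red false (c0 • y))) ∧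
      ∀ s ∈ X.S, (p : ℤ) ∣
        (X.Qf s).ord (X.red false (c0 • y)) + s₀.ord (X.red true (c1 • y)) := by
  obtain ⟨-, h1, h0⟩ := X.exc_eq hp.ne_zero W.ϖ_ne W.toNode h.y_ne h.div_eq h.prim_true h.prim_false
  have hr := FOData.residues W hp h
  refine ⟨h1, fun s hs => ?_, h0, fun s hs => ?_⟩
  · have := _root_.dvd_sub (hr s hs s₀ hs₀) (hr s₀ hs₀ s₀ hs₀)
    rwa [add_sub_add_right_eq_sub] at this
  · rw [add_comm]; exact hr s₀ hs₀ s hs

end Degen

end Fermat.BAD

end
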