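import Fermat.Agent.BAD.AtP.PhiCore
import Fermat.Agent.BAD.AtP.EigenModular
import Fermat.Agent.BAD.Corr.HasseNorm
import Fermat.Agent.BAD.Corr.Finite
import Fermat.Agent.BAD.X0.Count

/-!
# The reduction at `∞` of an eigen class

For an eigen class of `T_l` on `J₀(M p)[p]` the reduction at `∞` of a presentation is an eigen
function of the reduced correspondence up to `p`-th powers.  If its orders are divisible away from
the glued points and congruent on them, then they are all divisible as soon as one eigenvalue is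
not `l + 1`; then the function is a `p`-th power unless `rb` is modular of level `M`.
-/

set_option autoImplicit false
set_option linter.unusedSectionVars false

attribute [local instance 10000] SubalgebraClass.toAlgebra HahnSeries.powerSeriesAlgebra

noncomputable section

open ModularCurve AlgebraicCurve

namespace Fermat.BAD.AtP

open Fermat.FF Fermat.MC Fermat.JAC Fermat.JAC.X0 Fermat.RED Fermat.RED.Model Fermat.BAD.X0
  Fermat.BAD.Corr Fermat.GR.RT

local notation "Qb" => AlgebraicClosure ℚ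
local notation "Γℚ" => (AlgebraicClosure ℚ ≃ₐ[ℚ] AlgebraicClosure ℚ)

variable {M p : ℕ} [NeZero M] [NeZero p] [Fact p.Prime] {hp : p.Prime} {hpM : ¬ p ∣ M}
variable [FF.IsFunctionField Qb (FN (M * p) Qb)] [FF.IsFunctionField Qb (FN M Qb)]
variable {A : ValuationSubring (AlgebraicClosure ℚ)}
  [IsAlgClosed (IsLocalRing.ResidueField A)] [CharP (IsLocalRing.ResidueField A) p]
  [FF.IsFunctionField (IsLocalRing.ResidueField A)
    (modularFunctionFieldFullC (IsLocalRing.ResidueField A) M)]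

local notation "kA" => IsLocalRing.ResidueField A

variable {X : Degen (IsLocalRing.residue A) (emb M p hp hpM)
  (modularFunctionFieldFullC (IsLocalRing.ResidueField A) M)}
variable {n : ℕ} {x : JZero (M * p)} {D : Divisor Qb (modularFunctionFieldBar (M * p))}
  {y : modularFunctionFieldBar (M * p)} {c : Qb}

/-- `T_l` of a presentation at `∞`. -/
theorem rep_heckeT (hA : A.LiesOverPrime p) (h : X.Rep n true x D y c)
    {l : ℕ} [NeZero l] (hl : l.Prime) (hlN : ¬ l ∣ M * p) :
    ∃ D' y', X.Rep n true (heckeOperatorBar (M * p) ⟨l, hl⟩ x) D' y' 1 ∧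
      X.red true ((1 : Qb) • y') = nbarM kA M l (X.red true (c • y)) := by
  have hlp : l ≠ p := fun e => hlN (by rw [e]; exact dvd_mul_left p M)
  have hlM : ¬ l ∣ M := fun h => hlN (dvd_mul_of_dvd_left h p)
  have : IsFunctionField Qb (FN (M * p * l) Qb) := MC.isFunctionField_FN (M * p * l) embC
  have : IsFunctionField kA (modularFunctionFieldFullC kA (M * l)) :=
    Fermat.RED.Cusps.isFunctionField (natCast_mul_ne_zero hp hA hl hlp hpM)
  set α := heckeAlphaBar Qb (M * p) l
  set β := heckeBetaBar Qb (M * p) l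
  set z := normAlong α (β (c • y)) with hz
  have hz0 : z ≠ 0 := normAlong_ne_zero α ((_root_.map_ne_zero _).mpr h.prim.ne_zero)
  obtain ⟨⟨hD, hcl⟩, hy0, hdiv, hprim⟩ := id h
  have hpull : pullDiv β D ∈ Divisor.degZero := by
    rw [Divisor.mem_degZero, degree_pullDiv, Divisor.mem_degZero.mp hD, mul_zero]
  have hpush : pushDiv α (pullDiv β D) ∈ Divisor.degZero := by
    rw [Divisor.mem_degZero, degree_pushDiv]
    exact Divisor.mem_degZero.mp hpull
  have hcls : IsCls (pushDiv α (pullDiv β D)) (heckeOperatorBar (M * p) ⟨l, hl⟩ x) := by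
    refine ⟨hpush, ?_⟩
    rw [← hcl]
    refine ((heckeOperatorBar_eq (M * p) (⟨l, hl⟩ : Nat.Primes) (Pic0.mk ⟨D, hD⟩)).trans
      ((congrArg (pushPic α) (pullPic_mk β ⟨D, hD⟩ hpull)).trans
        (pushPic_mk α ⟨_, hpull⟩ hpush))).symm
  obtain ⟨hm, hr⟩ := gRed_heckeNorm hp hA hl hlp hpM hlM (M * p) rfl (f := c • y) hprim.1
  have hred : X.red true z = nbarM kA M l (X.red true (c • y)) := Subtype.ext hr
  refine ⟨pushDiv α (pullDiv β D), z, ⟨hcls, hz0, ?_, ?_⟩, ?_⟩
  · rw [← map_nsmul, ← map_nsmul, ← hdiv, ← divOf_const_smul h.c_ne hy0, pullDiv_divOf,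
      pushDiv_divOf α ((_root_.map_ne_zero _).mpr h.prim.ne_zero)]
  · rw [one_smul]
    refine ⟨hm, ?_⟩
    rw [hred]
    exact normAlong_ne_zero _ ((_root_.map_ne_zero _).mpr hprim.2)
  · rw [one_smul, hred]

/-- The reduction at `∞` of an eigen class is an eigen function up to powers. -/
theorem powEq_nbar (hA : A.LiesOverPrime p) (h : X.Rep n true x D y c) (hn : n ≠ 0)
    {l : ℕ} [NeZero l] (hl : l.Prime) (hlN : ¬ l ∣ M * p) {a : ℕ}
    (hx : heckeOperatorBar (M * p) ⟨l, hl⟩ x = a • x) :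
    PowEq n (X.red true (c • y) ^ a) (nbarM kA M l (X.red true (c • y))) := by
  obtain ⟨D', y', h1, e1⟩ := rep_heckeT hA h hl hlN
  obtain ⟨h2, e2⟩ := h.nsmul a
  rw [← e1, ← e2]
  rw [hx] at h1
  exact Degen.Rep.unique hn h2 h1

/-- **Congruent orders vanish at an eigenvalue other than `l + 1`.** -/
theorem dvd_ord_all_of_prime (hA : A.LiesOverPrime p) {e : ℕ} (he : e.Prime)
    (hS : X.S = SS M p hp hpM hA)
    (h12 : ∀ s ∈ SS M p hp hpM hA, s.ord (hbar M p hp hpM hA) = 12)
    {H : modularFunctionFieldFullC kA M} (hH : H ≠ 0)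
    (hoff : ∀ v : Place kA (modularFunctionFieldFullC kA M), v ∉ X.S → (e : ℤ) ∣ v.ord H)
    {s₀ : Place kA (modularFunctionFieldFullC kA M)} (hs₀ : s₀ ∈ X.S)
    (hon : ∀ s ∈ X.S, (e : ℤ) ∣ s.ord H - s₀.ord H)
    {l : ℕ} [NeZero l] (hl : l.Prime) (hlN : ¬ l ∣ M * p) {a : ℕ}
    (hHl : PowEq e (H ^ a) (nbarM kA M l H)) (hal : (a : ZMod e) ≠ ((l + 1 : ℕ) : ZMod e)) :
    ∀ v : Place kA (modularFunctionFieldFullC kA M), (e : ℤ) ∣ v.ord H := by
  classical
  have hlp : l ≠ p := fun e => hlN (by rw [e]; exact dvd_mul_left p M)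
  have : IsFunctionField kA (modularFunctionFieldFullC kA (M * l)) :=
    Fermat.RED.Cusps.isFunctionField (natCast_mul_ne_zero hp hA hl hlp hpM)
  set u := hbar M p hp hpM hA
  have hu := hbar_ne_zero M p hp hpM hA
  set ν := s₀.ord H
  set O1 : Divisor kA (modularFunctionFieldFullC kA M) := ∑ s ∈ X.S,
    Finsupp.single s (1 : ℤ) with hO1
  have hO1v : ∀ v, O1 v = if v ∈ X.S then 1 else 0 := fun v => by
    rw [hO1, Finsupp.finsetSum_apply]
    simp [Finsupp.single_apply]
  have hCu : ∀ v, OrdGE v (jX kA M) 0 → (divOf kA u - (12 : ℤ) • O1) v = 0 := fun v hv => by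
    rw [Finsupp.sub_apply, Finsupp.smul_apply, hO1v, divOf_apply, smul_eq_mul]
    by_cases hvS : v ∈ X.S
    · rw [if_pos hvS, mul_one, h12 v (hS ▸ hvS), sub_self]
    · rw [if_neg hvS, mul_zero, sub_zero]
      rw [hS, mem_SS] at hvS
      push Not at hvS
      refine le_antisymm (hvS hv) ?_
      obtain ⟨g, -, -, hg⟩ := exists_hSer_eq_aeval p hp hA
      have hue : u = Polynomial.aeval (jX kA M) g :=
        (expX kA M).injective (by rw [expX_aeval]; exact hg)
      rw [hue]
      exact (ordGE_aeval hv g).le_ord (hue ▸ hu)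
  set E : Divisor kA (modularFunctionFieldFullC kA M) := divOf kA H - ν • O1 with hE
  have hEv : ∀ v, E v = v.ord H - ν * O1 v := fun v => by
    simp [hE, divOf_apply]
  -- modulo `p` the divisor `E` lives at the poles of `j`
  have hEfin : ∀ v, OrdGE v (jX kA M) 0 → (e : ℤ) ∣ E v := fun v hv => by
    rw [hEv, hO1v]
    by_cases hvS : v ∈ X.S
    · rw [if_pos hvS, mul_one]
      exact hon v hvS
    · rw [if_neg hvS, mul_zero, sub_zero]
      exact hoff v hvS
  set E1 := E.mapRange (fun z => z / (e : ℤ)) (Int.zero_ediv _)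
  set C := E - e • E1 with hC
  have hC0 : ∀ v, OrdGE v (jX kA M) 0 → C v = 0 := fun v hv => by
    simp only [hC, Finsupp.sub_apply, Finsupp.smul_apply, E1, Finsupp.mapRange_apply, nsmul_eq_mul]
    rw [Int.mul_ediv_cancel' (hEfin v hv), sub_self]
  have hs₀' := hs₀
  rw [hS, mem_SS] at hs₀'
  have hj : Transcendental kA (jX kA M) := Cusps.transcendental_jX
  have hTC := tbarM_eq_zero M hl (by
    exact natCast_ne_zero_residue A hp hA fun h =>
      hlp ((Nat.prime_dvd_prime_iff_eq hp hl).mp h).symm)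
    hj hC0 hs₀'.1
  have hTE : (e : ℤ) ∣ tbarM kA M l E s₀ := by
    rw [show E = C + e • E1 by rw [hC, sub_add_cancel], map_add, map_nsmul, Finsupp.add_apply, hTC,
      zero_add, Finsupp.smul_apply, nsmul_eq_mul]
    exact dvd_mul_right _ _
  have hNH : (e : ℤ) ∣ tbarM kA M l (divOf kA H) s₀ - a * ν := by
    rw [tbar_divOf l _ _ hH, divOf_apply]
    have := hHl.dvd_ord (pow_ne_zero a hH) s₀
    rwa [FF.ord_pow] at this
  have hNu : tbarM kA M l O1 s₀ = (l : ℤ) + 1 := by
    have h := tbarM_eq_zero M hl (by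
      exact natCast_ne_zero_residue A hp hA fun h =>
        hlp ((Nat.prime_dvd_prime_iff_eq hp hl).mp h).symm)
      hj hCu hs₀'.1
    rw [map_sub, map_zsmul, Finsupp.sub_apply, Finsupp.smul_apply, sub_eq_zero,
      tbar_divOf l _ _ hu, divOf_apply] at h
    have h2 : s₀.ord (nbarM kA M l u) = ((l : ℤ) + 1) * 12 := by
      rw [nbarM_hbar M p hp hpM hA l hl hlN, FF.ord_pow, h12 s₀ (hS ▸ hs₀)]
      push_cast
      ring
    have h3 := h2.symm.trans h
    rw [smul_eq_mul] at h3
    linarith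
  -- comparing `T_l` of the divisor at `s₀`: `ν (a - (l + 1))` is divisible
  have hmain : (e : ℤ) ∣ ν * ((a : ℤ) - (l + 1)) := by
    rw [hE, map_sub, map_zsmul, Finsupp.sub_apply, Finsupp.smul_apply, smul_eq_mul, hNu] at hTE
    have e12 : ν * ((a : ℤ) - (l + 1)) =
        (tbarM kA M l (divOf kA H) s₀ - ν * ((l : ℤ) + 1)) -
          (tbarM kA M l (divOf kA H) s₀ - a * ν) := by ring
    rw [e12]
    exact _root_.dvd_sub hTE hNH
  have hν : (e : ℤ) ∣ ν := by
    refine ((Nat.prime_iff_prime_int.mp he).dvd_mul.mp hmain).resolve_right fun h => hal ?_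
    rw [← sub_eq_zero]
    have := (ZMod.intCast_zmod_eq_zero_iff_dvd _ e).mpr h
    push_cast at this ⊢
    exact this
  intro v
  by_cases hv : v ∈ X.S
  · have := dvd_add (hon v hv) hν
    rwa [sub_add_cancel] at this
  · exact hoff v hv

/-- Orders divisible by `p` off the supersingular places and congruent on them are all divisible by
`p`, if `H ^ a` is `T̄_l H` up to `p`-th powers with `a ≢ l + 1`. -/
theorem dvd_ord_all (hA : A.LiesOverPrime p)
    (hS : X.S = SS M p hp hpM hA)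
    (h12 : ∀ s ∈ SS M p hp hpM hA, s.ord (hbar M p hp hpM hA) = 12)
    {H : modularFunctionFieldFullC kA M} (hH : H ≠ 0)
    (hoff : ∀ v : Place kA (modularFunctionFieldFullC kA M), v ∉ X.S → (p : ℤ) ∣ v.ord H)
    {s₀ : Place kA (modularFunctionFieldFullC kA M)} (hs₀ : s₀ ∈ X.S)
    (hon : ∀ s ∈ X.S, (p : ℤ) ∣ s.ord H - s₀.ord H)
    {l : ℕ} [NeZero l] (hl : l.Prime) (hlN : ¬ l ∣ M * p) {a : ℕ}
    (hHl : PowEq p (H ^ a) (nbarM kA M l H)) (hal : (a : ZMod p) ≠ ((l + 1 : ℕ) : ZMod p)) :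
    ∀ v : Place kA (modularFunctionFieldFullC kA M), (p : ℤ) ∣ v.ord H :=
  dvd_ord_all_of_prime hA hp hS h12 hH hoff hs₀ hon hl hlN hHl hal

/-- An eigen function with divisible divisor is a power, or gives a killed eigen class. -/
theorem exists_pow_or_class {e : ℕ} (he : e.Prime) {H : modularFunctionFieldFullC kA M} (hH : H ≠ 0)
    (hdvd : ∀ v : Place kA (modularFunctionFieldFullC kA M), (e : ℤ) ∣ v.ord H) :
    (∃ h : modularFunctionFieldFullC kA M, H = h ^ e) ∨
      ∃ z : Pic0 kA (modularFunctionFieldFullC kA M), z ≠ 0 ∧ e • z = 0 ∧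
        ∀ (l a : ℕ) [NeZero l] [FF.IsFunctionField kA (modularFunctionFieldFullC kA (M * l))],
          PowEq e (H ^ a) (nbarM kA M l H) → tbarMPic kA M l z = a • z := by
  classical
  set E := (divOf kA H).mapRange (fun z => z / (e : ℤ)) (Int.zero_ediv _) with hE
  have heE : e • E = divOf kA H := Finsupp.ext fun v => by
    simp only [hE, Finsupp.smul_apply, Finsupp.mapRange_apply, nsmul_eq_mul]
    exact Int.mul_ediv_cancel' (by rw [divOf_apply]; exact hdvd v)
  have hE0 : E ∈ Divisor.degZero := by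
    have h := congrArg Divisor.degree heE
    rw [map_nsmul, degree_divOf, smul_eq_zero] at h
    exact Divisor.mem_degZero.mpr (h.resolve_left he.ne_zero)
  set z : Pic0 kA (modularFunctionFieldFullC kA M) := Pic0.mk ⟨E, hE0⟩
  -- either the class of the divided divisor vanishes, or it is the eigen class
  by_cases hz : z = 0
  · obtain ⟨g, hg, hgv⟩ :=
      AddSubgroup.mem_addSubgroupOf.mp ((QuotientAddGroup.eq_zero_iff _).mp hz)
    have hd : divOf kA H = divOf kA (g ^ e) := by
      rw [JAC.divOf_pow, ← heE]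
      exact congrArg (e • ·) (Finsupp.ext fun v => by rw [divOf_apply]; exact hgv v)
    obtain ⟨d, -, hd'⟩ := JAC.exists_eq_smul_of_divOf_eq hH (pow_ne_zero e hg) hd
    obtain ⟨r, hr⟩ := IsAlgClosed.exists_pow_nat_eq d he.pos
    exact Or.inl ⟨algebraMap kA _ r * g, by rw [mul_pow, ← map_pow, hr, hd']⟩
  refine Or.inr ⟨z, hz, ?_, fun l a _ _ hla => ?_⟩
  · obtain ⟨hh, hcl⟩ := (show IsCls E z from ⟨hE0, rfl⟩).nsmul e
    rw [← hcl]
    refine (QuotientAddGroup.eq_zero_iff _).mpr (AddSubgroup.mem_addSubgroupOf.mpr ⟨H,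
      hH, fun v => ?_⟩)
    change (e • E : Divisor kA _) v = _
    rw [heE, divOf_apply]
  · obtain ⟨r, hr, e'⟩ := hla
    rw [show z = Pic0.mk ⟨E, hE0⟩ from rfl,
      tbarPic_mk l _ _ ⟨E, hE0⟩ (tbar_mem_degZero l _ _ hE0)]
    obtain ⟨hh, hc2⟩ := (show IsCls E z from ⟨hE0, rfl⟩).nsmul a
    rw [← hc2, Pic0.mk, Pic0.mk, QuotientAddGroup.eq]
    refine AddSubgroup.mem_addSubgroupOf.mpr ⟨r⁻¹, inv_ne_zero hr, fun v => ?_⟩
    have h1 : (e : ℤ) * tbarM kA M l E v = (e : ℤ) * ((a : ℤ) * E v + v.ord r) := by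
      have h2 : tbarM kA M l (e • E) v = v.ord (nbarM kA M l H) := by
        rw [heE, tbar_divOf l _ _ hH, divOf_apply]
      rw [map_nsmul, Finsupp.smul_apply, nsmul_eq_mul, e',
        v.ord_mul (pow_ne_zero a hH) (pow_ne_zero e hr), FF.ord_pow, FF.ord_pow,
        ← divOf_apply (K := kA) H, ← heE, Finsupp.smul_apply, nsmul_eq_mul] at h2
      rw [h2]; ring
    have h3 := mul_left_cancel₀ (Int.natCast_ne_zero.mpr he.ne_zero) h1
    change (-(tbarM kA M l E) + a • E : Divisor kA _) v = v.ord r⁻¹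
    rw [Finsupp.add_apply, Finsupp.neg_apply, Finsupp.smul_apply, h3, v.ord_inv, nsmul_eq_mul]
    ring

/-- **An eigen function with divisible divisor is a power, without modularity of level `M`.** -/
theorem exists_pow_eq_of_eigen (hp : p.Prime) (hpM : ¬ p ∣ M) (hA : A.LiesOverPrime p)
    {rb : Γℚ →* GL (Fin 2) (ZMod p)} (hmod : ¬ ModularOf p rb M)
    {H : modularFunctionFieldFullC kA M} (hH : H ≠ 0)
    (hdvd : ∀ v : Place kA (modularFunctionFieldFullC kA M), (p : ℤ) ∣ v.ord H)
    (heig : ∀ (i : GoodPrime rb M) [NeZero i.1],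
      PowEq p (H ^ (trFrob rb i.1).val) (nbarM kA M i.1 H)) :
    ∃ h : modularFunctionFieldFullC kA M, H = h ^ p := by
  refine (exists_pow_or_class hp hH hdvd).resolve_right fun h => hmod ?_
  obtain ⟨z, hz, hpz, hev⟩ := h
  exact modularOf_of_redEigen hp hA hpM
    (fun i e => i.2.2.1 (by rw [e]; exact dvd_mul_left p M)) hz hpz fun i => hev _ _ (heig i)

end Fermat.BAD.AtP

end
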